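/-
Project M59 (S59), Sink B, cell [E22-3], sub-cell (ABS) (helper5).  Tag `m59e3_`.

THE LINEAR ALGEBRA OF THE `S₃`-ARGUMENT, as ONE abstract theorem (`m59e3_abs_main`).

Finite-dimensional `k`-spaces `V'` (deep level `Γ'' = Γ₀(N) ∩ Γ(2)`), `V1` (level `Γ₃`, index `3`),
`V2` (level `Γ₀(2N)`, index `2`).  Commuting operators `T' ℓ` on `V'`, operators `T2 ℓ` on `V2`, ONE
operator `T1` on `V1` (the Hecke operator at the non-Eisenstein index `ℓ₀`).  `C`, `Wf`, `Wb = Wf⁻¹`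
and `g = C ∘ Wf ∘ C ∘ Wb` act on `V'` and commute with the `T'`; `res₂ cor₂ = 1 + C`,
`res₁ cor₁ = 1 + g + g²`.  Pairings `Ω'`, `Ω1` non-degenerate, `Ω1` skew, restriction adjoint to
transfer, `T' ℓ₀` self-adjoint (DEEP LEVEL ONLY).  `ker res₁ ⊆ k χ`, `χ` Eisenstein; the obstruction `ob`
is Eisenstein on `g`-invariants and `g z = z`, `ob z = 0` force `z ∈ range res₁`.

CONCLUSION (`2 ≠ 0`, `3 = 0` in `k`, `a ℓ₀ ≠ e ℓ₀`): if the localisation of `V2` at `a` vanishes, so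
does the localisation of `V'`.  No commutativity and no self-adjointness at the level of `V1`.
-/
import Mathlib
import Fermat.Agent.TW.Aut.FreeAbs

set_option autoImplicit false
set_option linter.unusedSectionVars false
set_option linter.unusedVariables false

noncomputable section

namespace Fermat.Agent.M59

open Module Fermat.Agent.TW

/-- the data of the abstract `S₃`-argument. -/
structure m59e3_Abs (k : Type*) [Field k] (L : Type*) (V' V1 V2 : Type*)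
    [AddCommGroup V'] [Module k V'] [AddCommGroup V1] [Module k V1]
    [AddCommGroup V2] [Module k V2] where
  T' : L → Module.End k V'
  T2 : L → Module.End k V2
  ℓ₀ : L
  T1 : Module.End k V1
  e : L → k
  C : Module.End k V'
  Wf : Module.End k V'
  Wb : Module.End k V'
  g : Module.End k V'
  res1 : V1 →ₗ[k] V'
  cor1 : V' →ₗ[k] V1
  res2 : V2 →ₗ[k] V'
  cor2 : V' →ₗ[k] V2
  Ω' : V' →ₗ[k] V' →ₗ[k] k
  Ω1 : V1 →ₗ[k] V1 →ₗ[k] k
  χ : V1
  ob : V' →ₗ[k] k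
  commT' : ∀ ℓ ℓ', Commute (T' ℓ) (T' ℓ')
  C_T : ∀ ℓ z, C (T' ℓ z) = T' ℓ (C z)
  Wf_T : ∀ ℓ z, Wf (T' ℓ z) = T' ℓ (Wf z)
  Wb_T : ∀ ℓ z, Wb (T' ℓ z) = T' ℓ (Wb z)
  Wf_Wb : ∀ z, Wf (Wb z) = z
  g_eq : ∀ z, g z = C (Wf (C (Wb z)))
  cor2_T : ∀ ℓ z, cor2 (T' ℓ z) = T2 ℓ (cor2 z)
  res2_cor2 : ∀ z, res2 (cor2 z) = z + C z
  res1_T : ∀ x, res1 (T1 x) = T' ℓ₀ (res1 x)
  cor1_T : ∀ z, cor1 (T' ℓ₀ z) = T1 (cor1 z)
  res1_cor1 : ∀ z, res1 (cor1 z) = z + g z + g (g z)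
  nd' : ∀ z, (∀ y, Ω' z y = 0) → z = 0
  nd1 : ∀ x, (∀ y, Ω1 x y = 0) → x = 0
  skew1 : ∀ x y, Ω1 x y = - Ω1 y x
  adj : ∀ x z, Ω' (res1 x) z = Ω1 x (cor1 z)
  sa' : ∀ x y, Ω' (T' ℓ₀ x) y = Ω' x (T' ℓ₀ y)
  ker_res1 : ∀ x, res1 x = 0 → ∃ c : k, x = c • χ
  T1_χ : T1 χ = e ℓ₀ • χ
  ob_res : ∀ z, g z = z → ob z = 0 → z ∈ LinearMap.range res1
  ob_T : ∀ z, g z = z → ob (T' ℓ₀ z) = e ℓ₀ • ob z

section lemmas

variable {k : Type*} [Field k] {V : Type*} [AddCommGroup V] [Module k V]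
  {W : Type*} [AddCommGroup W] [Module k W]

/-- an "Eisenstein" functional vanishes on the generalised eigenspaces of the other eigenvalues. -/
theorem m59e3_abs_eisfun (f : Module.End k V) (ψ : V →ₗ[k] k) (U : Submodule k V)
    (hU : ∀ u ∈ U, f u ∈ U) (e μ : k) (hμ : μ ≠ e) (h : ∀ u ∈ U, ψ (f u) = e • ψ u)
    {x : V} (hxU : x ∈ U) (hx : x ∈ f.maxGenEigenspace μ) : ψ x = 0 := by
  have key : ∀ m : ℕ, ∀ u ∈ U, ((f - μ • (1 : Module.End k V)) ^ m) u ∈ U ∧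
      ψ (((f - μ • (1 : Module.End k V)) ^ m) u) = (e - μ) ^ m • ψ u := by
    intro m
    induction m with
    | zero =>
      intro u hu
      simp [hu]
    | succ m ih =>
      intro u hu
      have hu' : (f - μ • (1 : Module.End k V)) u ∈ U := by
        rw [LinearMap.sub_apply, LinearMap.smul_apply, Module.End.one_apply]
        exact U.sub_mem (hU u hu) (U.smul_mem μ hu)
      have hψ' : ψ ((f - μ • (1 : Module.End k V)) u) = (e - μ) • ψ u := by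
        rw [LinearMap.sub_apply, LinearMap.smul_apply, Module.End.one_apply, map_sub, map_smul,
          h u hu, sub_smul]
      obtain ⟨h1, h2⟩ := ih _ hu'
      rw [pow_succ, Module.End.mul_apply]
      refine ⟨h1, ?_⟩
      rw [h2, hψ', smul_smul, pow_succ]
  obtain ⟨n, hn⟩ := (Module.End.mem_maxGenEigenspace f μ x).1 hx
  have h1 := (key n x hxU).2
  rw [hn, map_zero] at h1
  rcases smul_eq_zero.1 h1.symm with h2 | h2
  · exact absurd (eq_zero_of_pow_eq_zero h2) (sub_ne_zero.2 (Ne.symm hμ))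
  · exact h2

/-- intertwining maps preserve generalised eigenspaces. -/
theorem m59e3_abs_map_gen (F : V →ₗ[k] W) (f : Module.End k V) (f' : Module.End k W)
    (h : ∀ x, F (f x) = f' (F x)) (μ : k) {x : V} (hx : x ∈ f.maxGenEigenspace μ) :
    F x ∈ f'.maxGenEigenspace μ := by
  obtain ⟨n, hn⟩ := (Module.End.mem_maxGenEigenspace f μ x).1 hx
  rw [Module.End.mem_maxGenEigenspace]
  exact ⟨n, by rw [← twe_fa_intertwine_pow F f f' h, hn, map_zero]⟩

/-- intertwining maps preserve Fitting complements. -/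
theorem m59e3_abs_map_rad (F : V →ₗ[k] W) (f : Module.End k V) (f' : Module.End k W)
    (h : ∀ x, F (f x) = f' (F x)) (μ : k) {x : V} (hx : x ∈ twe_fa_rad f μ) :
    F x ∈ twe_fa_rad f' μ := by
  rw [twe_fa_rad, Submodule.mem_iInf] at hx ⊢
  intro n
  obtain ⟨u, rfl⟩ := hx n
  exact ⟨F u, (twe_fa_intertwine_pow F f f' h μ n u).symm⟩

end lemmas

section main

variable {k : Type*} [Field k] {L : Type*} {V' V1 V2 : Type*}
  [AddCommGroup V'] [Module k V'] [AddCommGroup V1] [Module k V1]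
  [AddCommGroup V2] [Module k V2]
  (S : m59e3_Abs k L V' V1 V2) (a : L → k)

/-- the localisation of the deep level is stable under the `T'`. -/
theorem m59e3_abs_loc_stable (ℓ : L) {z : V'} (hz : z ∈ twe_fa_loc S.T' a) :
    S.T' ℓ z ∈ twe_fa_loc S.T' a := by
  rw [twe_fa_loc, Submodule.mem_iInf] at hz ⊢
  intro ℓ'
  exact Module.End.mapsTo_maxGenEigenspace_of_comm (S.commT' ℓ' ℓ) (a ℓ') (hz ℓ')

/-- `g` commutes with the `T'`. -/
theorem m59e3_abs_g_T (ℓ : L) (z : V') : S.g (S.T' ℓ z) = S.T' ℓ (S.g z) := by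
  rw [S.g_eq, S.g_eq, S.Wb_T, S.C_T, S.Wf_T, S.C_T]

/-- if the localisation of `V2` vanishes, `C = -1` on the localisation of `V'`. -/
theorem m59e3_abs_C (hV2 : ∀ y ∈ twe_fa_loc S.T2 a, y = 0) {z : V'}
    (hz : z ∈ twe_fa_loc S.T' a) : S.C z = - z := by
  have h1 : S.cor2 z = 0 := hV2 _ (twe_fa_map_loc S.cor2 S.T' S.T2 S.cor2_T a hz)
  have h2 := S.res2_cor2 z
  rw [h1, map_zero] at h2
  exact (neg_eq_of_add_eq_zero_right h2.symm).symm

/-- … and `g = 1` there. -/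
theorem m59e3_abs_g (hV2 : ∀ y ∈ twe_fa_loc S.T2 a, y = 0) {z : V'}
    (hz : z ∈ twe_fa_loc S.T' a) : S.g z = z := by
  have hWb : S.Wb z ∈ twe_fa_loc S.T' a := twe_fa_map_loc S.Wb S.T' S.T' S.Wb_T a hz
  rw [S.g_eq, m59e3_abs_C S a hV2 hWb, map_neg, S.Wf_Wb, map_neg, m59e3_abs_C S a hV2 hz, neg_neg]

variable [FiniteDimensional k V'] [FiniteDimensional k V1]

/-- the range of the transfer contains the left-orthogonal of `χ`. -/
theorem m59e3_abs_mem_range_cor {x : V1} (hx : S.Ω1 x S.χ = 0) : x ∈ LinearMap.range S.cor1 := by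
  by_contra hnot
  obtain ⟨φ, hφx, hφR⟩ := Submodule.exists_le_ker_of_notMem hnot
  -- every functional is `Ω1 y`
  have hinj : Function.Injective S.Ω1 := by
    rw [← LinearMap.ker_eq_bot, LinearMap.ker_eq_bot']
    intro y hy
    exact S.nd1 y fun w => by rw [hy, LinearMap.zero_apply]
  have hsurj : Function.Surjective S.Ω1 :=
    (LinearMap.injective_iff_surjective_of_finrank_eq_finrank
      (Subspace.dual_finrank_eq (K := k) (V := V1)).symm).1 hinj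
  obtain ⟨y, rfl⟩ := hsurj φ
  have hres : S.res1 y = 0 := by
    refine S.nd' _ fun ζ => ?_
    rw [S.adj]
    exact LinearMap.mem_ker.1 (hφR ⟨ζ, rfl⟩)
  obtain ⟨c, rfl⟩ := S.ker_res1 y hres
  apply hφx
  rw [map_smul, LinearMap.smul_apply, S.skew1, hx, neg_zero, smul_zero]

variable (hne : a S.ℓ₀ ≠ S.e S.ℓ₀) (h2 : (2 : k) ≠ 0) (h3 : (3 : k) = 0)

include hne h2 in
/-- the generalised `a ℓ₀`-eigenspace of `T1` lies in the range of the transfer. -/
theorem m59e3_abs_gen_le_range {x : V1} (hx : x ∈ S.T1.maxGenEigenspace (a S.ℓ₀)) :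
    x ∈ LinearMap.range S.cor1 := by
  -- `χ` is a transfer
  have hχχ : S.Ω1 S.χ S.χ = 0 := by
    have h := S.skew1 S.χ S.χ
    have h' : (2 : k) * S.Ω1 S.χ S.χ = 0 := by linear_combination h
    rcases mul_eq_zero.1 h' with h'' | h''
    · exact absurd h'' h2
    · exact h''
  obtain ⟨y₀, hy₀⟩ := m59e3_abs_mem_range_cor S hχχ
  -- the functional `y ↦ Ω1 y χ` is Eisenstein
  have hE : ∀ u ∈ (⊤ : Submodule k V1), (S.Ω1.flip S.χ) (S.T1 u) = S.e S.ℓ₀ • (S.Ω1.flip S.χ) u := by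
    intro u _
    rw [LinearMap.flip_apply, LinearMap.flip_apply, ← hy₀, ← S.adj, S.res1_T, S.sa', S.adj,
      S.cor1_T, hy₀, S.T1_χ, map_smul]
  refine m59e3_abs_mem_range_cor S ?_
  have := m59e3_abs_eisfun S.T1 (S.Ω1.flip S.χ) ⊤ (fun _ _ => Submodule.mem_top) (S.e S.ℓ₀)
    (a S.ℓ₀) hne hE Submodule.mem_top hx
  rwa [LinearMap.flip_apply] at this

include hne h2 h3 in
/-- **the abstract `S₃`-argument.** -/
theorem m59e3_abs_main (hV2 : ∀ y ∈ twe_fa_loc S.T2 a, y = 0) :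
    ∀ z ∈ twe_fa_loc S.T' a, z = 0 := by
  classical
  intro z hz
  have hgz : S.g z = z := m59e3_abs_g S a hV2 hz
  have hzℓ₀ : z ∈ (S.T' S.ℓ₀).maxGenEigenspace (a S.ℓ₀) := twe_fa_loc_le S.T' a S.ℓ₀ hz
  -- the obstruction vanishes
  have hob : S.ob z = 0 :=
    m59e3_abs_eisfun (S.T' S.ℓ₀) S.ob (twe_fa_loc S.T' a)
      (fun u hu => m59e3_abs_loc_stable S a S.ℓ₀ hu) (S.e S.ℓ₀) (a S.ℓ₀) hne
      (fun u hu => S.ob_T u (m59e3_abs_g S a hV2 hu)) hz hzℓ₀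
  -- `z` is a restriction
  obtain ⟨x, hxz⟩ := S.ob_res z hgz hob
  -- Fitting at the level of `V1`, single operator
  obtain ⟨xG, -, xR, -, hxsum, hxG, hxR⟩ :=
    twe_fa_fitting S.T1 (a S.ℓ₀) ⊤ (fun _ _ => Submodule.mem_top) (Submodule.mem_top : x ∈ ⊤)
  have hresG : S.res1 xG ∈ (S.T' S.ℓ₀).maxGenEigenspace (a S.ℓ₀) :=
    m59e3_abs_map_gen S.res1 S.T1 (S.T' S.ℓ₀) S.res1_T (a S.ℓ₀) hxG
  have hresR : S.res1 xR ∈ twe_fa_rad (S.T' S.ℓ₀) (a S.ℓ₀) :=
    m59e3_abs_map_rad S.res1 S.T1 (S.T' S.ℓ₀) S.res1_T (a S.ℓ₀) hxR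
  have hzG : z = S.res1 xG := by
    have h1 : S.res1 xR = z - S.res1 xG := by
      rw [← hxz, hxsum, map_add]; abel
    have h2' : S.res1 xR = 0 := by
      refine twe_fa_disjoint (S.T' S.ℓ₀) (a S.ℓ₀) ?_ hresR
      rw [h1]
      exact Submodule.sub_mem _ hzℓ₀ hresG
    rw [h2'] at h1
    exact sub_eq_zero.1 h1.symm
  -- `xG` is a transfer
  obtain ⟨ζ, hζ⟩ := m59e3_abs_gen_le_range S a hne h2 hxG
  -- the norm
  set Nm : Module.End k V' := 1 + S.g + S.g * S.g with hNm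
  have hNm_apply : ∀ u, Nm u = u + S.g u + S.g (S.g u) := fun u => rfl
  have hzN : z = Nm ζ := by rw [hzG, ← hζ, S.res1_cor1, hNm_apply]
  have hNT : ∀ ℓ u, Nm (S.T' ℓ u) = S.T' ℓ (Nm u) := by
    intro ℓ u
    rw [hNm_apply, hNm_apply, m59e3_abs_g_T, m59e3_abs_g_T, map_add, map_add]
  -- Fitting at the deep level, one operator after the other
  have hstep : ∀ s : Finset L, ∃ ζs ∈ twe_fa_locF S.T' a s, z = Nm ζs := by
    intro s
    induction s using Finset.induction_on with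
    | empty =>
      refine ⟨ζ, ?_, hzN⟩
      rw [twe_fa_mem_locF]
      intro ℓ hℓ
      exact absurd hℓ (Finset.notMem_empty ℓ)
    | insert ℓ s _ ih =>
      obtain ⟨ζs, hζs, hzs⟩ := ih
      obtain ⟨yG, hyG, yR, _, hsum, hG, hR⟩ :=
        twe_fa_fitting (S.T' ℓ) (a ℓ) (twe_fa_locF S.T' a s)
          (twe_fa_locF_stable S.T' S.commT' a s ℓ) hζs
      have hzℓ : z ∈ (S.T' ℓ).maxGenEigenspace (a ℓ) := twe_fa_loc_le S.T' a ℓ hz
      have hNG : Nm yG ∈ (S.T' ℓ).maxGenEigenspace (a ℓ) :=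
        m59e3_abs_map_gen Nm (S.T' ℓ) (S.T' ℓ) (hNT ℓ) (a ℓ) hG
      have hNR : Nm yR ∈ twe_fa_rad (S.T' ℓ) (a ℓ) :=
        m59e3_abs_map_rad Nm (S.T' ℓ) (S.T' ℓ) (hNT ℓ) (a ℓ) hR
      have h1 : Nm yR = z - Nm yG := by
        rw [hzs, hsum, map_add]; abel
      have h2' : Nm yR = 0 := by
        refine twe_fa_disjoint (S.T' ℓ) (a ℓ) ?_ hNR
        rw [h1]
        exact Submodule.sub_mem _ hzℓ hNG
      refine ⟨yG, ?_, ?_⟩
      · rw [twe_fa_mem_locF] at hyG ⊢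
        intro ℓ' hℓ'
        rcases Finset.mem_insert.1 hℓ' with rfl | h
        · exact hG
        · exact hyG ℓ' h
      · rw [h2'] at h1
        exact sub_eq_zero.1 h1.symm
  obtain ⟨s, hs⟩ := twe_fa_exists_finset S.T' a
  obtain ⟨ζs, hζs, hzs⟩ := hstep s
  rw [hs] at hζs
  have hgζ : S.g ζs = ζs := m59e3_abs_g S a hV2 hζs
  rw [hzs, hNm_apply, hgζ, hgζ]
  have : ζs + ζs + ζs = (3 : k) • ζs := by
    rw [show (3 : k) = 1 + 1 + 1 by norm_num, add_smul, add_smul, one_smul]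
  rw [this, h3, zero_smul]

end main

end Fermat.Agent.M59
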