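/-
Project M59 (S59), Sink B, cell [E22-3], sub-cell (ABS-HK) (helper5).  Tag `m59e3_`.

ABSTRACT HECKE DATA WITH A NORMAL CORE.  `𝔾` a group, `G₀ ≤ 𝔾`, `K ≤ G₀` normalised by `G₀`, a right
action of `𝔾` on a finite set `X` and a cocycle `coc : X → 𝔾 → 𝔾` on `G₀` (junk outside) with

    `γ⁻¹ * coc x γ ∈ K`     for all `γ ∈ G₀`                                    (`coc_K`).

Then EVERY subgroup `K ≤ Γ ≤ G₀` is stable under the cocycle, so it carries the operator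
`(T z)(γ) = ∑ₓ z (coc x γ)` (`m59e3_hd_T`), and uniformly in `Γ`:

* `m59e3_hd_res_T`  : restriction commutes with `T`;
* `m59e3_hd_conj_T` : conjugation by `h ∈ G₀` (normalising `Γ`) commutes with `T`;
* `m59e3_hd_cor_T`  : the transfer commutes with `T` (DIRECT double sum, any coefficients);
* `m59e3_hd_T_trivK`: characters killing `K` are Eisenstein: `T z = |X| • z`;
* `m59e3_hd_T_pow`  : for `h ∈ G₀` normalising `Γ`, `z` invariant under `h`, `h ^ n ∈ Γ`: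
    `(T z)(h ^ n) = |X| • z (h ^ n) + n • ∑ₓ z (h⁻¹ * coc x h)`;
* (`𝔾 = SL(2, ℤ)`) `m59e3_hd_T_PE` : `T` preserves `lrpd_PE` when the cocycle preserves traces at
  fixed points.
-/
import Mathlib
import Fermat.Agent.TW.Aut.ResCor
import Fermat.Agent.TW.Aut.HeckePE

set_option autoImplicit false
set_option linter.unusedSectionVars false
set_option linter.unusedVariables false

noncomputable section

namespace Fermat.Agent.M59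

open Fermat.Agent.LR Fermat.Agent.TW

/-- a Hecke datum with a normal core (junk-extended to the ambient group). -/
structure m59e3_HD (𝔾 : Type*) (X : Type*) [Group 𝔾] where
  G₀ : Subgroup 𝔾
  K : Subgroup 𝔾
  hKG : K ≤ G₀
  hKn : ∀ h ∈ G₀, ∀ k ∈ K, h⁻¹ * k * h ∈ K
  act : 𝔾 → X → X
  act_one : ∀ x, act 1 x = x
  act_mul : ∀ g h x, act (g * h) x = act h (act g x)
  coc : X → 𝔾 → 𝔾
  coc_one : ∀ x, coc x 1 = 1
  coc_mul : ∀ x, ∀ g ∈ G₀, ∀ h ∈ G₀, coc x (g * h) = coc x g * coc (act g x) h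
  coc_K : ∀ x, ∀ γ ∈ G₀, γ⁻¹ * coc x γ ∈ K

section E

variable {𝔾 : Type*} [Group 𝔾] {A : Type*} [AddCommGroup A]

/-- evaluation of a character of a subgroup at an element of the ambient group (junk `0` outside). -/
def m59e3_E {Γ : Subgroup 𝔾} (z : Additive ↥Γ →+ A) (γ : 𝔾) : A :=
  open Classical in if h : γ ∈ Γ then z (Additive.ofMul (⟨γ, h⟩ : ↥Γ)) else 0

theorem m59e3_E_of_mem {Γ : Subgroup 𝔾} (z : Additive ↥Γ →+ A) {γ : 𝔾} (h : γ ∈ Γ) :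
    m59e3_E z γ = z (Additive.ofMul (⟨γ, h⟩ : ↥Γ)) := by
  unfold m59e3_E
  rw [dif_pos h]

theorem m59e3_E_coe {Γ : Subgroup 𝔾} (z : Additive ↥Γ →+ A) (γ : ↥Γ) :
    m59e3_E z (γ : 𝔾) = z (Additive.ofMul γ) := m59e3_E_of_mem z γ.2

theorem m59e3_E_mul {Γ : Subgroup 𝔾} (z : Additive ↥Γ →+ A) {a b : 𝔾} (ha : a ∈ Γ) (hb : b ∈ Γ) :
    m59e3_E z (a * b) = m59e3_E z a + m59e3_E z b := by
  rw [m59e3_E_of_mem z ha, m59e3_E_of_mem z hb, m59e3_E_of_mem z (mul_mem ha hb), ← map_add]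
  rfl

theorem m59e3_E_one {Γ : Subgroup 𝔾} (z : Additive ↥Γ →+ A) : m59e3_E z (1 : 𝔾) = 0 := by
  rw [m59e3_E_of_mem z (one_mem Γ)]
  exact map_zero z

theorem m59e3_E_inv {Γ : Subgroup 𝔾} (z : Additive ↥Γ →+ A) {a : 𝔾} (ha : a ∈ Γ) :
    m59e3_E z a⁻¹ = - m59e3_E z a := by
  have h := m59e3_E_mul z ha (inv_mem ha)
  rw [mul_inv_cancel, m59e3_E_one] at h
  exact eq_neg_of_add_eq_zero_right h.symm

theorem m59e3_E_ext {Γ : Subgroup 𝔾} {z z' : Additive ↥Γ →+ A}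
    (h : ∀ γ ∈ Γ, m59e3_E z γ = m59e3_E z' γ) : z = z' := by
  refine AddMonoidHom.ext fun γ => ?_
  obtain ⟨γ, rfl⟩ := Additive.ofMul.surjective γ
  rw [← m59e3_E_coe, ← m59e3_E_coe]
  exact h γ γ.2

theorem m59e3_E_pull {Γ Γ' : Subgroup 𝔾} (hle : Γ' ≤ Γ) (z : Additive ↥Γ →+ A) {γ : 𝔾}
    (h : γ ∈ Γ') : m59e3_E (lrpd_pull (Subgroup.inclusion hle) z) γ = m59e3_E z γ := by
  rw [m59e3_E_of_mem _ h, m59e3_E_of_mem _ (hle h)]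
  rfl

theorem m59e3_E_conj {Γ Γ' : Subgroup 𝔾} (hnorm : ∀ g ∈ Γ, ∀ n ∈ Γ', g⁻¹ * n * g ∈ Γ') (g : ↥Γ)
    (z : Additive ↥Γ' →+ A) {n : 𝔾} (hn : n ∈ Γ') :
    m59e3_E (twe_rc_conj hnorm g z) n = m59e3_E z ((g : 𝔾)⁻¹ * n * g) := by
  rw [m59e3_E_of_mem _ hn, m59e3_E_of_mem _ (hnorm g g.2 n hn)]
  rfl

theorem m59e3_E_cor {Γ Γ' : Subgroup 𝔾} {ι : Type*} [Fintype ι] {ρ : ι → 𝔾}
    (hρ : ∀ i, ρ i ∈ Γ) (hbij : ∀ γ ∈ Γ, ∃! i, (ρ i)⁻¹ * γ ∈ Γ') (z : Additive ↥Γ' →+ A)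
    (γ : ↥Γ) :
    m59e3_E (twe_rc_cor hρ hbij z) (γ : 𝔾) =
      ∑ i : ι, m59e3_E z ((ρ (twe_rc_sig hρ hbij γ i))⁻¹ * (γ : 𝔾) * ρ i) := by
  rw [m59e3_E_coe, twe_rc_cor_apply]
  refine Finset.sum_congr rfl fun i _ => ?_
  rw [← m59e3_E_coe, twe_rc_term_coe]

end E

section HD

variable {𝔾 : Type*} [Group 𝔾] {X : Type*} {A : Type*} [AddCommGroup A] (D : m59e3_HD 𝔾 X)

theorem m59e3_hd_coc_mem_G₀ (x : X) {γ : 𝔾} (hγ : γ ∈ D.G₀) : D.coc x γ ∈ D.G₀ := by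
  have h := mul_mem hγ (D.hKG (D.coc_K x γ hγ))
  rwa [mul_inv_cancel_left] at h

theorem m59e3_hd_coc_mem {Γ : Subgroup 𝔾} (hK : D.K ≤ Γ) (hΓ : Γ ≤ D.G₀) (x : X) {γ : 𝔾}
    (hγ : γ ∈ Γ) : D.coc x γ ∈ Γ := by
  have h := mul_mem hγ (hK (D.coc_K x γ (hΓ hγ)))
  rwa [mul_inv_cancel_left] at h

theorem m59e3_hd_act_inv (g : 𝔾) (x : X) : D.act g⁻¹ (D.act g x) = x := by
  rw [← D.act_mul, mul_inv_cancel, D.act_one]

theorem m59e3_hd_act_inv' (g : 𝔾) (x : X) : D.act g (D.act g⁻¹ x) = x := by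
  rw [← D.act_mul, inv_mul_cancel, D.act_one]

/-- `x ↦ x ⋆ g` as a permutation. -/
def m59e3_hd_perm (g : 𝔾) : Equiv.Perm X where
  toFun := D.act g
  invFun := D.act g⁻¹
  left_inv := m59e3_hd_act_inv D g
  right_inv := m59e3_hd_act_inv' D g

theorem m59e3_hd_perm_apply (g : 𝔾) (x : X) : m59e3_hd_perm D g x = D.act g x := rfl

/-- `coc x g⁻¹ = (coc (x ⋆ g⁻¹) g)⁻¹`. -/
theorem m59e3_hd_coc_inv (x : X) {g : 𝔾} (hg : g ∈ D.G₀) :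
    D.coc x g⁻¹ = (D.coc (D.act g⁻¹ x) g)⁻¹ := by
  have h := D.coc_mul (D.act g⁻¹ x) g hg g⁻¹ (inv_mem hg)
  rw [mul_inv_cancel, D.coc_one, m59e3_hd_act_inv' D g x] at h
  exact eq_inv_of_mul_eq_one_right h.symm

/-- the element `m_x(h) = h⁻¹ * coc x h` of the core. -/
def m59e3_hd_m (h : 𝔾) (x : X) : 𝔾 := h⁻¹ * D.coc x h

theorem m59e3_hd_m_mem (x : X) {h : 𝔾} (hh : h ∈ D.G₀) : m59e3_hd_m D h x ∈ D.K := D.coc_K x h hh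

theorem m59e3_hd_coc_eq (x : X) (h : 𝔾) : D.coc x h = h * m59e3_hd_m D h x := by
  unfold m59e3_hd_m
  rw [mul_inv_cancel_left]

/-- **the cocycle of a conjugate.** -/
theorem m59e3_hd_coc_conj (x : X) {a b γ : 𝔾} (ha : a ∈ D.G₀) (hb : b ∈ D.G₀) (hγ : γ ∈ D.G₀) :
    D.coc x (a⁻¹ * γ * b) =
      (m59e3_hd_m D a (D.act a⁻¹ x))⁻¹ * (a⁻¹ * D.coc (D.act a⁻¹ x) γ * b) *
        m59e3_hd_m D b (D.act γ (D.act a⁻¹ x)) := by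
  rw [D.coc_mul x (a⁻¹ * γ) (mul_mem (inv_mem ha) hγ) b hb, D.coc_mul x a⁻¹ (inv_mem ha) γ hγ,
    m59e3_hd_coc_inv D x ha, D.act_mul, m59e3_hd_coc_eq D (D.act a⁻¹ x) a,
    m59e3_hd_coc_eq D (D.act γ (D.act a⁻¹ x)) b]
  group

variable {Γ : Subgroup 𝔾} (hK : D.K ≤ Γ) (hΓ : Γ ≤ D.G₀)

/-- the `lrt_Data` on a subgroup containing the core. -/
def m59e3_hd_data : lrt_Data ↥Γ X where
  act γ x := D.act (γ : 𝔾) x
  act_one x := D.act_one x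
  act_mul g h x := D.act_mul g h x
  coc x γ := ⟨D.coc x (γ : 𝔾), m59e3_hd_coc_mem D hK hΓ x γ.2⟩
  coc_one x := Subtype.ext (D.coc_one x)
  coc_mul x g h := Subtype.ext (D.coc_mul x g (hΓ g.2) h (hΓ h.2))

variable [Fintype X]

/-- **the Hecke operator** on the characters of `Γ`. -/
def m59e3_hd_T : (Additive ↥Γ →+ A) →+ (Additive ↥Γ →+ A) where
  toFun z := lrt_T (m59e3_hd_data D hK hΓ) z
  map_zero' := by
    refine lrt_ext fun g => ?_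
    rw [lrt_T_ev]
    simp [lrt_ev]
  map_add' z z' := by
    refine lrt_ext fun g => ?_
    show lrt_ev (lrt_T (m59e3_hd_data D hK hΓ) (z + z')) g =
      lrt_ev (lrt_T (m59e3_hd_data D hK hΓ) z) g + lrt_ev (lrt_T (m59e3_hd_data D hK hΓ) z') g
    rw [lrt_T_ev, lrt_T_ev, lrt_T_ev]
    simp only [lrt_ev, AddMonoidHom.add_apply, Finset.sum_add_distrib]

theorem m59e3_hd_T_apply (z : Additive ↥Γ →+ A) (γ : ↥Γ) :
    m59e3_hd_T D hK hΓ z (Additive.ofMul γ) =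
      ∑ x : X, z (Additive.ofMul ((m59e3_hd_data D hK hΓ).coc x γ)) := by
  show lrt_ev (lrt_T (m59e3_hd_data D hK hΓ) z) γ = _
  rw [lrt_T_ev]
  rfl

theorem m59e3_hd_T_E (z : Additive ↥Γ →+ A) {γ : 𝔾} (hγ : γ ∈ Γ) :
    m59e3_E (m59e3_hd_T D hK hΓ z) γ = ∑ x : X, m59e3_E z (D.coc x γ) := by
  rw [m59e3_E_of_mem _ hγ, m59e3_hd_T_apply]
  refine Finset.sum_congr rfl fun x _ => ?_
  rw [m59e3_E_of_mem _ (m59e3_hd_coc_mem D hK hΓ x hγ)]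
  rfl

/-- naturality in the coefficients. -/
theorem m59e3_hd_T_comp {A' : Type*} [AddCommGroup A'] (φ : A →+ A') (z : Additive ↥Γ →+ A) :
    m59e3_hd_T D hK hΓ (φ.comp z) = φ.comp (m59e3_hd_T D hK hΓ z) := by
  refine AddMonoidHom.ext fun γ => ?_
  obtain ⟨γ, rfl⟩ := Additive.ofMul.surjective γ
  rw [AddMonoidHom.comp_apply, m59e3_hd_T_apply, m59e3_hd_T_apply, map_sum]
  rfl

/-- **restriction commutes with `T`.** -/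
theorem m59e3_hd_res_T {Γ' : Subgroup 𝔾} (hK' : D.K ≤ Γ') (hle : Γ' ≤ Γ)
    (z : Additive ↥Γ →+ A) :
    lrpd_pull (Subgroup.inclusion hle) (m59e3_hd_T D hK hΓ z) =
      m59e3_hd_T D hK' (hle.trans hΓ) (lrpd_pull (Subgroup.inclusion hle) z) := by
  refine AddMonoidHom.ext fun γ => ?_
  obtain ⟨γ, rfl⟩ := Additive.ofMul.surjective γ
  rw [lrpd_pull_apply, m59e3_hd_T_apply, m59e3_hd_T_apply]
  rfl

/-- **characters killing the core are Eisenstein.** -/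
theorem m59e3_hd_T_trivK (z : Additive ↥Γ →+ A) (hz : ∀ κ ∈ D.K, m59e3_E z κ = 0) :
    m59e3_hd_T D hK hΓ z = Fintype.card X • z := by
  refine m59e3_E_ext fun γ hγ => ?_
  rw [m59e3_hd_T_E D hK hΓ z hγ]
  have h1 : ∀ x : X, m59e3_E z (D.coc x γ) = m59e3_E z γ := by
    intro x
    rw [m59e3_hd_coc_eq, m59e3_E_mul z hγ (hK (m59e3_hd_m_mem D x (hΓ hγ))),
      hz _ (m59e3_hd_m_mem D x (hΓ hγ)), add_zero]
  rw [Finset.sum_congr rfl fun x _ => h1 x, Finset.sum_const, Finset.card_univ,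
    m59e3_E_of_mem _ hγ, m59e3_E_of_mem _ hγ]
  rfl

/-- **conjugation by `h ∈ G₀` commutes with `T`.** -/
theorem m59e3_hd_conj_T (hnorm : ∀ g ∈ D.G₀, ∀ n ∈ Γ, g⁻¹ * n * g ∈ Γ) (h : ↥D.G₀)
    (z : Additive ↥Γ →+ A) :
    twe_rc_conj hnorm h (m59e3_hd_T D hK hΓ z) = m59e3_hd_T D hK hΓ (twe_rc_conj hnorm h z) := by
  refine m59e3_E_ext fun n hn => ?_
  have hh : (h : 𝔾) ∈ D.G₀ := h.2
  rw [m59e3_E_conj hnorm h _ hn, m59e3_hd_T_E D hK hΓ z (hnorm h hh n hn),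
    m59e3_hd_T_E D hK hΓ _ hn]
  -- the three pieces
  have hm : ∀ y : X, m59e3_hd_m D (h : 𝔾) y ∈ Γ := fun y => hK (m59e3_hd_m_mem D y hh)
  have hmid : ∀ y : X, (h : 𝔾)⁻¹ * D.coc y n * (h : 𝔾) ∈ Γ := fun y =>
    hnorm h hh _ (m59e3_hd_coc_mem D hK hΓ y hn)
  have h1 : ∀ x : X, m59e3_E z (D.coc x ((h : 𝔾)⁻¹ * n * (h : 𝔾))) =
      - m59e3_E z (m59e3_hd_m D (h : 𝔾) (D.act (h : 𝔾)⁻¹ x)) +
        m59e3_E z ((h : 𝔾)⁻¹ * D.coc (D.act (h : 𝔾)⁻¹ x) n * (h : 𝔾)) +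
        m59e3_E z (m59e3_hd_m D (h : 𝔾) (D.act n (D.act (h : 𝔾)⁻¹ x))) := by
    intro x
    rw [m59e3_hd_coc_conj D x hh hh (hΓ hn),
      m59e3_E_mul z (mul_mem (inv_mem (hm _)) (hmid _)) (hm _),
      m59e3_E_mul z (inv_mem (hm _)) (hmid _), m59e3_E_inv z (hm _)]
  rw [Finset.sum_congr rfl fun x _ => h1 x]
  have h2 : ∑ x : X, (- m59e3_E z (m59e3_hd_m D (h : 𝔾) (D.act (h : 𝔾)⁻¹ x)) +
        m59e3_E z ((h : 𝔾)⁻¹ * D.coc (D.act (h : 𝔾)⁻¹ x) n * (h : 𝔾)) +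
        m59e3_E z (m59e3_hd_m D (h : 𝔾) (D.act n (D.act (h : 𝔾)⁻¹ x)))) =
      ∑ y : X, (- m59e3_E z (m59e3_hd_m D (h : 𝔾) y) +
        m59e3_E z ((h : 𝔾)⁻¹ * D.coc y n * (h : 𝔾)) +
        m59e3_E z (m59e3_hd_m D (h : 𝔾) (D.act n y))) :=
    Equiv.sum_comp (m59e3_hd_perm D (h : 𝔾)⁻¹) fun y =>
      (- m59e3_E z (m59e3_hd_m D (h : 𝔾) y) +
        m59e3_E z ((h : 𝔾)⁻¹ * D.coc y n * (h : 𝔾)) +
        m59e3_E z (m59e3_hd_m D (h : 𝔾) (D.act n y)))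
  rw [h2, Finset.sum_add_distrib, Finset.sum_add_distrib, Finset.sum_neg_distrib]
  have h3 : ∑ y : X, m59e3_E z (m59e3_hd_m D (h : 𝔾) (D.act n y)) =
      ∑ y : X, m59e3_E z (m59e3_hd_m D (h : 𝔾) y) :=
    Equiv.sum_comp (m59e3_hd_perm D n) fun y => m59e3_E z (m59e3_hd_m D (h : 𝔾) y)
  rw [h3]
  have h4 : ∀ y : X, m59e3_E (twe_rc_conj hnorm h z) (D.coc y n) =
      m59e3_E z ((h : 𝔾)⁻¹ * D.coc y n * (h : 𝔾)) := fun y =>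
    m59e3_E_conj hnorm h z (m59e3_hd_coc_mem D hK hΓ y hn)
  rw [Finset.sum_congr rfl fun y _ => h4 y]
  abel

/-- the permutation `σ` of the coset system is the same for `γ` and for `coc x γ`. -/
theorem m59e3_hd_sig_coc {Γ' : Subgroup 𝔾} (hK' : D.K ≤ Γ') (hle : Γ' ≤ Γ)
    {ι : Type*} {ρ : ι → 𝔾} (hρ : ∀ i, ρ i ∈ Γ) (hbij : ∀ γ ∈ Γ, ∃! i, (ρ i)⁻¹ * γ ∈ Γ')
    (γ : ↥Γ) (x : X) (i : ι) :
    twe_rc_sig hρ hbij ⟨D.coc x (γ : 𝔾), m59e3_hd_coc_mem D hK hΓ x γ.2⟩ i =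
      twe_rc_sig hρ hbij γ i := by
  symm
  refine twe_rc_sig_unique hρ hbij _ i ?_
  show (ρ (twe_rc_sig hρ hbij γ i))⁻¹ * D.coc x (γ : 𝔾) * ρ i ∈ Γ'
  have h1 := twe_rc_sig_spec hρ hbij γ i
  have h2 : (ρ i)⁻¹ * m59e3_hd_m D (γ : 𝔾) x * ρ i ∈ Γ' :=
    hK' (D.hKn (ρ i) (hΓ (hρ i)) _ (m59e3_hd_m_mem D x (hΓ γ.2)))
  have h3 := mul_mem h1 h2
  have h4 : (ρ (twe_rc_sig hρ hbij γ i))⁻¹ * (γ : 𝔾) * ρ i *
      ((ρ i)⁻¹ * m59e3_hd_m D (γ : 𝔾) x * ρ i) =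
      (ρ (twe_rc_sig hρ hbij γ i))⁻¹ * D.coc x (γ : 𝔾) * ρ i := by
    rw [m59e3_hd_coc_eq D x (γ : 𝔾)]
    group
  rwa [h4] at h3

/-- **the transfer commutes with `T`** (direct double-sum proof, any coefficients). -/
theorem m59e3_hd_cor_T {Γ' : Subgroup 𝔾} (hK' : D.K ≤ Γ') (hle : Γ' ≤ Γ)
    {ι : Type*} [Fintype ι] {ρ : ι → 𝔾} (hρ : ∀ i, ρ i ∈ Γ)
    (hbij : ∀ γ ∈ Γ, ∃! i, (ρ i)⁻¹ * γ ∈ Γ') (z : Additive ↥Γ' →+ A) :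
    twe_rc_cor hρ hbij (m59e3_hd_T D hK' (hle.trans hΓ) z) =
      m59e3_hd_T D hK hΓ (twe_rc_cor hρ hbij z) := by
  refine m59e3_E_ext fun γ₀ hγ₀ => ?_
  set γ : ↥Γ := ⟨γ₀, hγ₀⟩ with hγdef
  have hγc : (γ : 𝔾) = γ₀ := rfl
  rw [← hγc, m59e3_E_cor hρ hbij _ γ, m59e3_hd_T_E D hK hΓ _ γ.2]
  set σ : ι → ι := fun i => twe_rc_sig hρ hbij γ i with hσ
  have hρG : ∀ i, ρ i ∈ D.G₀ := fun i => hΓ (hρ i)
  have hm : ∀ (i : ι) (y : X), m59e3_hd_m D (ρ i) y ∈ Γ' := fun i y =>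
    hK' (m59e3_hd_m_mem D y (hρG i))
  -- the middle terms lie in `Γ'`
  have hmid : ∀ (i : ι) (y : X), (ρ (σ i))⁻¹ * D.coc y (γ : 𝔾) * ρ i ∈ Γ' := by
    intro i y
    have h1 := twe_rc_sig_spec hρ hbij
      (⟨D.coc y (γ : 𝔾), m59e3_hd_coc_mem D hK hΓ y γ.2⟩ : ↥Γ) i
    rw [m59e3_hd_sig_coc D hK hΓ hK' hle hρ hbij γ y i] at h1
    exact h1
  -- left side
  have hL : ∀ i : ι, m59e3_E (m59e3_hd_T D hK' (hle.trans hΓ) z)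
      ((ρ (twe_rc_sig hρ hbij γ i))⁻¹ * (γ : 𝔾) * ρ i) =
      ∑ y : X, (- m59e3_E z (m59e3_hd_m D (ρ (σ i)) y) +
        m59e3_E z ((ρ (σ i))⁻¹ * D.coc y (γ : 𝔾) * ρ i) +
        m59e3_E z (m59e3_hd_m D (ρ i) (D.act (γ : 𝔾) y))) := by
    intro i
    rw [m59e3_hd_T_E D hK' (hle.trans hΓ) z (twe_rc_sig_spec hρ hbij γ i)]
    have h1 : ∀ x : X, m59e3_E z (D.coc x ((ρ (σ i))⁻¹ * (γ : 𝔾) * ρ i)) =
        - m59e3_E z (m59e3_hd_m D (ρ (σ i)) (D.act (ρ (σ i))⁻¹ x)) +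
          m59e3_E z ((ρ (σ i))⁻¹ * D.coc (D.act (ρ (σ i))⁻¹ x) (γ : 𝔾) * ρ i) +
          m59e3_E z (m59e3_hd_m D (ρ i) (D.act (γ : 𝔾) (D.act (ρ (σ i))⁻¹ x))) := by
      intro x
      rw [m59e3_hd_coc_conj D x (hρG (σ i)) (hρG i) (hΓ γ.2),
        m59e3_E_mul z (mul_mem (inv_mem (hm _ _)) (hmid _ _)) (hm _ _),
        m59e3_E_mul z (inv_mem (hm _ _)) (hmid _ _), m59e3_E_inv z (hm _ _)]
    rw [Finset.sum_congr rfl fun x _ => h1 x]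
    exact Equiv.sum_comp (m59e3_hd_perm D (ρ (σ i))⁻¹) fun y =>
      (- m59e3_E z (m59e3_hd_m D (ρ (σ i)) y) +
        m59e3_E z ((ρ (σ i))⁻¹ * D.coc y (γ : 𝔾) * ρ i) +
        m59e3_E z (m59e3_hd_m D (ρ i) (D.act (γ : 𝔾) y)))
  rw [Finset.sum_congr rfl fun i _ => hL i]
  simp only [Finset.sum_add_distrib, Finset.sum_neg_distrib]
  -- the two boundary terms cancel
  have hB1 : ∑ i : ι, ∑ y : X, m59e3_E z (m59e3_hd_m D (ρ (σ i)) y) =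
      ∑ i : ι, ∑ y : X, m59e3_E z (m59e3_hd_m D (ρ i) y) :=
    Equiv.sum_comp (twe_rc_perm hρ hbij γ) fun i => ∑ y : X, m59e3_E z (m59e3_hd_m D (ρ i) y)
  have hB2 : ∑ i : ι, ∑ y : X, m59e3_E z (m59e3_hd_m D (ρ i) (D.act (γ : 𝔾) y)) =
      ∑ i : ι, ∑ y : X, m59e3_E z (m59e3_hd_m D (ρ i) y) := by
    refine Finset.sum_congr rfl fun i _ => ?_
    exact Equiv.sum_comp (m59e3_hd_perm D (γ : 𝔾)) fun y => m59e3_E z (m59e3_hd_m D (ρ i) y)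
  rw [hB1, hB2]
  -- right side
  have hR : ∀ y : X, m59e3_E (twe_rc_cor hρ hbij z) (D.coc y (γ : 𝔾)) =
      ∑ i : ι, m59e3_E z ((ρ (σ i))⁻¹ * D.coc y (γ : 𝔾) * ρ i) := by
    intro y
    have h1 := m59e3_E_cor hρ hbij z
      (⟨D.coc y (γ : 𝔾), m59e3_hd_coc_mem D hK hΓ y γ.2⟩ : ↥Γ)
    rw [h1]
    refine Finset.sum_congr rfl fun i _ => ?_
    rw [m59e3_hd_sig_coc D hK hΓ hK' hle hρ hbij γ y i]
  rw [Finset.sum_congr rfl fun y _ => hR y]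
  have hswap : ∑ y : X, ∑ i : ι, m59e3_E z ((ρ (σ i))⁻¹ * D.coc y (γ : 𝔾) * ρ i) =
      ∑ i : ι, ∑ y : X, m59e3_E z ((ρ (σ i))⁻¹ * D.coc y (γ : 𝔾) * ρ i) := Finset.sum_comm
  rw [hswap]
  abel

/-- **the value of `T z` at a power of a normalising element** (`z` invariant under `h`). -/
theorem m59e3_hd_T_pow (hnorm : ∀ g ∈ D.G₀, ∀ n ∈ Γ, g⁻¹ * n * g ∈ Γ) (h : ↥D.G₀)
    (z : Additive ↥Γ →+ A) (hz : twe_rc_conj hnorm h z = z) (n : ℕ) (hn : (h : 𝔾) ^ n ∈ Γ) :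
    m59e3_E (m59e3_hd_T D hK hΓ z) ((h : 𝔾) ^ n) =
      Fintype.card X • m59e3_E z ((h : 𝔾) ^ n) +
        n • ∑ y : X, m59e3_E z (m59e3_hd_m D (h : 𝔾) y) := by
  have hh : (h : 𝔾) ∈ D.G₀ := h.2
  have hpowG : ∀ j : ℕ, (h : 𝔾) ^ j ∈ D.G₀ := fun j => pow_mem hh j
  have hmK : ∀ (j : ℕ) (x : X), m59e3_hd_m D ((h : 𝔾) ^ j) x ∈ D.K := fun j x =>
    m59e3_hd_m_mem D x (hpowG j)
  -- the recursion
  have hrec : ∀ (j : ℕ) (x : X), m59e3_E z (m59e3_hd_m D ((h : 𝔾) ^ j) x) =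
      ∑ i ∈ Finset.range j, m59e3_E z (m59e3_hd_m D (h : 𝔾) (D.act ((h : 𝔾) ^ i) x)) := by
    intro j
    induction j with
    | zero =>
      intro x
      simp [m59e3_hd_m, D.coc_one, m59e3_E_one]
    | succ j ih =>
      intro x
      have h1 : m59e3_hd_m D ((h : 𝔾) ^ (j + 1)) x =
          ((h : 𝔾)⁻¹ * m59e3_hd_m D ((h : 𝔾) ^ j) x * (h : 𝔾)) *
            m59e3_hd_m D (h : 𝔾) (D.act ((h : 𝔾) ^ j) x) := by
        unfold m59e3_hd_m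
        rw [pow_succ, D.coc_mul x _ (hpowG j) _ hh]
        group
      have h2 : (h : 𝔾)⁻¹ * m59e3_hd_m D ((h : 𝔾) ^ j) x * (h : 𝔾) ∈ Γ :=
        hnorm h hh _ (hK (hmK j x))
      have h3 : m59e3_E z ((h : 𝔾)⁻¹ * m59e3_hd_m D ((h : 𝔾) ^ j) x * (h : 𝔾)) =
          m59e3_E z (m59e3_hd_m D ((h : 𝔾) ^ j) x) := by
        rw [← m59e3_E_conj hnorm h z (hK (hmK j x)), hz]
      rw [h1, m59e3_E_mul z h2 (hK (m59e3_hd_m_mem D _ hh)), h3, ih x, Finset.sum_range_succ]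
  rw [m59e3_hd_T_E D hK hΓ z hn]
  have h1 : ∀ x : X, m59e3_E z (D.coc x ((h : 𝔾) ^ n)) =
      m59e3_E z ((h : 𝔾) ^ n) +
        ∑ i ∈ Finset.range n, m59e3_E z (m59e3_hd_m D (h : 𝔾) (D.act ((h : 𝔾) ^ i) x)) := by
    intro x
    rw [m59e3_hd_coc_eq D x ((h : 𝔾) ^ n), m59e3_E_mul z hn (hK (hmK n x)), hrec n x]
  rw [Finset.sum_congr rfl fun x _ => h1 x, Finset.sum_add_distrib, Finset.sum_const,
    Finset.card_univ, Finset.sum_comm]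
  congr 1
  have h2 : ∀ i ∈ Finset.range n,
      ∑ x : X, m59e3_E z (m59e3_hd_m D (h : 𝔾) (D.act ((h : 𝔾) ^ i) x)) =
      ∑ y : X, m59e3_E z (m59e3_hd_m D (h : 𝔾) y) := fun i _ =>
    Equiv.sum_comp (m59e3_hd_perm D ((h : 𝔾) ^ i)) fun y => m59e3_E z (m59e3_hd_m D (h : 𝔾) y)
  rw [Finset.sum_congr rfl h2, Finset.sum_const, Finset.card_range]

end HD

section SL2

open scoped MatrixGroups

variable {X : Type*} [Fintype X] {A : Type*} [AddCommGroup A] (D : m59e3_HD SL(2, ℤ) X)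
  {Γ : Subgroup SL(2, ℤ)} (hK : D.K ≤ Γ) (hΓ : Γ ≤ D.G₀)

/-- **`T` preserves the parabolic-elliptic-killing characters** when the cocycle preserves the trace
at fixed points. -/
theorem m59e3_hd_T_PE
    (htr : ∀ x, ∀ γ ∈ D.G₀, D.act γ x = x → lrpd_tr (D.coc x γ) = lrpd_tr γ)
    {z : Additive ↥Γ →+ A} (hz : lrpd_PE Γ z) : lrpd_PE Γ (m59e3_hd_T D hK hΓ z) := by
  intro γ hγ
  rw [m59e3_hd_T_apply]
  refine lrh_sum_eq_zero_of_orbits (lrt_perm (m59e3_hd_data D hK hΓ) γ)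
    (fun x => z (Additive.ofMul ((m59e3_hd_data D hK hΓ).coc x γ))) ?_
  intro x n _ hx
  have h1 := twe_hk_ev_coc_pow (m59e3_hd_data D hK hΓ) z x γ n
  simp only [lrt_ev] at h1
  rw [← h1]
  apply hz
  have hfix : D.act ((γ ^ n : ↥Γ) : SL(2, ℤ)) x = x := by
    have h2 := hx
    rw [lrh_perm_pow] at h2
    exact h2
  have h3 : lrpd_tr ((((m59e3_hd_data D hK hΓ).coc x (γ ^ n) : ↥Γ)) : SL(2, ℤ)) =
      lrpd_tr (((γ ^ n : ↥Γ)) : SL(2, ℤ)) :=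
    htr x _ (hΓ (γ ^ n).2) hfix
  rw [h3, SubgroupClass.coe_pow]
  exact twe_rc_tr_pow _ hγ n

end SL2

end Fermat.Agent.M59
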