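/-
Project M59 (S59), Sink B, cell [E22-3], sub-cell (CMP) (helper5).  Tag `m59e3_`.

ON A GROUP `Γ₀(M)` WITH `K ≤ Γ₀(M) ≤ Γ₀(N)` (e.g. `M = 2N`) THE UNIFORM OPERATOR `m59e3_hk_T` IS MAIN'S
`twe_wl_T0` (`= t2c_Tadd`) AT LEVEL `M`: the cocycles at the levels `N` and `M` are the same matrices,
and the correcting elements `u_x` lie in `Γ₀(M)`, so the correction telescopes.
-/
import Mathlib
import Fermat.Agent.M59.SinkB.E223.Hk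

set_option autoImplicit false
set_option linter.unusedSectionVars false
set_option linter.unusedVariables false

noncomputable section

open CongruenceSubgroup Matrix.SpecialLinearGroup
open P2MW.S_ModularForm_heckeT_slash_eq_self_of_mem_Gamma0.ModularForm.HeckeSlashInvariance
open P2MW.S_ModularForm_heckeT_slash_eq_self_of_mem_Gamma0.ModularForm
open scoped MatrixGroups OnePoint

namespace Fermat.Agent.M59

open Fermat.Agent.JT3 Fermat.Agent.LR Fermat.Agent.TW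

variable {N M ℓ : ℕ} [Fact ℓ.Prime]

/-- the cocycles at two levels coincide as matrices. -/
theorem m59e3_cmp_coc_level (hℓN : ¬ ℓ ∣ N) (hℓM : ¬ ℓ ∣ M) (x : OnePoint (ZMod ℓ))
    (γ : Gamma0 N) (γ' : Gamma0 M) (hγ : (γ' : SL(2, ℤ)) = (γ : SL(2, ℤ))) :
    ((t2c_coc hℓM x γ' : Gamma0 M) : SL(2, ℤ)) = ((t2c_coc hℓN x γ : Gamma0 N) : SL(2, ℤ)) := by
  apply t2c_coc_unique
  rw [hγ]
  exact t2c_coc_spec hℓN x γ

variable {A : Type*} [AddCommGroup A]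

/-- **the uniform operator on `Γ₀(M)` is `t2c_Tadd` at level `M`.** -/
theorem m59e3_cmp_T_eq (hℓN : ¬ ℓ ∣ N) (hℓ2 : ℓ ≠ 2) (hℓM : ¬ ℓ ∣ M)
    (hK : m59e3_K N ≤ Gamma0 M) (hΓ : Gamma0 M ≤ Gamma0 N) (z : Additive ↥(Gamma0 M) →+ A) :
    m59e3_hd_T (m59e3_hk_D hℓN hℓ2) hK hΓ z = t2c_Tadd hℓM z := by
  refine m59e3_E_ext fun γ hγ => ?_
  rw [m59e3_hd_T_E (m59e3_hk_D hℓN hℓ2) hK hΓ z hγ, m59e3_E_of_mem _ hγ, t2c_Tadd_apply]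
  have hu : ∀ x : OnePoint (ZMod ℓ), m59e3_hk_u ℓ x ∈ Gamma0 M := fun x => m59e3_hk_u_mem M x
  have h1 : ∀ x : OnePoint (ZMod ℓ),
      m59e3_E z ((m59e3_hk_D (N := N) hℓN hℓ2).coc x γ) =
        - m59e3_E z (m59e3_hk_u ℓ x) +
          z (Additive.ofMul (t2c_coc hℓM x ⟨γ, hγ⟩)) +
          m59e3_E z (m59e3_hk_u ℓ (t2c_act γ x)) := by
    intro x
    show m59e3_E z (m59e3_hk_coc hℓN x γ) = _
    rw [m59e3_hk_coc_of_mem hℓN x (hΓ hγ),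
      ← m59e3_cmp_coc_level hℓN hℓM x ⟨γ, hΓ hγ⟩ ⟨γ, hγ⟩ rfl,
      m59e3_E_mul z (mul_mem (inv_mem (hu x)) (t2c_coc hℓM x ⟨γ, hγ⟩).2) (hu _),
      m59e3_E_mul z (inv_mem (hu x)) (t2c_coc hℓM x ⟨γ, hγ⟩).2, m59e3_E_inv z (hu x),
      m59e3_E_coe]
  rw [Finset.sum_congr rfl fun x _ => h1 x, Finset.sum_add_distrib, Finset.sum_add_distrib,
    Finset.sum_neg_distrib]
  have h2 : ∑ x : OnePoint (ZMod ℓ), m59e3_E z (m59e3_hk_u ℓ (t2c_act γ x)) =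
      ∑ x : OnePoint (ZMod ℓ), m59e3_E z (m59e3_hk_u ℓ x) :=
    Equiv.sum_comp (t2c_perm γ) fun x => m59e3_E z (m59e3_hk_u ℓ x)
  rw [h2]
  abel

variable {R : Type*} [CommRing R] [Module R A]

/-- the same on `twe_wl_V`. -/
theorem m59e3_cmp_wl_T_eq (hℓN : ¬ ℓ ∣ N) (hℓ2 : ℓ ≠ 2) (hℓM : ¬ ℓ ∣ M)
    (hK : m59e3_K N ≤ Gamma0 M) (hΓ : Gamma0 M ≤ Gamma0 N) :
    m59e3_hk_T (R := R) (A := A) hℓN hℓ2 hK hΓ = twe_wl_T0 hℓM := by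
  refine LinearMap.ext fun z => Subtype.ext ?_
  rw [m59e3_hk_T_coe, twe_wl_T0_coe]
  exact m59e3_cmp_T_eq hℓN hℓ2 hℓM hK hΓ z.1

end Fermat.Agent.M59
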