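/-
Project M59 (S59), Sink B, cell [E22-3], sub-cell (GRP) (helper5).  Tag `m59e3_`.

THE GROUPS OF THE `S₃`-ARGUMENT.  `N` odd.  `red : SL(2, ℤ) → SL(2, 𝔽₂)`; for `H ≤ SL(2, 𝔽₂)`

    `m59e3_GamR N H = Γ₀(N) ∩ red⁻¹(H)`,

so `K = Γ'' = Γ₀(N) ∩ Γ(2) = GamR N ⊥`, `Γ₃ = GamR N C₃` (`C₃ = ⟨ḡ⟩`, `ḡ = [[1,1],[1,0]]`),
`Γ₀(2N) = GamR N B` (`B` the upper triangular matrices) and `Γ₀(N) = GamR N ⊤`.
Elements `c₀ = [[1,1],[0,1]]`, `w = [[1,0],[N,1]]`, `g = c₀ w c₀ w⁻¹` (`red g = ḡ`).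

* `m59e3_K_normal`, `m59e3_GamR_normal` : normality in `Γ₀(N)`;
* `m59e3_bij3`, `m59e3_bij2` : the coset systems `g^i` (`i : Fin 3`) of `Γ₃ / K`, `c₀^i` (`i : Fin 2`)
  of `Γ₀(2N) / K`;
* `m59e3_hU` : for a prime `r ∣ N`, `r ≡ 2 (3)`: the `tr² ≤ 4` elements of `Γ₃` lie in `K`;
* finite index, `-1 ∈ K`.
-/
import Mathlib
import Fermat.Agent.M59.EP.Twin.PERigid

set_option autoImplicit false
set_option linter.unusedSectionVars false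
set_option linter.unusedVariables false

noncomputable section

open CongruenceSubgroup Matrix.SpecialLinearGroup
open scoped MatrixGroups

namespace Fermat.Agent.M59

open Fermat.Agent.LR Fermat.Agent.TW

/-! ### Reduction modulo `2` -/

/-- reduction modulo `2`. -/
def m59e3_red : SL(2, ℤ) →* SL(2, ZMod 2) :=
  Matrix.SpecialLinearGroup.map (Int.castRingHom (ZMod 2))

theorem m59e3_red_apply (γ : SL(2, ℤ)) (i j : Fin 2) :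
    (m59e3_red γ) i j = ((γ i j : ℤ) : ZMod 2) := rfl

theorem m59e3_sl2_ext {x y : SL(2, ZMod 2)} (h00 : x 0 0 = y 0 0) (h01 : x 0 1 = y 0 1)
    (h10 : x 1 0 = y 1 0) (h11 : x 1 1 = y 1 1) : x = y := by
  ext i j
  fin_cases i <;> fin_cases j
  · exact h00
  · exact h01
  · exact h10
  · exact h11

theorem m59e3_sl2z_ext {x y : SL(2, ℤ)} (h00 : x 0 0 = y 0 0) (h01 : x 0 1 = y 0 1)
    (h10 : x 1 0 = y 1 0) (h11 : x 1 1 = y 1 1) : x = y := by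
  ext i j
  fin_cases i <;> fin_cases j
  · exact h00
  · exact h01
  · exact h10
  · exact h11

theorem m59e3_red_ext {γ : SL(2, ℤ)} {x : SL(2, ZMod 2)}
    (h00 : ((γ 0 0 : ℤ) : ZMod 2) = x 0 0) (h01 : ((γ 0 1 : ℤ) : ZMod 2) = x 0 1)
    (h10 : ((γ 1 0 : ℤ) : ZMod 2) = x 1 0) (h11 : ((γ 1 1 : ℤ) : ZMod 2) = x 1 1) :
    m59e3_red γ = x :=
  m59e3_sl2_ext h00 h01 h10 h11

theorem m59e3_red_eq_one_iff (γ : SL(2, ℤ)) :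
    m59e3_red γ = 1 ↔ ((γ 0 0 : ℤ) : ZMod 2) = 1 ∧ ((γ 0 1 : ℤ) : ZMod 2) = 0 ∧
      ((γ 1 0 : ℤ) : ZMod 2) = 0 ∧ ((γ 1 1 : ℤ) : ZMod 2) = 1 := by
  constructor
  · intro h
    have h' : ∀ i j, (m59e3_red γ) i j = (1 : SL(2, ZMod 2)) i j := fun i j => by rw [h]
    refine ⟨?_, ?_, ?_, ?_⟩
    · simpa [m59e3_red_apply] using h' 0 0
    · simpa [m59e3_red_apply] using h' 0 1
    · simpa [m59e3_red_apply] using h' 1 0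
    · simpa [m59e3_red_apply] using h' 1 1
  · rintro ⟨h00, h01, h10, h11⟩
    apply m59e3_red_ext <;> simp [*]

/-! ### The subgroups `Γ₀(N) ∩ red⁻¹(H)` -/

/-- `Γ₀(N) ∩ red⁻¹(H)`. -/
def m59e3_GamR (N : ℕ) (H : Subgroup SL(2, ZMod 2)) : Subgroup SL(2, ℤ) :=
  Gamma0 N ⊓ H.comap m59e3_red

theorem m59e3_mem_GamR {N : ℕ} {H : Subgroup SL(2, ZMod 2)} {γ : SL(2, ℤ)} :
    γ ∈ m59e3_GamR N H ↔ γ ∈ Gamma0 N ∧ m59e3_red γ ∈ H := Iff.rfl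

theorem m59e3_GamR_le (N : ℕ) (H : Subgroup SL(2, ZMod 2)) : m59e3_GamR N H ≤ Gamma0 N :=
  inf_le_left

theorem m59e3_GamR_mono (N : ℕ) {H H' : Subgroup SL(2, ZMod 2)} (h : H ≤ H') :
    m59e3_GamR N H ≤ m59e3_GamR N H' := fun γ hγ => ⟨hγ.1, h hγ.2⟩

/-- the core `Γ'' = Γ₀(N) ∩ Γ(2)`. -/
def m59e3_K (N : ℕ) : Subgroup SL(2, ℤ) := m59e3_GamR N ⊥

theorem m59e3_mem_K {N : ℕ} {γ : SL(2, ℤ)} :
    γ ∈ m59e3_K N ↔ γ ∈ Gamma0 N ∧ m59e3_red γ = 1 := by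
  unfold m59e3_K
  rw [m59e3_mem_GamR, Subgroup.mem_bot]

theorem m59e3_K_le_GamR (N : ℕ) (H : Subgroup SL(2, ZMod 2)) : m59e3_K N ≤ m59e3_GamR N H :=
  m59e3_GamR_mono N bot_le

theorem m59e3_K_le (N : ℕ) : m59e3_K N ≤ Gamma0 N := m59e3_GamR_le N ⊥

/-- `K` is normalised by `Γ₀(N)`. -/
theorem m59e3_K_normal (N : ℕ) : ∀ h ∈ Gamma0 N, ∀ k ∈ m59e3_K N, h⁻¹ * k * h ∈ m59e3_K N := by
  intro h hh k hk
  rw [m59e3_mem_K] at hk ⊢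
  refine ⟨mul_mem (mul_mem (inv_mem hh) hk.1) hh, ?_⟩
  rw [map_mul, map_mul, map_inv, hk.2, mul_one, inv_mul_cancel]

/-- `GamR N H` is normalised by the elements of `Γ₀(N)` whose reduction normalises `H`. -/
theorem m59e3_GamR_normal (N : ℕ) (H : Subgroup SL(2, ZMod 2))
    (hH : ∀ a : SL(2, ZMod 2), ∀ x ∈ H, a⁻¹ * x * a ∈ H) :
    ∀ h ∈ Gamma0 N, ∀ n ∈ m59e3_GamR N H, h⁻¹ * n * h ∈ m59e3_GamR N H := by
  intro h hh n hn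
  rw [m59e3_mem_GamR] at hn ⊢
  refine ⟨mul_mem (mul_mem (inv_mem hh) hn.1) hh, ?_⟩
  rw [map_mul, map_mul, map_inv]
  exact hH _ _ hn.2

instance m59e3_K_finiteIndex (N : ℕ) [NeZero N] : (m59e3_K N).FiniteIndex := by
  have h : Gamma0 N ⊓ Gamma 2 ≤ m59e3_K N := by
    intro γ hγ
    rw [m59e3_mem_K]
    exact ⟨hγ.1, hγ.2⟩
  exact Subgroup.finiteIndex_of_le h

instance m59e3_GamR_finiteIndex (N : ℕ) [NeZero N] (H : Subgroup SL(2, ZMod 2)) :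
    (m59e3_GamR N H).FiniteIndex :=
  Subgroup.finiteIndex_of_le (m59e3_K_le_GamR N H)

theorem m59e3_neg_one_mem_K (N : ℕ) : (-1 : SL(2, ℤ)) ∈ m59e3_K N := by
  rw [m59e3_mem_K]
  refine ⟨by rw [Gamma0_mem]; simp, ?_⟩
  apply m59e3_red_ext <;> simp

/-! ### The elements -/

/-- `c₀ = [[1,1],[0,1]]`. -/
def m59e3_c0 : SL(2, ℤ) := ⟨!![1, 1; 0, 1], by simp [Matrix.det_fin_two]⟩

/-- `w = [[1,0],[N,1]]`. -/
def m59e3_w (N : ℕ) : SL(2, ℤ) := ⟨!![1, 0; (N : ℤ), 1], by simp [Matrix.det_fin_two]⟩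

/-- `g = c₀ w c₀ w⁻¹`. -/
def m59e3_g (N : ℕ) : SL(2, ℤ) := m59e3_c0 * m59e3_w N * m59e3_c0 * (m59e3_w N)⁻¹

/-- `c̄₀`. -/
def m59e3_c0b : SL(2, ZMod 2) := ⟨!![1, 1; 0, 1], by decide⟩

/-- `w̄`. -/
def m59e3_wb : SL(2, ZMod 2) := ⟨!![1, 0; 1, 1], by decide⟩

/-- `ḡ = [[1,1],[1,0]]`. -/
def m59e3_gb : SL(2, ZMod 2) := ⟨!![1, 1; 1, 0], by decide⟩

theorem m59e3_c0_mem (N : ℕ) : m59e3_c0 ∈ Gamma0 N := by
  rw [Gamma0_mem]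
  simp [m59e3_c0]

theorem m59e3_w_mem (N : ℕ) : m59e3_w N ∈ Gamma0 N := by
  rw [Gamma0_mem]
  simp [m59e3_w]

theorem m59e3_g_mem (N : ℕ) : m59e3_g N ∈ Gamma0 N :=
  mul_mem (mul_mem (mul_mem (m59e3_c0_mem N) (m59e3_w_mem N)) (m59e3_c0_mem N))
    (inv_mem (m59e3_w_mem N))

theorem m59e3_red_c0 : m59e3_red m59e3_c0 = m59e3_c0b := by
  apply m59e3_red_ext <;> simp [m59e3_c0, m59e3_c0b]

theorem m59e3_cast_odd {N : ℕ} (hN : ¬ 2 ∣ N) : ((N : ℤ) : ZMod 2) = 1 := by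
  have h1 : (N : ZMod 2) ≠ 0 := by
    rw [Ne, ZMod.natCast_eq_zero_iff]
    exact hN
  have h2 : ∀ x : ZMod 2, x ≠ 0 → x = 1 := by decide
  have := h2 _ h1
  exact_mod_cast this

theorem m59e3_cast_odd' {N : ℕ} (hN : ¬ 2 ∣ N) : (N : ZMod 2) = 1 := by
  have h1 : (N : ZMod 2) ≠ 0 := by
    rw [Ne, ZMod.natCast_eq_zero_iff]
    exact hN
  have h2 : ∀ x : ZMod 2, x ≠ 0 → x = 1 := by decide
  exact h2 _ h1

theorem m59e3_red_w {N : ℕ} (hN : ¬ 2 ∣ N) : m59e3_red (m59e3_w N) = m59e3_wb := by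
  apply m59e3_red_ext <;> simp [m59e3_w, m59e3_wb, m59e3_cast_odd' hN]

theorem m59e3_red_g {N : ℕ} (hN : ¬ 2 ∣ N) : m59e3_red (m59e3_g N) = m59e3_gb := by
  unfold m59e3_g
  rw [map_mul, map_mul, map_mul, map_inv, m59e3_red_c0, m59e3_red_w hN]
  decide

/-! ### The subgroups `C₃` and `B` of `SL(2, 𝔽₂)` -/

/-- `C₃ = {1, ḡ, ḡ²}`. -/
def m59e3_C3 : Subgroup SL(2, ZMod 2) where
  carrier := {x | x = 1 ∨ x = m59e3_gb ∨ x = m59e3_gb * m59e3_gb}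
  one_mem' := Or.inl rfl
  mul_mem' := by
    have h : ∀ a b : SL(2, ZMod 2),
        (a = 1 ∨ a = m59e3_gb ∨ a = m59e3_gb * m59e3_gb) →
        (b = 1 ∨ b = m59e3_gb ∨ b = m59e3_gb * m59e3_gb) →
        (a * b = 1 ∨ a * b = m59e3_gb ∨ a * b = m59e3_gb * m59e3_gb) := by decide
    intro a b ha hb
    exact h a b ha hb
  inv_mem' := by
    have h : ∀ a : SL(2, ZMod 2),
        (a = 1 ∨ a = m59e3_gb ∨ a = m59e3_gb * m59e3_gb) →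
        (a⁻¹ = 1 ∨ a⁻¹ = m59e3_gb ∨ a⁻¹ = m59e3_gb * m59e3_gb) := by decide
    intro a ha
    exact h a ha

theorem m59e3_mem_C3 {x : SL(2, ZMod 2)} :
    x ∈ m59e3_C3 ↔ x = 1 ∨ x = m59e3_gb ∨ x = m59e3_gb * m59e3_gb := Iff.rfl

/-- `B` : the upper triangular matrices. -/
def m59e3_B : Subgroup SL(2, ZMod 2) where
  carrier := {x | x = 1 ∨ x = m59e3_c0b}
  one_mem' := Or.inl rfl
  mul_mem' := by
    have h : ∀ a b : SL(2, ZMod 2), (a = 1 ∨ a = m59e3_c0b) → (b = 1 ∨ b = m59e3_c0b) →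
        (a * b = 1 ∨ a * b = m59e3_c0b) := by decide
    intro a b ha hb
    exact h a b ha hb
  inv_mem' := by
    have h : ∀ a : SL(2, ZMod 2), (a = 1 ∨ a = m59e3_c0b) → (a⁻¹ = 1 ∨ a⁻¹ = m59e3_c0b) := by
      decide
    intro a ha
    exact h a ha

theorem m59e3_mem_B {x : SL(2, ZMod 2)} : x ∈ m59e3_B ↔ x = 1 ∨ x = m59e3_c0b := Iff.rfl

theorem m59e3_mem_B_iff (x : SL(2, ZMod 2)) : x ∈ m59e3_B ↔ x 1 0 = 0 := by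
  rw [m59e3_mem_B]
  revert x
  decide

/-- `C₃` is normal. -/
theorem m59e3_C3_normal : ∀ a : SL(2, ZMod 2), ∀ x ∈ m59e3_C3, a⁻¹ * x * a ∈ m59e3_C3 := by
  have h : ∀ a x : SL(2, ZMod 2), (x = 1 ∨ x = m59e3_gb ∨ x = m59e3_gb * m59e3_gb) →
      (a⁻¹ * x * a = 1 ∨ a⁻¹ * x * a = m59e3_gb ∨ a⁻¹ * x * a = m59e3_gb * m59e3_gb) := by
    decide
  intro a x hx
  exact h a x hx

/-- `Γ₃`. -/
def m59e3_Gam3 (N : ℕ) : Subgroup SL(2, ℤ) := m59e3_GamR N m59e3_C3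

theorem m59e3_g_mem_Gam3 {N : ℕ} (hN : ¬ 2 ∣ N) : m59e3_g N ∈ m59e3_Gam3 N :=
  ⟨m59e3_g_mem N, by
    show m59e3_red (m59e3_g N) ∈ m59e3_C3
    rw [m59e3_red_g hN]
    exact Or.inr (Or.inl rfl)⟩

/-- `Γ₀(2N) = Γ₀(N) ∩ red⁻¹(B)` for `N` odd. -/
theorem m59e3_Gamma0_two_mul {N : ℕ} (hN : ¬ 2 ∣ N) : Gamma0 (2 * N) = m59e3_GamR N m59e3_B := by
  ext γ
  rw [m59e3_mem_GamR, m59e3_mem_B_iff, m59e3_red_apply, Gamma0_mem, Gamma0_mem,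
    ZMod.intCast_zmod_eq_zero_iff_dvd, ZMod.intCast_zmod_eq_zero_iff_dvd,
    ZMod.intCast_zmod_eq_zero_iff_dvd]
  have hcop : IsCoprime (2 : ℤ) (N : ℤ) := by
    have : Nat.Coprime 2 N := (Nat.Prime.coprime_iff_not_dvd Nat.prime_two).mpr hN
    exact_mod_cast Nat.isCoprime_iff_coprime.mpr this
  constructor
  · intro h
    push_cast at h
    exact ⟨dvd_trans (dvd_mul_left _ _) h, dvd_trans (dvd_mul_right _ _) h⟩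
  · rintro ⟨h1, h2⟩
    push_cast
    exact hcop.mul_dvd h2 h1

theorem m59e3_c0_mem_two {N : ℕ} : m59e3_c0 ∈ Gamma0 (2 * N) := m59e3_c0_mem (2 * N)

/-! ### Coset systems -/

/-- the powers of an element whose reduction enumerates `H` form a coset system of `GamR N H / K`. -/
theorem m59e3_bij_of (N : ℕ) (H : Subgroup SL(2, ZMod 2)) (t : SL(2, ℤ)) (ht : t ∈ Gamma0 N)
    (m : ℕ) (hH : ∀ x ∈ H, ∃! i : Fin m, (m59e3_red t) ^ (i : ℕ) = x) :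
    ∀ γ ∈ m59e3_GamR N H, ∃! i : Fin m, (t ^ (i : ℕ))⁻¹ * γ ∈ m59e3_K N := by
  intro γ hγ
  obtain ⟨i, hi, hiu⟩ := hH _ hγ.2
  have key : ∀ j : Fin m, (t ^ (j : ℕ))⁻¹ * γ ∈ m59e3_K N ↔ (m59e3_red t) ^ (j : ℕ) = m59e3_red γ := by
    intro j
    rw [m59e3_mem_K, map_mul, map_inv, map_pow, inv_mul_eq_one]
    constructor
    · intro h
      exact h.2
    · intro h
      exact ⟨mul_mem (inv_mem (pow_mem ht _)) hγ.1, h⟩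
  exact ⟨i, (key i).2 hi, fun j hj => hiu j ((key j).1 hj)⟩

theorem m59e3_bij3 {N : ℕ} (hN : ¬ 2 ∣ N) :
    ∀ γ ∈ m59e3_Gam3 N, ∃! i : Fin 3, ((m59e3_g N) ^ (i : ℕ))⁻¹ * γ ∈ m59e3_K N := by
  refine m59e3_bij_of N m59e3_C3 (m59e3_g N) (m59e3_g_mem N) 3 ?_
  rw [m59e3_red_g hN]
  have h : ∀ x : SL(2, ZMod 2), (x = 1 ∨ x = m59e3_gb ∨ x = m59e3_gb * m59e3_gb) →
      ∃ i : Fin 3, m59e3_gb ^ (i : ℕ) = x ∧ ∀ j : Fin 3, m59e3_gb ^ (j : ℕ) = x → j = i := by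
    decide
  exact fun x hx => h x hx

theorem m59e3_bij2 (N : ℕ) :
    ∀ γ ∈ m59e3_GamR N m59e3_B, ∃! i : Fin 2, (m59e3_c0 ^ (i : ℕ))⁻¹ * γ ∈ m59e3_K N := by
  refine m59e3_bij_of N m59e3_B m59e3_c0 (m59e3_c0_mem N) 2 ?_
  rw [m59e3_red_c0]
  have h : ∀ x : SL(2, ZMod 2), (x = 1 ∨ x = m59e3_c0b) →
      ∃ i : Fin 2, m59e3_c0b ^ (i : ℕ) = x ∧ ∀ j : Fin 2, m59e3_c0b ^ (j : ℕ) = x → j = i := by
    decide
  exact fun x hx => h x hx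

theorem m59e3_g_pow_three_mem {N : ℕ} (hN : ¬ 2 ∣ N) : (m59e3_g N) ^ 3 ∈ m59e3_K N := by
  rw [m59e3_mem_K]
  refine ⟨pow_mem (m59e3_g_mem N) 3, ?_⟩
  rw [map_pow, m59e3_red_g hN]
  decide

/-! ### The cover `Γ₃ / K` is unramified -/

theorem m59e3_red_tr (γ : SL(2, ℤ)) :
    (m59e3_red γ) 0 0 + (m59e3_red γ) 1 1 = ((lrpd_tr γ : ℤ) : ZMod 2) := by
  rw [m59e3_red_apply, m59e3_red_apply]
  unfold lrpd_tr
  push_cast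
  rfl

/-- for a prime `r ∣ N`, `r ≡ 2 (3)`: the `tr² ≤ 4` elements of `Γ₃` lie in `K`. -/
theorem m59e3_hU {N r : ℕ} (hr : r.Prime) (hrN : r ∣ N) (hr3 : r % 3 = 2) :
    ∀ γ : SL(2, ℤ), γ ∈ m59e3_Gam3 N → lrpd_tr γ ^ 2 ≤ 4 → γ ∈ m59e3_K N := by
  intro γ hγ htr
  obtain ⟨h1, h1'⟩ := m59epw_pe_tr_ne hγ.1 hr hrN hr3
  have ht' : lrpd_tr γ = 0 ∨ lrpd_tr γ = 2 ∨ lrpd_tr γ = -2 := by
    have h2 : -2 ≤ lrpd_tr γ := by nlinarith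
    have h3 : lrpd_tr γ ≤ 2 := by nlinarith
    omega
  have h0 : ((lrpd_tr γ : ℤ) : ZMod 2) = 0 := by
    rcases ht' with h | h | h <;> rw [h] <;> decide
  have h4 := m59e3_red_tr γ
  rw [h0] at h4
  have h5 : ∀ x : SL(2, ZMod 2), (x = 1 ∨ x = m59e3_gb ∨ x = m59e3_gb * m59e3_gb) →
      x 0 0 + x 1 1 = 0 → x = 1 := by decide
  rw [m59e3_mem_K]
  exact ⟨hγ.1, h5 _ hγ.2 h4⟩

end Fermat.Agent.M59
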