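/-
Project M59 (S59), Sink B, cell [E22-3], sub-cell (HK) (helper5).  Tag `m59e3_`.

THE UNIFORM HECKE DATUM AT `ℓ ∤ 2N` ON ALL THE GROUPS `K = Γ₀(N) ∩ Γ(2) ≤ Γ ≤ Γ₀(N)`.

`heckeRep ℓ x ≡ u_x = [[1, b(x)], [0, 1]]` modulo `2` (`ℓ` odd), so the corrected cocycle

    `c'_x(γ) = u_x⁻¹ · c_x(γ) · u_{x ⋆ γ}`        (`c = t2c_coc` at level `N`)

satisfies `red (c'_x γ) = red γ` (`m59e3_hk_red_coc`): `m59e3_hk_D` is an `m59e3_HD` with core `K`.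
* `m59e3_hk_T`  : the operator as an `R`-linear endomorphism of `twe_wl_V R A Γ` (`K ≤ Γ ≤ Γ₀(N)`);
* `m59e3_wl_conj` : conjugation by `h ∈ Γ₀(N)` on `twe_wl_V R A Γ` (`Γ` normalised by `Γ₀(N)`);
* `m59e3_hk_res_T`, `m59e3_hk_conj_T`, `m59e3_hk_cor_T` in `twe_wl`-form.
-/
import Mathlib
import Fermat.Agent.M59.SinkB.E223.AbsHk
import Fermat.Agent.M59.SinkB.E223.Grp
import Fermat.Agent.TW.Aut.WLin
import Fermat.Agent.LR.IH.Hecke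
import Fermat.Agent.TW.Aut.Obs

set_option autoImplicit false
set_option linter.unusedSectionVars false
set_option linter.unusedVariables false
set_option linter.unusedSimpArgs false

noncomputable section

open CongruenceSubgroup Matrix.SpecialLinearGroup
open P2MW.S_ModularForm_heckeT_slash_eq_self_of_mem_Gamma0.ModularForm.HeckeSlashInvariance
open P2MW.S_ModularForm_heckeT_slash_eq_self_of_mem_Gamma0.ModularForm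
open scoped MatrixGroups OnePoint

namespace Fermat.Agent.M59

open Fermat.Agent.JT3 Fermat.Agent.LR Fermat.Agent.TW

variable {N ℓ : ℕ} [Fact ℓ.Prime]

/-! ### The four entries of the cocycle relation -/

theorem m59e3_hk_entries (hℓN : ¬ ℓ ∣ N) (x : OnePoint (ZMod ℓ)) (γ : Gamma0 N) :
    lrih_e ℓ x * (γ : SL(2, ℤ)) 0 0 + lrih_r ℓ x * (γ : SL(2, ℤ)) 1 0 =
      ((t2c_coc hℓN x γ : Gamma0 N) : SL(2, ℤ)) 0 0 * lrih_e ℓ (t2c_act (γ : SL(2, ℤ)) x) ∧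
    lrih_e ℓ x * (γ : SL(2, ℤ)) 0 1 + lrih_r ℓ x * (γ : SL(2, ℤ)) 1 1 =
      ((t2c_coc hℓN x γ : Gamma0 N) : SL(2, ℤ)) 0 0 * lrih_r ℓ (t2c_act (γ : SL(2, ℤ)) x) +
      ((t2c_coc hℓN x γ : Gamma0 N) : SL(2, ℤ)) 0 1 *
        (twe_hk_e ℓ (t2c_act (γ : SL(2, ℤ)) x) : ℤ) ∧
    (twe_hk_e ℓ x : ℤ) * (γ : SL(2, ℤ)) 1 0 =
      ((t2c_coc hℓN x γ : Gamma0 N) : SL(2, ℤ)) 1 0 * lrih_e ℓ (t2c_act (γ : SL(2, ℤ)) x) ∧
    (twe_hk_e ℓ x : ℤ) * (γ : SL(2, ℤ)) 1 1 =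
      ((t2c_coc hℓN x γ : Gamma0 N) : SL(2, ℤ)) 1 0 * lrih_r ℓ (t2c_act (γ : SL(2, ℤ)) x) +
      ((t2c_coc hℓN x γ : Gamma0 N) : SL(2, ℤ)) 1 1 *
        (twe_hk_e ℓ (t2c_act (γ : SL(2, ℤ)) x) : ℤ) := by
  have h := t2c_coc_spec hℓN x γ
  refine ⟨?_, ?_, ?_, ?_⟩
  · have e := congrArg (fun M : GL (Fin 2) ℝ => (M : Matrix (Fin 2) (Fin 2) ℝ) 0 0) h
    simp only [Units.val_mul, Matrix.mul_apply, Fin.sum_univ_two, lrih_heckeRep_00,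
      lrih_heckeRep_01, lrih_heckeRep_10, twe_hk_rep_11, mapGL_apply, mul_zero, add_zero] at e
    exact_mod_cast e
  · have e := congrArg (fun M : GL (Fin 2) ℝ => (M : Matrix (Fin 2) (Fin 2) ℝ) 0 1) h
    simp only [Units.val_mul, Matrix.mul_apply, Fin.sum_univ_two, lrih_heckeRep_00,
      lrih_heckeRep_01, lrih_heckeRep_10, twe_hk_rep_11, mapGL_apply, mul_zero, add_zero] at e
    exact_mod_cast e
  · have e := congrArg (fun M : GL (Fin 2) ℝ => (M : Matrix (Fin 2) (Fin 2) ℝ) 1 0) h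
    simp only [Units.val_mul, Matrix.mul_apply, Fin.sum_univ_two, lrih_heckeRep_00,
      lrih_heckeRep_01, lrih_heckeRep_10, twe_hk_rep_11, mapGL_apply, mul_zero, add_zero,
      zero_mul, zero_add] at e
    exact_mod_cast e
  · have e := congrArg (fun M : GL (Fin 2) ℝ => (M : Matrix (Fin 2) (Fin 2) ℝ) 1 1) h
    simp only [Units.val_mul, Matrix.mul_apply, Fin.sum_univ_two, lrih_heckeRep_00,
      lrih_heckeRep_01, lrih_heckeRep_10, twe_hk_rep_11, mapGL_apply, mul_zero, add_zero,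
      zero_mul, zero_add] at e
    exact_mod_cast e

/-! ### The correcting elements -/

/-- `u_x = [[1, b(x)], [0, 1]]`. -/
def m59e3_hk_u (ℓ : ℕ) (x : OnePoint (ZMod ℓ)) : SL(2, ℤ) :=
  ⟨!![1, lrih_r ℓ x; 0, 1], by simp [Matrix.det_fin_two]⟩

theorem m59e3_hk_u_mem (M : ℕ) (x : OnePoint (ZMod ℓ)) : m59e3_hk_u ℓ x ∈ Gamma0 M := by
  rw [Gamma0_mem]
  simp [m59e3_hk_u]

theorem m59e3_hk_u_00 (x : OnePoint (ZMod ℓ)) : (m59e3_hk_u ℓ x) 0 0 = 1 := rfl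
theorem m59e3_hk_u_01 (x : OnePoint (ZMod ℓ)) : (m59e3_hk_u ℓ x) 0 1 = lrih_r ℓ x := rfl
theorem m59e3_hk_u_10 (x : OnePoint (ZMod ℓ)) : (m59e3_hk_u ℓ x) 1 0 = 0 := rfl
theorem m59e3_hk_u_11 (x : OnePoint (ZMod ℓ)) : (m59e3_hk_u ℓ x) 1 1 = 1 := rfl

theorem m59e3_sl_mul_apply (a b : SL(2, ℤ)) (i j : Fin 2) :
    (a * b) i j = a i 0 * b 0 j + a i 1 * b 1 j := by
  rw [Matrix.SpecialLinearGroup.coe_mul, Matrix.mul_apply, Fin.sum_univ_two]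

theorem m59e3_hk_cast_l (hℓ2 : ℓ ≠ 2) : ((ℓ : ℤ) : ZMod 2) = 1 := by
  have h : ¬ 2 ∣ ℓ := fun h2 =>
    hℓ2 ((Nat.prime_dvd_prime_iff_eq Nat.prime_two (Fact.out : ℓ.Prime)).mp h2).symm
  exact m59e3_cast_odd h

theorem m59e3_hk_cast_e (hℓ2 : ℓ ≠ 2) (x : OnePoint (ZMod ℓ)) : ((lrih_e ℓ x : ℤ) : ZMod 2) = 1 := by
  induction x using OnePoint.rec with
  | infty => simpa [lrih_e] using m59e3_hk_cast_l hℓ2
  | coe j => simp [lrih_e]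

theorem m59e3_hk_cast_e' (hℓ2 : ℓ ≠ 2) (x : OnePoint (ZMod ℓ)) :
    ((twe_hk_e ℓ x : ℕ) : ZMod 2) = 1 := by
  induction x using OnePoint.rec with
  | infty => simp [twe_hk_e]
  | coe j => simpa [twe_hk_e] using m59e3_hk_cast_l hℓ2

/-- **the corrected cocycle has the reduction of `γ`.** -/
theorem m59e3_hk_red_coc (hℓN : ¬ ℓ ∣ N) (hℓ2 : ℓ ≠ 2) (x : OnePoint (ZMod ℓ)) (γ : Gamma0 N) :
    m59e3_red ((m59e3_hk_u ℓ x)⁻¹ * ((t2c_coc hℓN x γ : Gamma0 N) : SL(2, ℤ)) *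
      m59e3_hk_u ℓ (t2c_act (γ : SL(2, ℤ)) x)) = m59e3_red (γ : SL(2, ℤ)) := by
  obtain ⟨h00, h01, h10, h11⟩ := m59e3_hk_entries hℓN x γ
  have key : m59e3_red (((t2c_coc hℓN x γ : Gamma0 N) : SL(2, ℤ)) *
      m59e3_hk_u ℓ (t2c_act (γ : SL(2, ℤ)) x)) =
      m59e3_red (m59e3_hk_u ℓ x * (γ : SL(2, ℤ))) := by
    have c00 := congrArg (Int.cast : ℤ → ZMod 2) h00
    have c01 := congrArg (Int.cast : ℤ → ZMod 2) h01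
    have c10 := congrArg (Int.cast : ℤ → ZMod 2) h10
    have c11 := congrArg (Int.cast : ℤ → ZMod 2) h11
    push_cast at c00 c01 c10 c11
    simp only [m59e3_hk_cast_e hℓ2, m59e3_hk_cast_e' hℓ2, one_mul, mul_one] at c00 c01 c10 c11
    apply m59e3_red_ext
    · rw [m59e3_red_apply]
      rw [m59e3_sl_mul_apply, m59e3_sl_mul_apply]
      simp only [m59e3_hk_u_00, m59e3_hk_u_01, m59e3_hk_u_10, m59e3_hk_u_11]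
      push_cast
      linear_combination -c00
    · rw [m59e3_red_apply]
      rw [m59e3_sl_mul_apply, m59e3_sl_mul_apply]
      simp only [m59e3_hk_u_00, m59e3_hk_u_01, m59e3_hk_u_10, m59e3_hk_u_11]
      push_cast
      linear_combination -c01
    · rw [m59e3_red_apply]
      rw [m59e3_sl_mul_apply, m59e3_sl_mul_apply]
      simp only [m59e3_hk_u_00, m59e3_hk_u_01, m59e3_hk_u_10, m59e3_hk_u_11]
      push_cast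
      linear_combination -c10
    · rw [m59e3_red_apply]
      rw [m59e3_sl_mul_apply, m59e3_sl_mul_apply]
      simp only [m59e3_hk_u_00, m59e3_hk_u_01, m59e3_hk_u_10, m59e3_hk_u_11]
      push_cast
      linear_combination -c11
  rw [mul_assoc, map_mul, key, map_mul, map_inv, inv_mul_cancel_left]

/-! ### The Hecke datum -/

/-- the corrected cocycle `u_x⁻¹ c_x(γ) u_{x ⋆ γ}`, junk `1` outside `Γ₀(N)`. -/
def m59e3_hk_coc (hℓN : ¬ ℓ ∣ N) (x : OnePoint (ZMod ℓ)) (γ : SL(2, ℤ)) : SL(2, ℤ) :=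
  open Classical in
  if h : γ ∈ Gamma0 N then
    (m59e3_hk_u ℓ x)⁻¹ * ((t2c_coc hℓN x ⟨γ, h⟩ : Gamma0 N) : SL(2, ℤ)) *
      m59e3_hk_u ℓ (t2c_act γ x)
  else 1

theorem m59e3_hk_coc_of_mem (hℓN : ¬ ℓ ∣ N) (x : OnePoint (ZMod ℓ)) {γ : SL(2, ℤ)}
    (h : γ ∈ Gamma0 N) :
    m59e3_hk_coc hℓN x γ =
      (m59e3_hk_u ℓ x)⁻¹ * ((t2c_coc hℓN x ⟨γ, h⟩ : Gamma0 N) : SL(2, ℤ)) *
        m59e3_hk_u ℓ (t2c_act γ x) := by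
  unfold m59e3_hk_coc
  rw [dif_pos h]

theorem m59e3_hk_coc_mem (hℓN : ¬ ℓ ∣ N) (x : OnePoint (ZMod ℓ)) {γ : SL(2, ℤ)}
    (h : γ ∈ Gamma0 N) : m59e3_hk_coc hℓN x γ ∈ Gamma0 N := by
  rw [m59e3_hk_coc_of_mem hℓN x h]
  exact mul_mem (mul_mem (inv_mem (m59e3_hk_u_mem N x)) (t2c_coc hℓN x ⟨γ, h⟩).2)
    (m59e3_hk_u_mem N _)

/-- **the uniform Hecke datum at `ℓ`** on the groups between `K` and `Γ₀(N)`. -/
@[reducible] def m59e3_hk_D (hℓN : ¬ ℓ ∣ N) (hℓ2 : ℓ ≠ 2) :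
    m59e3_HD SL(2, ℤ) (OnePoint (ZMod ℓ)) where
  G₀ := Gamma0 N
  K := m59e3_K N
  hKG := m59e3_K_le N
  hKn := m59e3_K_normal N
  act := t2c_act
  act_one := t2c_act_one
  act_mul := t2c_act_mul
  coc := m59e3_hk_coc hℓN
  coc_one x := by
    rw [m59e3_hk_coc_of_mem hℓN x (one_mem _)]
    have h1 : (⟨1, one_mem _⟩ : Gamma0 N) = 1 := rfl
    rw [h1, t2c_coc_one, t2c_act_one, Subgroup.coe_one, mul_one, inv_mul_cancel]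
  coc_mul x g hg h hh := by
    rw [m59e3_hk_coc_of_mem hℓN x (mul_mem hg hh), m59e3_hk_coc_of_mem hℓN x hg,
      m59e3_hk_coc_of_mem hℓN _ hh]
    have h1 : (⟨g * h, mul_mem hg hh⟩ : Gamma0 N) = ⟨g, hg⟩ * ⟨h, hh⟩ := rfl
    rw [h1, t2c_coc_mul, Subgroup.coe_mul, t2c_act_mul]
    group
  coc_K x γ hγ := by
    rw [m59e3_mem_K]
    refine ⟨mul_mem (inv_mem hγ) (m59e3_hk_coc_mem hℓN x hγ), ?_⟩
    rw [map_mul, map_inv, m59e3_hk_coc_of_mem hℓN x hγ]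
    have h1 := m59e3_hk_red_coc hℓN hℓ2 x ⟨γ, hγ⟩
    rw [h1]
    exact inv_mul_cancel _

/-- the cocycle preserves the trace at fixed points. -/
theorem m59e3_hk_tr (hℓN : ¬ ℓ ∣ N) (hℓ2 : ℓ ≠ 2) :
    ∀ x, ∀ γ ∈ (m59e3_hk_D (N := N) hℓN hℓ2).G₀, (m59e3_hk_D (N := N) hℓN hℓ2).act γ x = x →
      lrpd_tr ((m59e3_hk_D (N := N) hℓN hℓ2).coc x γ) = lrpd_tr γ := by
  intro x γ hγ hfix
  have hγ' : γ ∈ Gamma0 N := hγ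
  have hfix' : t2c_act γ x = x := hfix
  show lrpd_tr (m59e3_hk_coc hℓN x γ) = lrpd_tr γ
  rw [m59e3_hk_coc_of_mem hℓN x hγ', hfix', twe_hk_tr_conj]
  have h := t2e_trace_coc hℓN x ⟨γ, hγ'⟩ hfix'
  rw [Matrix.trace_fin_two, Matrix.trace_fin_two] at h
  exact h

/-! ### The operators on `twe_wl_V` -/

section lin

variable {R : Type*} [CommRing R] {A : Type*} [AddCommGroup A] [Module R A]
  {Γ : Subgroup SL(2, ℤ)}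

/-- **the uniform Hecke operator `T_ℓ`** on `V(Γ)`, `K ≤ Γ ≤ Γ₀(N)`. -/
def m59e3_hk_T (hℓN : ¬ ℓ ∣ N) (hℓ2 : ℓ ≠ 2) (hK : m59e3_K N ≤ Γ) (hΓ : Γ ≤ Gamma0 N) :
    Module.End R ↥(twe_wl_V R A Γ) where
  toFun z := ⟨m59e3_hd_T (m59e3_hk_D hℓN hℓ2) hK hΓ z.1,
    m59e3_hd_T_PE (m59e3_hk_D hℓN hℓ2) hK hΓ (m59e3_hk_tr hℓN hℓ2) z.2⟩
  map_add' z z' := by
    apply Subtype.ext
    show m59e3_hd_T (m59e3_hk_D hℓN hℓ2) hK hΓ (z.1 + z'.1) = _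
    rw [map_add]
    rfl
  map_smul' a z := by
    apply Subtype.ext
    show m59e3_hd_T (m59e3_hk_D hℓN hℓ2) hK hΓ (a • z.1) =
      a • m59e3_hd_T (m59e3_hk_D hℓN hℓ2) hK hΓ z.1
    rw [twe_wl_smul_eq_comp, m59e3_hd_T_comp, ← twe_wl_smul_eq_comp]

@[simp] theorem m59e3_hk_T_coe (hℓN : ¬ ℓ ∣ N) (hℓ2 : ℓ ≠ 2) (hK : m59e3_K N ≤ Γ)
    (hΓ : Γ ≤ Gamma0 N) (z : ↥(twe_wl_V R A Γ)) :
    (m59e3_hk_T (R := R) hℓN hℓ2 hK hΓ z : Additive ↥Γ →+ A) =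
      m59e3_hd_T (m59e3_hk_D hℓN hℓ2) hK hΓ z.1 := rfl

/-- conjugation by `h ∈ Γ₀(N)` on `V(Γ)`, `Γ` normalised by `Γ₀(N)`. -/
def m59e3_wl_conj (hnorm : ∀ g ∈ Gamma0 N, ∀ n ∈ Γ, g⁻¹ * n * g ∈ Γ) (h : ↥(Gamma0 N)) :
    Module.End R ↥(twe_wl_V R A Γ) where
  toFun z := ⟨twe_rc_conj hnorm h z.1, twe_rc_conj_PE hnorm h z.2⟩
  map_add' _ _ := rfl
  map_smul' _ _ := rfl

@[simp] theorem m59e3_wl_conj_coe (hnorm : ∀ g ∈ Gamma0 N, ∀ n ∈ Γ, g⁻¹ * n * g ∈ Γ)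
    (h : ↥(Gamma0 N)) (z : ↥(twe_wl_V R A Γ)) :
    (m59e3_wl_conj (R := R) hnorm h z : Additive ↥Γ →+ A) = twe_rc_conj hnorm h z.1 := rfl

theorem m59e3_wl_conj_mul (hnorm : ∀ g ∈ Gamma0 N, ∀ n ∈ Γ, g⁻¹ * n * g ∈ Γ)
    (g h : ↥(Gamma0 N)) (z : ↥(twe_wl_V R A Γ)) :
    m59e3_wl_conj (R := R) hnorm (g * h) z = m59e3_wl_conj hnorm g (m59e3_wl_conj hnorm h z) := by
  apply Subtype.ext
  rw [m59e3_wl_conj_coe, m59e3_wl_conj_coe, m59e3_wl_conj_coe]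
  exact twe_ob_conj_mul hnorm g h z.1

theorem m59e3_wl_conj_one (hnorm : ∀ g ∈ Gamma0 N, ∀ n ∈ Γ, g⁻¹ * n * g ∈ Γ)
    (z : ↥(twe_wl_V R A Γ)) : m59e3_wl_conj (R := R) hnorm 1 z = z := by
  apply Subtype.ext
  rw [m59e3_wl_conj_coe]
  exact twe_ob_conj_one hnorm z.1

/-- restriction commutes with `T`. -/
theorem m59e3_hk_res_T (hℓN : ¬ ℓ ∣ N) (hℓ2 : ℓ ≠ 2) (hK : m59e3_K N ≤ Γ) (hΓ : Γ ≤ Gamma0 N)
    {Γ' : Subgroup SL(2, ℤ)} (hK' : m59e3_K N ≤ Γ') (hle : Γ' ≤ Γ) (z : ↥(twe_wl_V R A Γ)) :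
    twe_wl_res hle (m59e3_hk_T (R := R) hℓN hℓ2 hK hΓ z) =
      m59e3_hk_T hℓN hℓ2 hK' (hle.trans hΓ) (twe_wl_res hle z) := by
  apply Subtype.ext
  rw [twe_wl_res_coe, m59e3_hk_T_coe, m59e3_hk_T_coe, twe_wl_res_coe]
  exact m59e3_hd_res_T (m59e3_hk_D hℓN hℓ2) hK hΓ hK' hle z.1

/-- conjugation commutes with `T`. -/
theorem m59e3_hk_conj_T (hℓN : ¬ ℓ ∣ N) (hℓ2 : ℓ ≠ 2) (hK : m59e3_K N ≤ Γ) (hΓ : Γ ≤ Gamma0 N)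
    (hnorm : ∀ g ∈ Gamma0 N, ∀ n ∈ Γ, g⁻¹ * n * g ∈ Γ) (h : ↥(Gamma0 N))
    (z : ↥(twe_wl_V R A Γ)) :
    m59e3_wl_conj (R := R) hnorm h (m59e3_hk_T hℓN hℓ2 hK hΓ z) =
      m59e3_hk_T hℓN hℓ2 hK hΓ (m59e3_wl_conj hnorm h z) := by
  apply Subtype.ext
  rw [m59e3_wl_conj_coe, m59e3_hk_T_coe, m59e3_hk_T_coe, m59e3_wl_conj_coe]
  exact m59e3_hd_conj_T (m59e3_hk_D hℓN hℓ2) hK hΓ hnorm h z.1

/-- the transfer commutes with `T`. -/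
theorem m59e3_hk_cor_T (hℓN : ¬ ℓ ∣ N) (hℓ2 : ℓ ≠ 2) (hK : m59e3_K N ≤ Γ) (hΓ : Γ ≤ Gamma0 N)
    {Γ' : Subgroup SL(2, ℤ)} (hK' : m59e3_K N ≤ Γ') (hle : Γ' ≤ Γ)
    {ι : Type*} [Fintype ι] {ρ : ι → SL(2, ℤ)} (hρ : ∀ i, ρ i ∈ Γ)
    (hbij : ∀ γ ∈ Γ, ∃! i, (ρ i)⁻¹ * γ ∈ Γ') (z : ↥(twe_wl_V R A Γ')) :
    twe_wl_cor hρ hbij (m59e3_hk_T (R := R) hℓN hℓ2 hK' (hle.trans hΓ) z) =
      m59e3_hk_T hℓN hℓ2 hK hΓ (twe_wl_cor hρ hbij z) := by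
  apply Subtype.ext
  rw [twe_wl_cor_coe, m59e3_hk_T_coe, m59e3_hk_T_coe, twe_wl_cor_coe]
  exact m59e3_hd_cor_T (m59e3_hk_D hℓN hℓ2) hK hΓ hK' hle hρ hbij z.1

/-- characters killing `K` are Eisenstein. -/
theorem m59e3_hk_T_trivK (hℓN : ¬ ℓ ∣ N) (hℓ2 : ℓ ≠ 2) (hK : m59e3_K N ≤ Γ) (hΓ : Γ ≤ Gamma0 N)
    (z : ↥(twe_wl_V R A Γ)) (hz : ∀ κ ∈ m59e3_K N, m59e3_E z.1 κ = 0) :
    m59e3_hk_T (R := R) hℓN hℓ2 hK hΓ z = (ℓ + 1) • z := by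
  apply Subtype.ext
  rw [m59e3_hk_T_coe, m59e3_hd_T_trivK (m59e3_hk_D hℓN hℓ2) hK hΓ z.1 hz, lrm_card]
  rfl

end lin

end Fermat.Agent.M59
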