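/-
Project M59 (S59), Sink B, cell [E22-3], sub-cell (CORE-A) (helper5).  Tag `m59e3_co_`.

THE GROUP-LEVEL FIELDS OF THE CONCRETE `m59e3_Abs`: the norms `res ∘ cor` of the two covers
`K ≤ Γ₀(2N)` (index `2`, `1 + C`) and `K ≤ Γ₃` (index `3`, `1 + g + g²`), the Eisenstein character `χ`
of `Γ₃ / K`, and the obstruction `ob z = z (g³)`.
-/
import Mathlib
import Fermat.Agent.M59.SinkB.E223.Hk

set_option autoImplicit false
set_option linter.unusedSectionVars false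
set_option linter.unusedVariables false

noncomputable section

open CongruenceSubgroup Matrix.SpecialLinearGroup
open scoped MatrixGroups

namespace Fermat.Agent.M59

open Fermat.Agent.JT3 Fermat.Agent.LR Fermat.Agent.TW

/-! ### Conjugation only depends on the element -/

section congr

variable {𝔾 : Type*} [Group 𝔾] {ΓA ΓB Γ' : Subgroup 𝔾} {A : Type*} [AddCommGroup A]

theorem m59e3_co_conj_congr (hA : ∀ g ∈ ΓA, ∀ n ∈ Γ', g⁻¹ * n * g ∈ Γ')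
    (hB : ∀ g ∈ ΓB, ∀ n ∈ Γ', g⁻¹ * n * g ∈ Γ') (a : ↥ΓA) (b : ↥ΓB) (hab : (a : 𝔾) = (b : 𝔾))
    (z : Additive ↥Γ' →+ A) : twe_rc_conj hA a z = twe_rc_conj hB b z := by
  refine AddMonoidHom.ext fun n => ?_
  obtain ⟨n, rfl⟩ := Additive.ofMul.surjective n
  rw [twe_rc_conj_apply, twe_rc_conj_apply]
  congr 2
  apply Subtype.ext
  rw [twe_rc_conjHom_coe, twe_rc_conjHom_coe, hab]

theorem m59e3_co_conj_of_one (hA : ∀ g ∈ ΓA, ∀ n ∈ Γ', g⁻¹ * n * g ∈ Γ') (a : ↥ΓA)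
    (ha : (a : 𝔾) = 1) (z : Additive ↥Γ' →+ A) : twe_rc_conj hA a z = z := by
  have h1 : a = 1 := Subtype.ext ha
  rw [h1]
  exact twe_ob_conj_one hA z

end congr

variable {N : ℕ}

/-! ### The inclusions -/

theorem m59e3_co_K_le_two (hN : ¬ 2 ∣ N) : m59e3_K N ≤ Gamma0 (2 * N) := by
  rw [m59e3_Gamma0_two_mul hN]
  exact m59e3_K_le_GamR N _

theorem m59e3_co_two_le (hN : ¬ 2 ∣ N) : Gamma0 (2 * N) ≤ Gamma0 N := by
  rw [m59e3_Gamma0_two_mul hN]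
  exact m59e3_GamR_le N _

theorem m59e3_co_K_le_three (N : ℕ) : m59e3_K N ≤ m59e3_Gam3 N := m59e3_K_le_GamR N _

theorem m59e3_co_three_le (N : ℕ) : m59e3_Gam3 N ≤ Gamma0 N := m59e3_GamR_le N _

theorem m59e3_co_bij2 (hN : ¬ 2 ∣ N) :
    ∀ γ ∈ Gamma0 (2 * N), ∃! i : Fin 2, (m59e3_c0 ^ (i : ℕ))⁻¹ * γ ∈ m59e3_K N := by
  rw [m59e3_Gamma0_two_mul hN]
  exact m59e3_bij2 N

theorem m59e3_co_rho2 (N : ℕ) : ∀ i : Fin 2, m59e3_c0 ^ (i : ℕ) ∈ Gamma0 (2 * N) := fun i =>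
  pow_mem m59e3_c0_mem_two _

theorem m59e3_co_rho3 (hN : ¬ 2 ∣ N) : ∀ i : Fin 3, (m59e3_g N) ^ (i : ℕ) ∈ m59e3_Gam3 N := fun i =>
  pow_mem (m59e3_g_mem_Gam3 hN) _

/-- the elements of `Γ₀(N)`. -/
def m59e3_co_c0 (N : ℕ) : ↥(Gamma0 N) := ⟨m59e3_c0, m59e3_c0_mem N⟩

def m59e3_co_w (N : ℕ) : ↥(Gamma0 N) := ⟨m59e3_w N, m59e3_w_mem N⟩

def m59e3_co_g (N : ℕ) : ↥(Gamma0 N) := ⟨m59e3_g N, m59e3_g_mem N⟩

theorem m59e3_co_g_eq (N : ℕ) :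
    m59e3_co_g N = m59e3_co_c0 N * m59e3_co_w N * m59e3_co_c0 N * (m59e3_co_w N)⁻¹ := by
  apply Subtype.ext
  rw [Subgroup.coe_mul, Subgroup.coe_mul, Subgroup.coe_mul, Subgroup.coe_inv]
  show m59e3_g N = m59e3_c0 * m59e3_w N * m59e3_c0 * (m59e3_w N)⁻¹
  unfold m59e3_g
  rfl

section norms

variable {R : Type*} [CommRing R] {A : Type*} [AddCommGroup A] [Module R A]

/-- **`res₂ ∘ cor₂ = 1 + C`.** -/
theorem m59e3_co_res_cor2 (hN : ¬ 2 ∣ N) (z : ↥(twe_wl_V R A (m59e3_K N))) :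
    twe_wl_res (m59e3_co_K_le_two hN)
        (twe_wl_cor (R := R) (m59e3_co_rho2 N) (m59e3_co_bij2 hN) z) =
      z + m59e3_wl_conj (m59e3_K_normal N) (m59e3_co_c0 N) z := by
  apply Subtype.ext
  have hnorm2 : ∀ g ∈ Gamma0 (2 * N), ∀ n ∈ m59e3_K N, g⁻¹ * n * g ∈ m59e3_K N := fun g hg =>
    m59e3_K_normal N g (m59e3_co_two_le hN hg)
  rw [twe_wl_res_coe, twe_wl_cor_coe,
    twe_rc_res_cor hnorm2 (m59e3_co_rho2 N) (m59e3_co_bij2 hN) (m59e3_co_K_le_two hN) z.1,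
    Fin.sum_univ_two]
  show _ = z.1 + twe_rc_conj (m59e3_K_normal N) (m59e3_co_c0 N) z.1
  have e0 : m59e3_c0 ^ ((0 : Fin 2) : ℕ) = 1 := by rw [Fin.val_zero]; exact pow_zero _
  have e1 : m59e3_c0 ^ ((1 : Fin 2) : ℕ) = ((m59e3_co_c0 N : ↥(Gamma0 N)) : SL(2, ℤ)) := by
    rw [Fin.val_one]; exact pow_one _
  rw [m59e3_co_conj_of_one hnorm2 _ e0 z.1,
    m59e3_co_conj_congr hnorm2 (m59e3_K_normal N) _ (m59e3_co_c0 N) e1 z.1]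

/-- **`res₁ ∘ cor₁ = 1 + g + g²`.** -/
theorem m59e3_co_res_cor3 (hN : ¬ 2 ∣ N) (z : ↥(twe_wl_V R A (m59e3_K N))) :
    twe_wl_res (m59e3_co_K_le_three N)
        (twe_wl_cor (R := R) (m59e3_co_rho3 hN) (m59e3_bij3 hN) z) =
      z + m59e3_wl_conj (m59e3_K_normal N) (m59e3_co_g N) z +
        m59e3_wl_conj (m59e3_K_normal N) (m59e3_co_g N)
          (m59e3_wl_conj (m59e3_K_normal N) (m59e3_co_g N) z) := by
  have hnorm3 : ∀ g ∈ m59e3_Gam3 N, ∀ n ∈ m59e3_K N, g⁻¹ * n * g ∈ m59e3_K N := fun g hg =>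
    m59e3_K_normal N g (m59e3_co_three_le N hg)
  apply Subtype.ext
  rw [twe_wl_res_coe, twe_wl_cor_coe,
    twe_rc_res_cor hnorm3 (m59e3_co_rho3 hN) (m59e3_bij3 hN) (m59e3_co_K_le_three N) z.1,
    Fin.sum_univ_three]
  show _ = z.1 + twe_rc_conj (m59e3_K_normal N) (m59e3_co_g N) z.1 +
    twe_rc_conj (m59e3_K_normal N) (m59e3_co_g N)
      (twe_rc_conj (m59e3_K_normal N) (m59e3_co_g N) z.1)
  rw [← twe_ob_conj_mul (m59e3_K_normal N) (m59e3_co_g N) (m59e3_co_g N) z.1]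
  have e0 : (m59e3_g N) ^ ((0 : Fin 3) : ℕ) = 1 := by rw [Fin.val_zero]; exact pow_zero _
  have e1 : (m59e3_g N) ^ ((1 : Fin 3) : ℕ) = ((m59e3_co_g N : ↥(Gamma0 N)) : SL(2, ℤ)) := by
    rw [Fin.val_one]; exact pow_one _
  have e2 : (m59e3_g N) ^ ((2 : Fin 3) : ℕ) =
      ((m59e3_co_g N * m59e3_co_g N : ↥(Gamma0 N)) : SL(2, ℤ)) := by
    rw [Fin.val_two, Subgroup.coe_mul]; exact pow_two _
  rw [m59e3_co_conj_of_one hnorm3 _ e0 z.1,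
    m59e3_co_conj_congr hnorm3 (m59e3_K_normal N) _ (m59e3_co_g N) e1 z.1,
    m59e3_co_conj_congr hnorm3 (m59e3_K_normal N) _ (m59e3_co_g N * m59e3_co_g N) e2 z.1]

end norms

/-! ### The Eisenstein character of `Γ₃ / K` -/

section E

variable {𝔾 : Type*} [Group 𝔾] {A : Type*} [AddCommGroup A]

theorem m59e3_co_E_pow {Γ : Subgroup 𝔾} (z : Additive ↥Γ →+ A) {a : 𝔾} (ha : a ∈ Γ) (n : ℕ) :
    m59e3_E z (a ^ n) = n • m59e3_E z a := by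
  induction n with
  | zero => rw [pow_zero, m59e3_E_one, zero_smul]
  | succ n ih => rw [pow_succ, m59e3_E_mul z (pow_mem ha n) ha, ih, succ_nsmul]

end E

theorem m59e3_co_norm3 (N : ℕ) :
    ∀ g ∈ m59e3_Gam3 N, ∀ n ∈ m59e3_K N, g⁻¹ * n * g ∈ m59e3_K N := fun g hg =>
  m59e3_K_normal N g (m59e3_co_three_le N hg)

/-- the generator of `Γ₃ / K` as an element of `Γ₃`. -/
def m59e3_co_g3 (hN : ¬ 2 ∣ N) : ↥(m59e3_Gam3 N) := ⟨m59e3_g N, m59e3_g_mem_Gam3 hN⟩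

/-- **the character `χ` of `Γ₃ / K ≅ ℤ/3`**: it kills `K`, and every `x ∈ V(Γ₃)` killing `K` is a
multiple of it. -/
theorem m59e3_co_chi (hN : ¬ 2 ∣ N) {r : ℕ} (hr : r.Prime) (hrN : r ∣ N) (hr3 : r % 3 = 2) :
    ∃ χ : ↥(twe_wl_V (ZMod 3) (ZMod 3) (m59e3_Gam3 N)),
      (∀ κ ∈ m59e3_K N, m59e3_E χ.1 κ = 0) ∧
      ∀ x : ↥(twe_wl_V (ZMod 3) (ZMod 3) (m59e3_Gam3 N)),
        twe_wl_res (m59e3_co_K_le_three N) x = 0 → ∃ c : ZMod 3, x = c • χ := by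
  have hz0 : twe_rc_conj (m59e3_co_norm3 N) (m59e3_co_g3 hN)
      (0 : Additive ↥(m59e3_K N) →+ ZMod 3) = 0 := AddMonoidHom.ext fun _ => rfl
  obtain ⟨x, hxPE, hxres, hxg⟩ := twe_ob_exists_ext_PE (m59e3_co_K_le_three N)
    (m59e3_co_norm3 N) (m59e3_hU hr hrN hr3) (m59e3_co_g3 hN) 3 (m59e3_bij3 hN)
    (m59e3_g_pow_three_mem hN) (0 : Additive ↥(m59e3_K N) →+ ZMod 3) (fun _ _ => rfl) hz0
    (1 : ZMod 3) (by
      show (0 : ZMod 3) = 3 • (1 : ZMod 3)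
      decide)
  have hkill : ∀ (y : Additive ↥(m59e3_Gam3 N) →+ ZMod 3),
      lrpd_pull (Subgroup.inclusion (m59e3_co_K_le_three N)) y = 0 →
      ∀ κ ∈ m59e3_K N, m59e3_E y κ = 0 := by
    intro y hy κ hκ
    rw [← m59e3_E_pull (m59e3_co_K_le_three N) y hκ, hy, m59e3_E_of_mem _ hκ]
    rfl
  have hxg' : m59e3_E x (m59e3_g N) = 1 := by
    rw [m59e3_E_of_mem x (m59e3_g_mem_Gam3 hN)]
    exact hxg
  refine ⟨⟨x, hxPE⟩, hkill x hxres, ?_⟩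
  intro x' hx'
  have hx'0 : lrpd_pull (Subgroup.inclusion (m59e3_co_K_le_three N)) x'.1 = 0 := by
    have := congrArg Subtype.val hx'
    exact this
  refine ⟨m59e3_E x'.1 (m59e3_g N), ?_⟩
  apply Subtype.ext
  refine m59e3_E_ext fun γ hγ => ?_
  obtain ⟨i, hi, -⟩ := m59e3_bij3 hN γ hγ
  have hγeq : γ = (m59e3_g N) ^ (i : ℕ) * (((m59e3_g N) ^ (i : ℕ))⁻¹ * γ) := by group
  have hgm : m59e3_g N ∈ m59e3_Gam3 N := m59e3_g_mem_Gam3 hN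
  have hsm : ∀ (c : ZMod 3) (δ : SL(2, ℤ)), δ ∈ m59e3_Gam3 N →
      m59e3_E ((c • (⟨x, hxPE⟩ : ↥(twe_wl_V (ZMod 3) (ZMod 3) (m59e3_Gam3 N)))).1) δ =
        c * m59e3_E x δ := by
    intro c δ hδ
    rw [m59e3_E_of_mem _ hδ, m59e3_E_of_mem _ hδ]
    rfl
  rw [hsm _ γ hγ]
  rw [hγeq, m59e3_E_mul x'.1 (pow_mem hgm _) (m59e3_co_K_le_three N hi),
    m59e3_E_mul x (pow_mem hgm _) (m59e3_co_K_le_three N hi),
    hkill x'.1 hx'0 _ hi, hkill x hxres _ hi, add_zero, add_zero,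
    m59e3_co_E_pow x'.1 hgm, m59e3_co_E_pow x hgm, hxg', nsmul_eq_mul, nsmul_eq_mul, mul_one,
    mul_comm]

/-! ### The obstruction -/

section ob

variable {R : Type*} [CommRing R] {A : Type*} [AddCommGroup A] [Module R A]

/-- the obstruction `z ↦ z (g³)`. -/
def m59e3_co_ob (hN : ¬ 2 ∣ N) : ↥(twe_wl_V R A (m59e3_K N)) →ₗ[R] A where
  toFun z := z.1 (Additive.ofMul
    (⟨(m59e3_g N) ^ 3, m59e3_g_pow_three_mem hN⟩ : ↥(m59e3_K N)))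
  map_add' _ _ := rfl
  map_smul' _ _ := rfl

theorem m59e3_co_ob_apply (hN : ¬ 2 ∣ N) (z : ↥(twe_wl_V R A (m59e3_K N))) :
    m59e3_co_ob (R := R) hN z = m59e3_E z.1 ((m59e3_g N) ^ 3) := by
  rw [m59e3_E_of_mem _ (m59e3_g_pow_three_mem hN)]
  rfl

end ob

/-- **a `g`-invariant class with vanishing obstruction is a restriction from `Γ₃`.** -/
theorem m59e3_co_ob_res (hN : ¬ 2 ∣ N) {r : ℕ} (hr : r.Prime) (hrN : r ∣ N) (hr3 : r % 3 = 2)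
    (z : ↥(twe_wl_V (ZMod 3) (ZMod 3) (m59e3_K N)))
    (hg : m59e3_wl_conj (m59e3_K_normal N) (m59e3_co_g N) z = z)
    (hob : m59e3_co_ob (R := ZMod 3) hN z = 0) :
    z ∈ LinearMap.range (twe_wl_res (R := ZMod 3) (A := ZMod 3) (m59e3_co_K_le_three N)) := by
  have hz' : twe_rc_conj (m59e3_co_norm3 N) (m59e3_co_g3 hN) z.1 = z.1 := by
    have h1 := congrArg Subtype.val hg
    rw [m59e3_wl_conj_coe] at h1
    rw [m59e3_co_conj_congr (m59e3_co_norm3 N) (m59e3_K_normal N) (m59e3_co_g3 hN)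
      (m59e3_co_g N) rfl z.1]
    exact h1
  obtain ⟨x, hxPE, hxres, -⟩ := twe_ob_exists_ext_PE (m59e3_co_K_le_three N)
    (m59e3_co_norm3 N) (m59e3_hU hr hrN hr3) (m59e3_co_g3 hN) 3 (m59e3_bij3 hN)
    (m59e3_g_pow_three_mem hN) z.1 z.2 hz' (0 : ZMod 3) (by
      rw [smul_zero]
      exact hob)
  exact ⟨⟨x, hxPE⟩, Subtype.ext hxres⟩

/-- **the obstruction is Eisenstein on the `g`-invariants.** -/
theorem m59e3_co_ob_T {ℓ : ℕ} [Fact ℓ.Prime] (hN : ¬ 2 ∣ N) (hℓN : ¬ ℓ ∣ N) (hℓ2 : ℓ ≠ 2)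
    (z : ↥(twe_wl_V (ZMod 3) (ZMod 3) (m59e3_K N)))
    (hg : m59e3_wl_conj (m59e3_K_normal N) (m59e3_co_g N) z = z) :
    m59e3_co_ob (R := ZMod 3) hN
        (m59e3_hk_T (R := ZMod 3) hℓN hℓ2 (le_refl _) (m59e3_K_le N) z) =
      ((ℓ : ZMod 3) + 1) • m59e3_co_ob (R := ZMod 3) hN z := by
  have hz' : twe_rc_conj (m59e3_K_normal N) (m59e3_co_g N) z.1 = z.1 := by
    have h1 := congrArg Subtype.val hg
    rw [m59e3_wl_conj_coe] at h1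
    exact h1
  have h := m59e3_hd_T_pow (m59e3_hk_D hℓN hℓ2) (le_refl _) (m59e3_K_le N) (m59e3_K_normal N)
    (m59e3_co_g N) z.1 hz' 3 (m59e3_g_pow_three_mem hN)
  rw [m59e3_co_ob_apply, m59e3_co_ob_apply, m59e3_hk_T_coe]
  have h3 : ∀ s : ZMod 3, (3 : ℕ) • s = 0 := by decide
  have hcoe : ((m59e3_co_g N : ↥(Gamma0 N)) : SL(2, ℤ)) = m59e3_g N := rfl
  rw [hcoe] at h
  rw [h, h3, add_zero, lrm_card, nsmul_eq_mul, smul_eq_mul]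
  push_cast
  rfl

end Fermat.Agent.M59
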