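/-
Project M59 (S59), Sink B, cell [E22-3], sub-cell (DLT) (helper5).  Tag `m59e3_dl_`.

CONJUGATION BY `δ = diag(2, 1)`:  `θ : K = Γ₀(N) ∩ Γ(2) ≃* Γ₀(4N)`, `[[a,b],[c,d]] ↦ [[a, b/2], [2c, d]]`
(`N` odd).  It preserves traces and the orientation of parabolic elements, and it intertwines main's
`T_ℓ` (`twe_wl_T0`) at level `4N` with the uniform operator `m59e3_hk_T` on `K` (`ℓ ∤ 2N`).

* `m59e3_dl_theta hN : ↥(m59e3_K N) ≃* ↥(Gamma0 (2 * (2 * N)))`;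
* `m59e3_dl_Phi hN : V(Γ₀(4N)) ≃ₗ V(K)` (pull-back along `θ`);
* `m59e3_dl_Phi_T` : `Φ ∘ T_ℓ = T'_ℓ ∘ Φ`;
* `m59e3_dl_Phi_Om` : `Φ` is an isometry for the Poincaré pairings ((S4) of `lrpd_SFam`).
-/
import Mathlib
import Fermat.Agent.M59.SinkB.E223.Hk
import Fermat.Agent.TW.Aut.WPair

set_option autoImplicit false
set_option linter.unusedSectionVars false
set_option linter.unusedVariables false
set_option linter.unusedSimpArgs false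

noncomputable section

open CongruenceSubgroup Matrix.SpecialLinearGroup
open P2MW.S_ModularForm_heckeT_slash_eq_self_of_mem_Gamma0.ModularForm.HeckeSlashInvariance
open P2MW.S_ModularForm_heckeT_slash_eq_self_of_mem_Gamma0.ModularForm
open scoped MatrixGroups OnePoint

namespace Fermat.Agent.M59

open Fermat.Agent.JT3 Fermat.Agent.LR Fermat.Agent.TW

variable {N : ℕ}

/-! ### Entries of the elements of `K` and of `Γ₀(4N)` -/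

theorem m59e3_dl_K_even01 (γ : ↥(m59e3_K N)) : (2 : ℤ) ∣ (γ : SL(2, ℤ)) 0 1 := by
  have h := ((m59e3_red_eq_one_iff _).1 (m59e3_mem_K.1 γ.2).2).2.1
  exact (ZMod.intCast_zmod_eq_zero_iff_dvd _ 2).1 h

theorem m59e3_dl_K_even10 (γ : ↥(m59e3_K N)) : (2 : ℤ) ∣ (γ : SL(2, ℤ)) 1 0 := by
  have h := ((m59e3_red_eq_one_iff _).1 (m59e3_mem_K.1 γ.2).2).2.2.1
  exact (ZMod.intCast_zmod_eq_zero_iff_dvd _ 2).1 h

theorem m59e3_dl_K_dvd10 (γ : ↥(m59e3_K N)) : (N : ℤ) ∣ (γ : SL(2, ℤ)) 1 0 :=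
  t2c_dvd_of_mem (m59e3_mem_K.1 γ.2).1

theorem m59e3_dl_det (γ : SL(2, ℤ)) : γ 0 0 * γ 1 1 - γ 0 1 * γ 1 0 = 1 := by
  have := γ.det_coe
  rw [Matrix.det_fin_two] at this
  exact this

/-- `θ` as a function. -/
def m59e3_dl_thFun (γ : ↥(m59e3_K N)) : SL(2, ℤ) :=
  ⟨!![(γ : SL(2, ℤ)) 0 0, (γ : SL(2, ℤ)) 0 1 / 2; 2 * (γ : SL(2, ℤ)) 1 0, (γ : SL(2, ℤ)) 1 1], by
    rw [Matrix.det_fin_two_of]
    obtain ⟨b, hb⟩ := m59e3_dl_K_even01 γ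
    have hd := m59e3_dl_det (γ : SL(2, ℤ))
    rw [hb, Int.mul_ediv_cancel_left _ (by norm_num : (2 : ℤ) ≠ 0)]
    rw [hb] at hd
    linear_combination hd⟩

theorem m59e3_dl_thFun_00 (γ : ↥(m59e3_K N)) :
    (m59e3_dl_thFun γ) 0 0 = (γ : SL(2, ℤ)) 0 0 := rfl
theorem m59e3_dl_thFun_01 (γ : ↥(m59e3_K N)) :
    (m59e3_dl_thFun γ) 0 1 = (γ : SL(2, ℤ)) 0 1 / 2 := rfl
theorem m59e3_dl_thFun_10 (γ : ↥(m59e3_K N)) :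
    (m59e3_dl_thFun γ) 1 0 = 2 * (γ : SL(2, ℤ)) 1 0 := rfl
theorem m59e3_dl_thFun_11 (γ : ↥(m59e3_K N)) :
    (m59e3_dl_thFun γ) 1 1 = (γ : SL(2, ℤ)) 1 1 := rfl

theorem m59e3_dl_thFun_01' (γ : ↥(m59e3_K N)) :
    2 * (m59e3_dl_thFun γ) 0 1 = (γ : SL(2, ℤ)) 0 1 := by
  rw [m59e3_dl_thFun_01]
  exact Int.mul_ediv_cancel' (m59e3_dl_K_even01 γ)

theorem m59e3_dl_thFun_mem (hN : ¬ 2 ∣ N) (γ : ↥(m59e3_K N)) :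
    m59e3_dl_thFun γ ∈ Gamma0 (2 * (2 * N)) := by
  apply t2c_mem_of_dvd
  rw [m59e3_dl_thFun_10]
  have h2N : ((2 * N : ℕ) : ℤ) ∣ (γ : SL(2, ℤ)) 1 0 := by
    have h : (γ : SL(2, ℤ)) ∈ Gamma0 (2 * N) := by
      rw [m59e3_Gamma0_two_mul hN]
      exact m59e3_K_le_GamR N _ γ.2
    exact t2c_dvd_of_mem h
  push_cast at h2N ⊢
  exact mul_dvd_mul_left 2 h2N

/-- `δ = diag(2, 1)`. -/
def m59e3_dl_delta : GL (Fin 2) ℝ :=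
  Matrix.GeneralLinearGroup.mkOfDetNeZero !![2, 0; 0, 1] (by simp [Matrix.det_fin_two])

theorem m59e3_dl_delta_00 : (m59e3_dl_delta : Matrix (Fin 2) (Fin 2) ℝ) 0 0 = 2 := rfl
theorem m59e3_dl_delta_01 : (m59e3_dl_delta : Matrix (Fin 2) (Fin 2) ℝ) 0 1 = 0 := rfl
theorem m59e3_dl_delta_10 : (m59e3_dl_delta : Matrix (Fin 2) (Fin 2) ℝ) 1 0 = 0 := rfl
theorem m59e3_dl_delta_11 : (m59e3_dl_delta : Matrix (Fin 2) (Fin 2) ℝ) 1 1 = 1 := rfl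

theorem m59e3_dl_gl_ext {a b : GL (Fin 2) ℝ}
    (h00 : (a : Matrix (Fin 2) (Fin 2) ℝ) 0 0 = (b : Matrix (Fin 2) (Fin 2) ℝ) 0 0)
    (h01 : (a : Matrix (Fin 2) (Fin 2) ℝ) 0 1 = (b : Matrix (Fin 2) (Fin 2) ℝ) 0 1)
    (h10 : (a : Matrix (Fin 2) (Fin 2) ℝ) 1 0 = (b : Matrix (Fin 2) (Fin 2) ℝ) 1 0)
    (h11 : (a : Matrix (Fin 2) (Fin 2) ℝ) 1 1 = (b : Matrix (Fin 2) (Fin 2) ℝ) 1 1) : a = b := by
  apply Units.ext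
  ext i j
  fin_cases i <;> fin_cases j
  · exact h00
  · exact h01
  · exact h10
  · exact h11

theorem m59e3_dl_gl_mul_apply (a b : GL (Fin 2) ℝ) (i j : Fin 2) :
    ((a * b : GL (Fin 2) ℝ) : Matrix (Fin 2) (Fin 2) ℝ) i j =
      (a : Matrix (Fin 2) (Fin 2) ℝ) i 0 * (b : Matrix (Fin 2) (Fin 2) ℝ) 0 j +
        (a : Matrix (Fin 2) (Fin 2) ℝ) i 1 * (b : Matrix (Fin 2) (Fin 2) ℝ) 1 j := by
  rw [Units.val_mul, Matrix.mul_apply, Fin.sum_univ_two]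

/-- **(F1)** `δ · θ(γ) = γ · δ`. -/
theorem m59e3_dl_F1 (γ : ↥(m59e3_K N)) :
    m59e3_dl_delta * mapGL ℝ (m59e3_dl_thFun γ) = mapGL ℝ (γ : SL(2, ℤ)) * m59e3_dl_delta := by
  have h01 := m59e3_dl_thFun_01' γ
  apply m59e3_dl_gl_ext <;>
    simp only [m59e3_dl_gl_mul_apply, m59e3_dl_delta_00, m59e3_dl_delta_01, m59e3_dl_delta_10,
      m59e3_dl_delta_11, mapGL_apply, m59e3_dl_thFun_00, m59e3_dl_thFun_10,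
      m59e3_dl_thFun_11]
  · ring
  · rw [← h01]
    push_cast
    ring
  · push_cast
    ring
  · ring

theorem m59e3_dl_map_th (γ : ↥(m59e3_K N)) :
    mapGL ℝ (m59e3_dl_thFun γ) = m59e3_dl_delta⁻¹ * mapGL ℝ (γ : SL(2, ℤ)) * m59e3_dl_delta := by
  rw [mul_assoc, ← m59e3_dl_F1, inv_mul_cancel_left]

theorem m59e3_dl_thFun_mul (γ γ' : ↥(m59e3_K N)) :
    m59e3_dl_thFun (γ * γ') = m59e3_dl_thFun γ * m59e3_dl_thFun γ' := by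
  apply mapGL_injective (S := ℝ)
  rw [map_mul, m59e3_dl_map_th, m59e3_dl_map_th, m59e3_dl_map_th, Subgroup.coe_mul, map_mul]
  group

/-! ### The inverse -/

theorem m59e3_dl_G4_dvd (γ : ↥(Gamma0 (2 * (2 * N)))) :
    ∃ m : ℤ, (γ : SL(2, ℤ)) 1 0 = 2 * (2 * ((N : ℤ) * m)) := by
  obtain ⟨m, hm⟩ := t2c_dvd_of_mem γ.2
  refine ⟨m, ?_⟩
  rw [hm]
  push_cast
  ring

/-- `θ⁻¹` as a function. -/
def m59e3_dl_psFun (γ : ↥(Gamma0 (2 * (2 * N)))) : SL(2, ℤ) :=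
  ⟨!![(γ : SL(2, ℤ)) 0 0, 2 * (γ : SL(2, ℤ)) 0 1; (γ : SL(2, ℤ)) 1 0 / 2, (γ : SL(2, ℤ)) 1 1], by
    rw [Matrix.det_fin_two_of]
    obtain ⟨m, hm⟩ := m59e3_dl_G4_dvd γ
    have hd := m59e3_dl_det (γ : SL(2, ℤ))
    rw [hm, Int.mul_ediv_cancel_left _ (by norm_num : (2 : ℤ) ≠ 0)]
    rw [hm] at hd
    linear_combination hd⟩

theorem m59e3_dl_psFun_00 (γ : ↥(Gamma0 (2 * (2 * N)))) :
    (m59e3_dl_psFun γ) 0 0 = (γ : SL(2, ℤ)) 0 0 := rfl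
theorem m59e3_dl_psFun_01 (γ : ↥(Gamma0 (2 * (2 * N)))) :
    (m59e3_dl_psFun γ) 0 1 = 2 * (γ : SL(2, ℤ)) 0 1 := rfl
theorem m59e3_dl_psFun_10 (γ : ↥(Gamma0 (2 * (2 * N)))) :
    (m59e3_dl_psFun γ) 1 0 = (γ : SL(2, ℤ)) 1 0 / 2 := rfl
theorem m59e3_dl_psFun_11 (γ : ↥(Gamma0 (2 * (2 * N)))) :
    (m59e3_dl_psFun γ) 1 1 = (γ : SL(2, ℤ)) 1 1 := rfl

theorem m59e3_dl_psFun_mem (γ : ↥(Gamma0 (2 * (2 * N)))) : m59e3_dl_psFun γ ∈ m59e3_K N := by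
  obtain ⟨m, hm⟩ := m59e3_dl_G4_dvd γ
  have h10 : (m59e3_dl_psFun γ) 1 0 = 2 * ((N : ℤ) * m) := by
    rw [m59e3_dl_psFun_10, hm, Int.mul_ediv_cancel_left _ (by norm_num : (2 : ℤ) ≠ 0)]
  rw [m59e3_mem_K]
  refine ⟨t2c_mem_of_dvd ?_, ?_⟩
  · rw [h10]
    exact ⟨2 * m, by ring⟩
  · have hd := m59e3_dl_det (γ : SL(2, ℤ))
    rw [hm] at hd
    have hd2 := congrArg (Int.cast : ℤ → ZMod 2) hd
    push_cast at hd2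
    have h2 : (2 : ZMod 2) = 0 := by decide
    rw [h2] at hd2
    simp only [zero_mul, mul_zero, sub_zero] at hd2
    have key : ∀ a d : ZMod 2, a * d = 1 → a = 1 ∧ d = 1 := by decide
    obtain ⟨ha, hd'⟩ := key _ _ hd2
    rw [m59e3_red_eq_one_iff, m59e3_dl_psFun_00, m59e3_dl_psFun_01, h10, m59e3_dl_psFun_11]
    refine ⟨ha, ?_, ?_, hd'⟩
    · push_cast
      rw [h2, zero_mul]
    · push_cast
      rw [h2, zero_mul]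

theorem m59e3_dl_th_ps (hN : ¬ 2 ∣ N) (γ : ↥(Gamma0 (2 * (2 * N)))) :
    m59e3_dl_thFun (⟨m59e3_dl_psFun γ, m59e3_dl_psFun_mem γ⟩ : ↥(m59e3_K N)) = (γ : SL(2, ℤ)) := by
  obtain ⟨m, hm⟩ := m59e3_dl_G4_dvd γ
  apply m59e3_sl2z_ext
  · rfl
  · rw [m59e3_dl_thFun_01]
    show 2 * (γ : SL(2, ℤ)) 0 1 / 2 = _
    exact Int.mul_ediv_cancel_left _ (by norm_num)
  · rw [m59e3_dl_thFun_10]
    show 2 * ((γ : SL(2, ℤ)) 1 0 / 2) = _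
    exact Int.mul_ediv_cancel' ⟨_, hm⟩
  · rfl

theorem m59e3_dl_ps_th (hN : ¬ 2 ∣ N) (γ : ↥(m59e3_K N)) :
    m59e3_dl_psFun (⟨m59e3_dl_thFun γ, m59e3_dl_thFun_mem hN γ⟩ : ↥(Gamma0 (2 * (2 * N)))) =
      (γ : SL(2, ℤ)) := by
  apply m59e3_sl2z_ext
  · rfl
  · rw [m59e3_dl_psFun_01]
    exact m59e3_dl_thFun_01' γ
  · rw [m59e3_dl_psFun_10]
    show 2 * (γ : SL(2, ℤ)) 1 0 / 2 = _
    exact Int.mul_ediv_cancel_left _ (by norm_num)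
  · rfl

/-- **`θ : K ≃* Γ₀(4N)`.** -/
def m59e3_dl_theta (hN : ¬ 2 ∣ N) : ↥(m59e3_K N) ≃* ↥(Gamma0 (2 * (2 * N))) where
  toFun γ := ⟨m59e3_dl_thFun γ, m59e3_dl_thFun_mem hN γ⟩
  invFun γ := ⟨m59e3_dl_psFun γ, m59e3_dl_psFun_mem γ⟩
  left_inv γ := Subtype.ext (m59e3_dl_ps_th hN γ)
  right_inv γ := Subtype.ext (m59e3_dl_th_ps hN γ)
  map_mul' γ γ' := Subtype.ext (m59e3_dl_thFun_mul γ γ')

@[simp] theorem m59e3_dl_theta_coe (hN : ¬ 2 ∣ N) (γ : ↥(m59e3_K N)) :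
    ((m59e3_dl_theta hN γ : ↥(Gamma0 (2 * (2 * N)))) : SL(2, ℤ)) = m59e3_dl_thFun γ := rfl

theorem m59e3_dl_theta_tr (hN : ¬ 2 ∣ N) (γ : ↥(m59e3_K N)) :
    lrpd_tr ((m59e3_dl_theta hN γ : ↥(Gamma0 (2 * (2 * N)))) : SL(2, ℤ)) =
      lrpd_tr (γ : SL(2, ℤ)) := rfl

theorem m59e3_dl_theta_symm_tr (hN : ¬ 2 ∣ N) (γ : ↥(Gamma0 (2 * (2 * N)))) :
    lrpd_tr (((m59e3_dl_theta hN).symm γ : ↥(m59e3_K N)) : SL(2, ℤ)) =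
      lrpd_tr (γ : SL(2, ℤ)) := rfl

/-- `θ` preserves the orientation of the parabolic elements. -/
theorem m59e3_dl_theta_posi (hN : ¬ 2 ∣ N) (γ : ↥(m59e3_K N))
    (htr : lrpd_tr (γ : SL(2, ℤ)) = 2) :
    lrpd_posi ((m59e3_dl_theta hN γ : ↥(Gamma0 (2 * (2 * N)))) : SL(2, ℤ)) ↔
      lrpd_posi (γ : SL(2, ℤ)) := by
  unfold lrpd_posi
  rw [m59e3_dl_theta_coe, m59e3_dl_thFun_01, m59e3_dl_thFun_10]
  obtain ⟨b, hb⟩ := m59e3_dl_K_even01 γ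
  have hd := m59e3_dl_det (γ : SL(2, ℤ))
  unfold lrpd_tr at htr
  rw [hb, Int.mul_ediv_cancel_left _ (by norm_num : (2 : ℤ) ≠ 0)]
  rw [hb] at hd
  set a := (γ : SL(2, ℤ)) 0 0
  set d := (γ : SL(2, ℤ)) 1 1
  set c := (γ : SL(2, ℤ)) 1 0
  have hbc : b * c ≤ 0 := by
    have hd' : d = 2 - a := by linarith
    rw [hd'] at hd
    nlinarith [sq_nonneg (a - 1)]
  constructor
  · intro h
    rcases lt_trichotomy b 0 with hb0 | hb0 | hb0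
    · nlinarith
    · subst hb0
      linarith
    · nlinarith
  · intro h
    rcases lt_trichotomy b 0 with hb0 | hb0 | hb0
    · nlinarith
    · subst hb0
      linarith
    · nlinarith

/-! ### The isomorphism `Φ : V(Γ₀(4N)) ≃ V(K)` -/

section Phi

variable {R : Type*} [CommRing R] {A : Type*} [AddCommGroup A] [Module R A]

/-- **pull-back along `θ`.** -/
def m59e3_dl_Phi (hN : ¬ 2 ∣ N) :
    ↥(twe_wl_V R A (Gamma0 (2 * (2 * N)))) ≃ₗ[R] ↥(twe_wl_V R A (m59e3_K N)) where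
  toFun x := ⟨lrpd_pull (m59e3_dl_theta hN).toMonoidHom x.1, fun γ hγ => by
    rw [lrpd_pull_apply]
    refine x.2 _ ?_
    show lrpd_tr ((m59e3_dl_theta hN γ : ↥(Gamma0 (2 * (2 * N)))) : SL(2, ℤ)) ^ 2 ≤ 4
    rw [m59e3_dl_theta_tr]
    exact hγ⟩
  invFun z := ⟨lrpd_pull (m59e3_dl_theta hN).symm.toMonoidHom z.1, fun γ hγ => by
    rw [lrpd_pull_apply]
    refine z.2 _ ?_
    show lrpd_tr (((m59e3_dl_theta hN).symm γ : ↥(m59e3_K N)) : SL(2, ℤ)) ^ 2 ≤ 4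
    rw [m59e3_dl_theta_symm_tr]
    exact hγ⟩
  map_add' _ _ := rfl
  map_smul' _ _ := rfl
  left_inv x := by
    apply Subtype.ext
    refine AddMonoidHom.ext fun γ => ?_
    obtain ⟨γ, rfl⟩ := Additive.ofMul.surjective γ
    show x.1 (Additive.ofMul ((m59e3_dl_theta hN) ((m59e3_dl_theta hN).symm γ))) = _
    rw [MulEquiv.apply_symm_apply]
  right_inv z := by
    apply Subtype.ext
    refine AddMonoidHom.ext fun γ => ?_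
    obtain ⟨γ, rfl⟩ := Additive.ofMul.surjective γ
    show z.1 (Additive.ofMul ((m59e3_dl_theta hN).symm ((m59e3_dl_theta hN) γ))) = _
    rw [MulEquiv.symm_apply_apply]

@[simp] theorem m59e3_dl_Phi_coe (hN : ¬ 2 ∣ N) (x : ↥(twe_wl_V R A (Gamma0 (2 * (2 * N))))) :
    (m59e3_dl_Phi (R := R) hN x : Additive ↥(m59e3_K N) →+ A) =
      lrpd_pull (m59e3_dl_theta hN).toMonoidHom x.1 := rfl

end Phi

/-- **`Φ` is an isometry for the Poincaré pairings.** -/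
theorem m59e3_dl_Phi_Om {k : Type} [Field k] (S : lrpd_SFam k) [NeZero N] [NeZero (2 * (2 * N))]
    (hN : ¬ 2 ∣ N) (x y : ↥(twe_wl_V k k (Gamma0 (2 * (2 * N))))) :
    twe_wp_Om S (m59e3_K N) (m59e3_neg_one_mem_K N) (m59e3_dl_Phi hN x) (m59e3_dl_Phi hN y) =
      twe_wp_Om S (Gamma0 (2 * (2 * N))) (twe_wp_neg_mem_Gamma0 _) x y := by
  rw [twe_wp_Om_apply, twe_wp_Om_apply]
  exact S.transport (m59e3_K N) (Gamma0 (2 * (2 * N))) (m59e3_neg_one_mem_K N)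
    (twe_wp_neg_mem_Gamma0 _) (m59e3_dl_theta hN) (m59e3_dl_theta_tr hN)
    (m59e3_dl_theta_posi hN) x.1 y.1 x.2 y.2

/-! ### The Hecke operators -/

section hecke

variable {ℓ : ℕ} [Fact ℓ.Prime]

/-- `h = (1 - ℓ) / 2`. -/
def m59e3_dl_h (ℓ : ℕ) : ℤ := (1 - (ℓ : ℤ)) / 2

theorem m59e3_dl_two_h (hℓ2 : ℓ ≠ 2) : 2 * m59e3_dl_h ℓ = 1 - (ℓ : ℤ) := by
  unfold m59e3_dl_h
  apply Int.mul_ediv_cancel'
  have hodd : Odd ℓ := (Fact.out : ℓ.Prime).odd_of_ne_two hℓ2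
  obtain ⟨m, hm⟩ := hodd
  exact ⟨-m, by rw [hm]; push_cast; ring⟩

/-- `p = 1/2` in `𝔽_ℓ`. -/
def m59e3_dl_p (ℓ : ℕ) : ZMod ℓ := ((m59e3_dl_h ℓ : ℤ) : ZMod ℓ)

theorem m59e3_dl_two_p (hℓ2 : ℓ ≠ 2) : 2 * m59e3_dl_p ℓ = 1 := by
  have h := congrArg (Int.cast : ℤ → ZMod ℓ) (m59e3_dl_two_h (ℓ := ℓ) hℓ2)
  push_cast at h
  rw [ZMod.natCast_self, sub_zero] at h
  exact h

theorem m59e3_dl_p_ne (hℓ2 : ℓ ≠ 2) : m59e3_dl_p ℓ ≠ 0 := by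
  intro h
  have h2 := m59e3_dl_two_p (ℓ := ℓ) hℓ2
  rw [h, mul_zero] at h2
  exact zero_ne_one h2

/-- `P = diag(1/2, 1) ∈ GL(2, 𝔽_ℓ)`. -/
def m59e3_dl_P (hℓ2 : ℓ ≠ 2) : GL (Fin 2) (ZMod ℓ) :=
  Matrix.GeneralLinearGroup.mkOfDetNeZero !![m59e3_dl_p ℓ, 0; 0, 1] (by
    rw [Matrix.det_fin_two_of]
    simpa using m59e3_dl_p_ne hℓ2)

theorem m59e3_dl_P_00 (hℓ2 : ℓ ≠ 2) :
    (m59e3_dl_P (ℓ := ℓ) hℓ2 : Matrix (Fin 2) (Fin 2) (ZMod ℓ)) 0 0 = m59e3_dl_p ℓ := rfl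
theorem m59e3_dl_P_01 (hℓ2 : ℓ ≠ 2) :
    (m59e3_dl_P (ℓ := ℓ) hℓ2 : Matrix (Fin 2) (Fin 2) (ZMod ℓ)) 0 1 = 0 := rfl
theorem m59e3_dl_P_10 (hℓ2 : ℓ ≠ 2) :
    (m59e3_dl_P (ℓ := ℓ) hℓ2 : Matrix (Fin 2) (Fin 2) (ZMod ℓ)) 1 0 = 0 := rfl
theorem m59e3_dl_P_11 (hℓ2 : ℓ ≠ 2) :
    (m59e3_dl_P (ℓ := ℓ) hℓ2 : Matrix (Fin 2) (Fin 2) (ZMod ℓ)) 1 1 = 1 := rfl

theorem m59e3_dl_P_infty (hℓ2 : ℓ ≠ 2) :
    m59e3_dl_P (ℓ := ℓ) hℓ2 • (∞ : OnePoint (ZMod ℓ)) = ∞ := by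
  rw [OnePoint.smul_infty_eq_ite, m59e3_dl_P_10, if_pos rfl]

theorem m59e3_dl_P_coe (hℓ2 : ℓ ≠ 2) (j : ZMod ℓ) :
    m59e3_dl_P (ℓ := ℓ) hℓ2 • (j : OnePoint (ZMod ℓ)) =
      ((m59e3_dl_p ℓ * j : ZMod ℓ) : OnePoint (ZMod ℓ)) := by
  rw [OnePoint.smul_some_eq_ite, m59e3_dl_P_10, m59e3_dl_P_11, m59e3_dl_P_00, m59e3_dl_P_01,
    zero_mul, zero_add, if_neg one_ne_zero, add_zero, div_one]

/-- the correcting translation `t_x`. -/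
def m59e3_dl_t (ℓ : ℕ) (x : OnePoint (ZMod ℓ)) : ℤ :=
  x.elim 0 (fun j => ((j.val : ℤ) * m59e3_dl_h ℓ - ((m59e3_dl_p ℓ * j).val : ℤ)) / (ℓ : ℤ))

theorem m59e3_dl_t_infty : m59e3_dl_t ℓ (∞ : OnePoint (ZMod ℓ)) = 0 := rfl

theorem m59e3_dl_t_coe (j : ZMod ℓ) :
    (ℓ : ℤ) * m59e3_dl_t ℓ (j : OnePoint (ZMod ℓ)) =
      (j.val : ℤ) * m59e3_dl_h ℓ - ((m59e3_dl_p ℓ * j).val : ℤ) := by
  show (ℓ : ℤ) * (((j.val : ℤ) * m59e3_dl_h ℓ - ((m59e3_dl_p ℓ * j).val : ℤ)) / (ℓ : ℤ)) = _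
  apply Int.mul_ediv_cancel'
  rw [← ZMod.intCast_zmod_eq_zero_iff_dvd]
  push_cast
  rw [ZMod.natCast_zmod_val, ZMod.natCast_zmod_val]
  unfold m59e3_dl_p
  ring

/-- `v_x = [[1, t_x], [0, 1]]`. -/
def m59e3_dl_v (ℓ : ℕ) (x : OnePoint (ZMod ℓ)) : SL(2, ℤ) :=
  ⟨!![1, m59e3_dl_t ℓ x; 0, 1], by simp [Matrix.det_fin_two]⟩

theorem m59e3_dl_v_mem (M : ℕ) (x : OnePoint (ZMod ℓ)) : m59e3_dl_v ℓ x ∈ Gamma0 M := by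
  rw [Gamma0_mem]
  simp [m59e3_dl_v]

theorem m59e3_dl_v_00 (x : OnePoint (ZMod ℓ)) : (m59e3_dl_v ℓ x) 0 0 = 1 := rfl
theorem m59e3_dl_v_01 (x : OnePoint (ZMod ℓ)) : (m59e3_dl_v ℓ x) 0 1 = m59e3_dl_t ℓ x := rfl
theorem m59e3_dl_v_10 (x : OnePoint (ZMod ℓ)) : (m59e3_dl_v ℓ x) 1 0 = 0 := rfl
theorem m59e3_dl_v_11 (x : OnePoint (ZMod ℓ)) : (m59e3_dl_v ℓ x) 1 1 = 1 := rfl

theorem m59e3_dl_e_P (hℓ2 : ℓ ≠ 2) (x : OnePoint (ZMod ℓ)) :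
    lrih_e ℓ (m59e3_dl_P hℓ2 • x) = lrih_e ℓ x := by
  induction x using OnePoint.rec with
  | infty => rw [m59e3_dl_P_infty]
  | coe j => rw [m59e3_dl_P_coe]; rfl

theorem m59e3_dl_e'_P (hℓ2 : ℓ ≠ 2) (x : OnePoint (ZMod ℓ)) :
    twe_hk_e ℓ (m59e3_dl_P hℓ2 • x) = twe_hk_e ℓ x := by
  induction x using OnePoint.rec with
  | infty => rw [m59e3_dl_P_infty]
  | coe j => rw [m59e3_dl_P_coe]; rfl

/-- the key relation between the upper right entries. -/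
theorem m59e3_dl_r_P (hℓ2 : ℓ ≠ 2) (x : OnePoint (ZMod ℓ)) :
    lrih_r ℓ x = 2 * lrih_r ℓ (m59e3_dl_P hℓ2 • x) +
      (2 * m59e3_dl_t ℓ x + lrih_r ℓ x) * (twe_hk_e ℓ x : ℤ) := by
  induction x using OnePoint.rec with
  | infty =>
    rw [m59e3_dl_P_infty, m59e3_dl_t_infty]
    simp [lrih_r, twe_hk_e]
  | coe j =>
    rw [m59e3_dl_P_coe]
    have h1 := m59e3_dl_t_coe (ℓ := ℓ) j
    have h2 := m59e3_dl_two_h (ℓ := ℓ) hℓ2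
    show (j.val : ℤ) = 2 * ((m59e3_dl_p ℓ * j).val : ℤ) +
      (2 * m59e3_dl_t ℓ (j : OnePoint (ZMod ℓ)) + (j.val : ℤ)) * ((ℓ : ℕ) : ℤ)
    linear_combination (-2 : ℤ) * h1 - (j.val : ℤ) * h2

/-- **(F2)** `R_x · δ = u_x · δ · v_x · R_{P • x}`. -/
theorem m59e3_dl_F2 (hℓ2 : ℓ ≠ 2) (x : OnePoint (ZMod ℓ)) :
    heckeRep ℓ x * m59e3_dl_delta =
      mapGL ℝ (m59e3_hk_u ℓ x) * m59e3_dl_delta * mapGL ℝ (m59e3_dl_v ℓ x) *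
        heckeRep ℓ (m59e3_dl_P hℓ2 • x) := by
  have hr := congrArg (Int.cast : ℤ → ℝ) (m59e3_dl_r_P hℓ2 x)
  push_cast at hr
  apply m59e3_dl_gl_ext <;>
    simp only [m59e3_dl_gl_mul_apply, m59e3_dl_delta_00, m59e3_dl_delta_01, m59e3_dl_delta_10,
      m59e3_dl_delta_11, mapGL_apply, m59e3_hk_u_00, m59e3_hk_u_01, m59e3_hk_u_10, m59e3_hk_u_11,
      m59e3_dl_v_00, m59e3_dl_v_01, m59e3_dl_v_10, m59e3_dl_v_11, lrih_heckeRep_00,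
      lrih_heckeRep_01, lrih_heckeRep_10, twe_hk_rep_11, m59e3_dl_e_P, m59e3_dl_e'_P]
  · push_cast
    ring
  · push_cast
    linear_combination hr
  · push_cast
    ring
  · push_cast
    ring

theorem m59e3_dl_glz_ext {a b : GL (Fin 2) (ZMod ℓ)}
    (h00 : (a : Matrix (Fin 2) (Fin 2) (ZMod ℓ)) 0 0 = (b : Matrix (Fin 2) (Fin 2) (ZMod ℓ)) 0 0)
    (h01 : (a : Matrix (Fin 2) (Fin 2) (ZMod ℓ)) 0 1 = (b : Matrix (Fin 2) (Fin 2) (ZMod ℓ)) 0 1)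
    (h10 : (a : Matrix (Fin 2) (Fin 2) (ZMod ℓ)) 1 0 = (b : Matrix (Fin 2) (Fin 2) (ZMod ℓ)) 1 0)
    (h11 : (a : Matrix (Fin 2) (Fin 2) (ZMod ℓ)) 1 1 = (b : Matrix (Fin 2) (Fin 2) (ZMod ℓ)) 1 1) :
    a = b := by
  apply Units.ext
  ext i j
  fin_cases i <;> fin_cases j
  · exact h00
  · exact h01
  · exact h10
  · exact h11

theorem m59e3_dl_glz_mul_apply (a b : GL (Fin 2) (ZMod ℓ)) (i j : Fin 2) :
    ((a * b : GL (Fin 2) (ZMod ℓ)) : Matrix (Fin 2) (Fin 2) (ZMod ℓ)) i j =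
      (a : Matrix (Fin 2) (Fin 2) (ZMod ℓ)) i 0 * (b : Matrix (Fin 2) (Fin 2) (ZMod ℓ)) 0 j +
        (a : Matrix (Fin 2) (Fin 2) (ZMod ℓ)) i 1 * (b : Matrix (Fin 2) (Fin 2) (ZMod ℓ)) 1 j := by
  rw [Units.val_mul, Matrix.mul_apply, Fin.sum_univ_two]

/-- `redMatrix (θ γ) · P = P · redMatrix γ`. -/
theorem m59e3_dl_red_P (hℓ2 : ℓ ≠ 2) (γ : ↥(m59e3_K N)) :
    redMatrix ℓ (m59e3_dl_thFun γ) * m59e3_dl_P hℓ2 =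
      m59e3_dl_P hℓ2 * redMatrix ℓ (γ : SL(2, ℤ)) := by
  have h2p := m59e3_dl_two_p (ℓ := ℓ) hℓ2
  have h01 := congrArg (Int.cast : ℤ → ZMod ℓ) (m59e3_dl_thFun_01' γ)
  push_cast at h01
  apply m59e3_dl_glz_ext <;>
    simp only [m59e3_dl_glz_mul_apply, redMatrix_apply_zero_zero, redMatrix_apply_zero_one,
      redMatrix_apply_one_zero, redMatrix_apply_one_one, m59e3_dl_P_00, m59e3_dl_P_01,
      m59e3_dl_P_10, m59e3_dl_P_11, m59e3_dl_thFun_00, m59e3_dl_thFun_10, m59e3_dl_thFun_11]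
  · ring
  · rw [← h01]
    linear_combination (-((m59e3_dl_thFun γ 0 1 : ℤ) : ZMod ℓ)) * h2p
  · push_cast
    linear_combination (((γ : SL(2, ℤ)) 1 0 : ℤ) : ZMod ℓ) * h2p
  · ring

/-- the action is compatible with `θ` and `P`. -/
theorem m59e3_dl_act_P (hℓ2 : ℓ ≠ 2) (γ : ↥(m59e3_K N)) (x : OnePoint (ZMod ℓ)) :
    t2c_act (m59e3_dl_thFun γ) (m59e3_dl_P hℓ2 • x) =
      m59e3_dl_P hℓ2 • t2c_act (γ : SL(2, ℤ)) x := by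
  unfold t2c_act
  rw [← mul_smul, ← mul_smul, m59e3_dl_red_P]

/-- **the cocycle at level `4N` in terms of the corrected cocycle on `K`.** -/
theorem m59e3_dl_coc (hN : ¬ 2 ∣ N) (hℓN : ¬ ℓ ∣ N) (hℓ2 : ℓ ≠ 2) (hℓ4 : ¬ ℓ ∣ 2 * (2 * N))
    (x : OnePoint (ZMod ℓ)) (γ : ↥(m59e3_K N))
    (hc : m59e3_hk_coc hℓN x (γ : SL(2, ℤ)) ∈ m59e3_K N) :
    ((t2c_coc hℓ4 (m59e3_dl_P hℓ2 • x) (m59e3_dl_theta hN γ) : Gamma0 (2 * (2 * N))) : SL(2, ℤ)) =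
      (m59e3_dl_v ℓ x)⁻¹ * m59e3_dl_thFun ⟨m59e3_hk_coc hℓN x (γ : SL(2, ℤ)), hc⟩ *
        m59e3_dl_v ℓ (t2c_act (γ : SL(2, ℤ)) x) := by
  apply t2c_coc_unique
  rw [m59e3_dl_theta_coe, m59e3_dl_act_P, map_mul, map_mul, map_inv]
  have hγN : (γ : SL(2, ℤ)) ∈ Gamma0 N := m59e3_K_le N γ.2
  -- the ingredients
  have hF1γ := m59e3_dl_F1 γ
  have hF1c := m59e3_dl_F1 (⟨m59e3_hk_coc hℓN x (γ : SL(2, ℤ)), hc⟩ : ↥(m59e3_K N))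
  have hF2x := m59e3_dl_F2 hℓ2 x
  have hF2x' := m59e3_dl_F2 hℓ2 (t2c_act (γ : SL(2, ℤ)) x)
  have ha := t2c_coc_spec hℓN x ⟨(γ : SL(2, ℤ)), hγN⟩
  have hdef : mapGL ℝ (m59e3_hk_coc hℓN x (γ : SL(2, ℤ))) =
      (mapGL ℝ (m59e3_hk_u ℓ x))⁻¹ *
        mapGL ℝ ((t2c_coc hℓN x ⟨(γ : SL(2, ℤ)), hγN⟩ : Gamma0 N) : SL(2, ℤ)) *
        mapGL ℝ (m59e3_hk_u ℓ (t2c_act (γ : SL(2, ℤ)) x)) := by
    rw [m59e3_hk_coc_of_mem hℓN x hγN, map_mul, map_mul, map_inv]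
  -- solve for the unknowns
  set δ := m59e3_dl_delta
  set Hx := heckeRep ℓ x
  set Hx' := heckeRep ℓ (t2c_act (γ : SL(2, ℤ)) x)
  set Hp := heckeRep ℓ (m59e3_dl_P hℓ2 • x)
  set Hp' := heckeRep ℓ (m59e3_dl_P hℓ2 • t2c_act (γ : SL(2, ℤ)) x)
  set Ux := mapGL ℝ (m59e3_hk_u ℓ x)
  set Ux' := mapGL ℝ (m59e3_hk_u ℓ (t2c_act (γ : SL(2, ℤ)) x))
  set Vx := mapGL ℝ (m59e3_dl_v ℓ x)
  set Vx' := mapGL ℝ (m59e3_dl_v ℓ (t2c_act (γ : SL(2, ℤ)) x))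
  set Gγ := mapGL ℝ (γ : SL(2, ℤ))
  set Gc := mapGL ℝ ((t2c_coc hℓN x ⟨(γ : SL(2, ℤ)), hγN⟩ : Gamma0 N) : SL(2, ℤ))
  set Tγ := mapGL ℝ (m59e3_dl_thFun γ)
  have e1 : Hp = (Ux * δ * Vx)⁻¹ * (Hx * δ) := by
    rw [hF2x]; group
  have e2 : Hp' = (Ux' * δ * Vx')⁻¹ * (Hx' * δ) := by
    rw [hF2x']; group
  have e3 : Tγ = δ⁻¹ * (Gγ * δ) := by
    rw [← hF1γ]; group
  have e4 : mapGL ℝ (m59e3_dl_thFun ⟨m59e3_hk_coc hℓN x (γ : SL(2, ℤ)), hc⟩) =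
      δ⁻¹ * ((Ux⁻¹ * Gc * Ux') * δ) := by
    rw [← hdef]
    show _ = δ⁻¹ * (mapGL ℝ ((⟨m59e3_hk_coc hℓN x (γ : SL(2, ℤ)), hc⟩ : ↥(m59e3_K N)) :
      SL(2, ℤ)) * δ)
    rw [← hF1c]; group
  have e5 : Gc = Hx * Gγ * Hx'⁻¹ := by
    rw [ha]; group
  rw [e4, e1, e2, e3, e5]
  group

variable {A : Type*} [AddCommGroup A]

/-- **`Φ` intertwines `T_ℓ` at level `4N` with the uniform operator on `K`** (raw characters). -/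
theorem m59e3_dl_T (hN : ¬ 2 ∣ N) (hℓN : ¬ ℓ ∣ N) (hℓ2 : ℓ ≠ 2) (hℓ4 : ¬ ℓ ∣ 2 * (2 * N))
    (z : Additive ↥(Gamma0 (2 * (2 * N))) →+ A) :
    lrpd_pull (m59e3_dl_theta hN).toMonoidHom (t2c_Tadd hℓ4 z) =
      m59e3_hd_T (m59e3_hk_D hℓN hℓ2) (le_refl _) (m59e3_K_le N)
        (lrpd_pull (m59e3_dl_theta hN).toMonoidHom z) := by
  refine AddMonoidHom.ext fun γ => ?_
  obtain ⟨γ, rfl⟩ := Additive.ofMul.surjective γ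
  rw [lrpd_pull_apply, m59e3_hd_T_apply]
  show t2c_Tadd hℓ4 z (Additive.ofMul (m59e3_dl_theta hN γ)) = _
  rw [t2c_Tadd_apply]
  -- the elements `v_x` in `Γ₀(4N)`
  set V : OnePoint (ZMod ℓ) → ↥(Gamma0 (2 * (2 * N))) := fun x =>
    ⟨m59e3_dl_v ℓ x, m59e3_dl_v_mem _ x⟩ with hV
  have hc : ∀ x : OnePoint (ZMod ℓ), m59e3_hk_coc hℓN x (γ : SL(2, ℤ)) ∈ m59e3_K N := fun x =>
    m59e3_hd_coc_mem (m59e3_hk_D hℓN hℓ2) (le_refl _) (m59e3_K_le N) x γ.2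
  have h1 : ∀ x : OnePoint (ZMod ℓ),
      lrpd_pull (m59e3_dl_theta hN).toMonoidHom z
        (Additive.ofMul ((m59e3_hd_data (m59e3_hk_D hℓN hℓ2) (le_refl _) (m59e3_K_le N)).coc x γ)) =
      z (Additive.ofMul (V x)) +
        z (Additive.ofMul (t2c_coc hℓ4 (m59e3_dl_P hℓ2 • x) (m59e3_dl_theta hN γ))) -
        z (Additive.ofMul (V (t2c_act (γ : SL(2, ℤ)) x))) := by
    intro x
    rw [lrpd_pull_apply]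
    have h2 : (m59e3_dl_theta hN).toMonoidHom
        ((m59e3_hd_data (m59e3_hk_D hℓN hℓ2) (le_refl _) (m59e3_K_le N)).coc x γ) =
        V x * t2c_coc hℓ4 (m59e3_dl_P hℓ2 • x) (m59e3_dl_theta hN γ) *
          (V (t2c_act (γ : SL(2, ℤ)) x))⁻¹ := by
      apply Subtype.ext
      rw [Subgroup.coe_mul, Subgroup.coe_mul, Subgroup.coe_inv,
        m59e3_dl_coc hN hℓN hℓ2 hℓ4 x γ (hc x)]
      show m59e3_dl_thFun ⟨m59e3_hk_coc hℓN x (γ : SL(2, ℤ)), hc x⟩ = _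
      simp only [hV]
      group
    rw [h2, ofMul_mul, ofMul_mul, ofMul_inv, map_add, map_add, map_neg]
    abel
  rw [Finset.sum_congr rfl fun x _ => h1 x, Finset.sum_sub_distrib, Finset.sum_add_distrib]
  have h3 : ∑ x : OnePoint (ZMod ℓ), z (Additive.ofMul (V (t2c_act (γ : SL(2, ℤ)) x))) =
      ∑ x : OnePoint (ZMod ℓ), z (Additive.ofMul (V x)) :=
    Equiv.sum_comp (t2c_perm (γ : SL(2, ℤ))) fun x => z (Additive.ofMul (V x))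
  have h4 : ∑ x : OnePoint (ZMod ℓ),
      z (Additive.ofMul (t2c_coc hℓ4 (m59e3_dl_P hℓ2 • x) (m59e3_dl_theta hN γ))) =
      ∑ y : OnePoint (ZMod ℓ), z (Additive.ofMul (t2c_coc hℓ4 y (m59e3_dl_theta hN γ))) :=
    Equiv.sum_comp (MulAction.toPerm (m59e3_dl_P (ℓ := ℓ) hℓ2)) fun y =>
      z (Additive.ofMul (t2c_coc hℓ4 y (m59e3_dl_theta hN γ)))
  rw [h3, h4]
  abel

variable {R : Type*} [CommRing R] [Module R A]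

/-- **`Φ ∘ T_ℓ = T'_ℓ ∘ Φ`.** -/
theorem m59e3_dl_Phi_T (hN : ¬ 2 ∣ N) (hℓN : ¬ ℓ ∣ N) (hℓ2 : ℓ ≠ 2) (hℓ4 : ¬ ℓ ∣ 2 * (2 * N))
    (x : ↥(twe_wl_V R A (Gamma0 (2 * (2 * N))))) :
    m59e3_dl_Phi (R := R) hN (twe_wl_T0 hℓ4 x) =
      m59e3_hk_T hℓN hℓ2 (le_refl _) (m59e3_K_le N) (m59e3_dl_Phi hN x) := by
  apply Subtype.ext
  rw [m59e3_dl_Phi_coe, twe_wl_T0_coe, m59e3_hk_T_coe, m59e3_dl_Phi_coe]
  exact m59e3_dl_T hN hℓN hℓ2 hℓ4 x.1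

end hecke

end Fermat.Agent.M59
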