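/-
Project M59 (S59), Sink B, cell [E22-3], sub-cell (EIG) (helper5).  Tag `m59e3_eig_`.

A COMMUTING FAMILY ON A FINITE-DIMENSIONAL SPACE WITH A NONZERO JOINT GENERALISED EIGENSPACE HAS A JOINT
EIGENVECTOR (the family may be infinite).
-/
import Mathlib
import Fermat.Agent.TW.Aut.FreeAbs

set_option autoImplicit false
set_option linter.unusedSectionVars false
set_option linter.unusedVariables false

noncomputable section

namespace Fermat.Agent.M59

open Module Fermat.Agent.TW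

variable {k : Type*} [Field k] {V : Type*} [AddCommGroup V] [Module k V] {L : Type*}

/-- the joint generalised eigenvectors which are honest eigenvectors for the operators in `s`. -/
def m59e3_eig_E (T : L → Module.End k V) (a : L → k) (s : Finset L) : Submodule k V where
  carrier := {v | v ∈ twe_fa_loc T a ∧ ∀ ℓ ∈ s, T ℓ v = a ℓ • v}
  zero_mem' := ⟨Submodule.zero_mem _, fun ℓ _ => by rw [map_zero, smul_zero]⟩
  add_mem' {v w} hv hw := ⟨Submodule.add_mem _ hv.1 hw.1, fun ℓ hℓ => by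
    rw [map_add, hv.2 ℓ hℓ, hw.2 ℓ hℓ, smul_add]⟩
  smul_mem' c v hv := ⟨Submodule.smul_mem _ c hv.1, fun ℓ hℓ => by
    rw [map_smul, hv.2 ℓ hℓ, smul_comm]⟩

theorem m59e3_eig_mem_E {T : L → Module.End k V} {a : L → k} {s : Finset L} {v : V} :
    v ∈ m59e3_eig_E T a s ↔ v ∈ twe_fa_loc T a ∧ ∀ ℓ ∈ s, T ℓ v = a ℓ • v := Iff.rfl

theorem m59e3_eig_E_stable (T : L → Module.End k V) (hcomm : ∀ ℓ ℓ', Commute (T ℓ) (T ℓ'))
    (a : L → k) (s : Finset L) (ℓ : L) {v : V} (hv : v ∈ m59e3_eig_E T a s) :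
    T ℓ v ∈ m59e3_eig_E T a s := by
  refine ⟨?_, fun ℓ' hℓ' => ?_⟩
  · have h1 := hv.1
    rw [twe_fa_loc, Submodule.mem_iInf] at h1 ⊢
    intro ℓ'
    exact Module.End.mapsTo_maxGenEigenspace_of_comm (hcomm ℓ' ℓ) (a ℓ') (h1 ℓ')
  · have h1 : T ℓ' (T ℓ v) = T ℓ (T ℓ' v) := by
      have := (hcomm ℓ' ℓ).eq
      exact LinearMap.congr_fun this v
    rw [h1, hv.2 ℓ' hℓ', map_smul]

theorem m59e3_eig_E_stable_pow (T : L → Module.End k V) (hcomm : ∀ ℓ ℓ', Commute (T ℓ) (T ℓ'))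
    (a : L → k) (s : Finset L) (ℓ : L) (n : ℕ) {v : V} (hv : v ∈ m59e3_eig_E T a s) :
    ((T ℓ - a ℓ • (1 : Module.End k V)) ^ n) v ∈ m59e3_eig_E T a s := by
  induction n generalizing v with
  | zero => simpa using hv
  | succ n ih =>
    rw [pow_succ, Module.End.mul_apply]
    apply ih
    rw [LinearMap.sub_apply, LinearMap.smul_apply, Module.End.one_apply]
    exact Submodule.sub_mem _ (m59e3_eig_E_stable T hcomm a s ℓ hv) (Submodule.smul_mem _ _ hv)

/-- the step: a nonzero vector of `E s` gives a nonzero vector of `E (insert ℓ s)`. -/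
theorem m59e3_eig_step [DecidableEq L] (T : L → Module.End k V)
    (hcomm : ∀ ℓ ℓ', Commute (T ℓ) (T ℓ')) (a : L → k) (s : Finset L) (ℓ : L) {v : V}
    (hv : v ∈ m59e3_eig_E T a s) (hv0 : v ≠ 0) :
    ∃ w ∈ m59e3_eig_E T a (insert ℓ s), w ≠ 0 := by
  classical
  set f : Module.End k V := T ℓ - a ℓ • (1 : Module.End k V) with hf
  have hgen : v ∈ (T ℓ).maxGenEigenspace (a ℓ) := twe_fa_loc_le T a ℓ hv.1
  have hex : ∃ n : ℕ, (f ^ n) v = 0 := (Module.End.mem_maxGenEigenspace (T ℓ) (a ℓ) v).1 hgen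
  set n := Nat.find hex with hn
  have hn0 : n ≠ 0 := by
    intro h0
    have h1 := Nat.find_spec hex
    rw [← hn, h0, pow_zero, Module.End.one_apply] at h1
    exact hv0 h1
  obtain ⟨m, hm⟩ := Nat.exists_eq_succ_of_ne_zero hn0
  refine ⟨(f ^ m) v, ⟨(m59e3_eig_E_stable_pow T hcomm a s ℓ m hv).1, ?_⟩, ?_⟩
  · intro ℓ' hℓ'
    rcases Finset.mem_insert.1 hℓ' with rfl | h
    · have h1 := Nat.find_spec hex
      rw [← hn, hm, pow_succ', Module.End.mul_apply] at h1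
      rw [hf, LinearMap.sub_apply, LinearMap.smul_apply, Module.End.one_apply, sub_eq_zero] at h1
      exact h1
    · exact (m59e3_eig_E_stable_pow T hcomm a s ℓ m hv).2 ℓ' h
  · intro h0
    have h1 : m < n := by rw [hm]; exact Nat.lt_succ_self m
    exact Nat.find_min hex h1 h0

theorem m59e3_eig_E_ne_bot [DecidableEq L] (T : L → Module.End k V)
    (hcomm : ∀ ℓ ℓ', Commute (T ℓ) (T ℓ')) (a : L → k) {y : V} (hy : y ∈ twe_fa_loc T a)
    (hy0 : y ≠ 0) (s : Finset L) : ∃ w ∈ m59e3_eig_E T a s, w ≠ 0 := by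
  induction s using Finset.induction_on with
  | empty =>
    exact ⟨y, ⟨hy, fun ℓ hℓ => absurd hℓ (Finset.notMem_empty ℓ)⟩, hy0⟩
  | insert ℓ s _ ih =>
    obtain ⟨v, hv, hv0⟩ := ih
    exact m59e3_eig_step T hcomm a s ℓ hv hv0

theorem m59e3_eig_E_anti [DecidableEq L] (T : L → Module.End k V) (a : L → k) (s : Finset L)
    (ℓ : L) : m59e3_eig_E T a (insert ℓ s) ≤ m59e3_eig_E T a s := fun v hv =>
  ⟨hv.1, fun ℓ' hℓ' => hv.2 ℓ' (Finset.mem_insert_of_mem hℓ')⟩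

/-- **a joint eigenvector.** -/
theorem m59e3_eig_exists [FiniteDimensional k V] (T : L → Module.End k V)
    (hcomm : ∀ ℓ ℓ', Commute (T ℓ) (T ℓ')) (a : L → k) {y : V} (hy : y ∈ twe_fa_loc T a)
    (hy0 : y ≠ 0) : ∃ y' : V, y' ≠ 0 ∧ ∀ ℓ, T ℓ y' = a ℓ • y' := by
  classical
  obtain ⟨s₀, -, hmin⟩ := (InvImage.wf (fun s : Finset L => finrank k ↥(m59e3_eig_E T a s))
    Nat.lt_wfRel.wf).has_min Set.univ ⟨∅, trivial⟩
  obtain ⟨w, hw, hw0⟩ := m59e3_eig_E_ne_bot T hcomm a hy hy0 s₀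
  refine ⟨w, hw0, fun ℓ => ?_⟩
  have hle := m59e3_eig_E_anti T a s₀ ℓ
  have hrk : finrank k ↥(m59e3_eig_E T a s₀) ≤ finrank k ↥(m59e3_eig_E T a (insert ℓ s₀)) := by
    have := hmin (insert ℓ s₀) trivial
    exact Nat.le_of_not_lt this
  have heq := Submodule.eq_of_le_of_finrank_le hle hrk
  have hw' : w ∈ m59e3_eig_E T a (insert ℓ s₀) := by rw [heq]; exact hw
  exact hw'.2 ℓ (Finset.mem_insert_self ℓ s₀)

end Fermat.Agent.M59
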