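/-
Project M59 (S59), Sink B, cell [E22-3] (helper5; chief #5370, referee helper27 #5362).
Tag `m59e3_`, namespace `Fermat.Agent.M59`.

TARGET: `m59sb_Eq2TwoAt 3` (`M59/SinkB/Seams.lean`): for `W` semistable with `W[3]` irreducible, `M'`
squarefree and even, `r ∣ M'` a prime with `r ≡ 11 (12)`:
`W.IsResiduallyModularOfLevel 3 (2 * M') → W.IsResiduallyModularOfLevel 3 M'`  (level `4N → 2N`).

VOCABULARY: mod-3 eigen-characters of `gh_H M = Γ₀(M)^ab / (parabolic, elliptic)` for the operators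
`t2f_TH M ℓ`, i.e. the vocabulary of main's entry (`lres_entry`, `lrrd2_main`) and exit (`s44c_lift`).
No Galois representation is needed.

* `m59e3_HasEig M G a` : a nonzero `v : gh_H M →+ ZMod 3` with `v ∘ T_H ℓ = a ℓ • v` for the primes
  `ℓ ∤ M`, `ℓ ∈ G`;
* [E3-IN]   `m59e3_In_stmt`   : `W.IsResiduallyModularOfLevel 3 M ⟹ HasEig M {good, ≠ 3} (a_ℓ(W))`;
* [E3-CORE] `m59e3_Core_stmt` : `N` odd, `r ∣ N` prime, `r ≡ 11 (12)`, the system `a` non-Eisenstein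
  at one prime `ℓ₀ ∈ G`, `ℓ₀ ∤ 4N`:   `HasEig (2 * (2 * N)) G a ⟹ HasEig (2 * N) G a`;
* **`m59e3_eq2two3_of : m59e3_In_stmt → m59e3_Core_stmt → m59sb_Eq2TwoAt 3`** PROVED HERE
  (exit: `s44c_lift`; non-Eisenstein prime: `lrv_exists_nonEis_prime`).
-/
import Mathlib
import Fermat.Agent.M59.SinkB.Seams
import Fermat.Agent.S44.Old0.Lift
import Fermat.Agent.LR.NonEis.Main

set_option autoImplicit false
set_option linter.unusedSectionVars false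
set_option linter.unusedVariables false

noncomputable section

namespace Fermat.Agent.M59

open CongruenceSubgroup WeierstrassCurve
open Fermat.Agent.JT3 Fermat.Agent.LR Fermat.Agent.S44

/-- a nonzero mod-`3` eigen-character of `gh_H M` for the operators `T_H ℓ` (`ℓ ∤ M` prime, `ℓ ∈ G`)
with the eigenvalues `a ℓ`. -/
def m59e3_HasEig (M : ℕ) [NeZero M] (G : Set ℕ) (a : ℕ → ℤ) : Prop :=
  ∃ v : gh_H M →+ ZMod 3, v ≠ 0 ∧ ∀ ℓ : ℕ, ℓ.Prime → ¬ ℓ ∣ M → ℓ ∈ G →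
    v.comp (t2f_TH M ℓ).toAddMonoidHom = ((a ℓ : ℤ) : ZMod 3) • v

/-- the good primes of `W` different from `3`. -/
def m59e3_Good (W : WeierstrassCurve ℤ) : Set ℕ := {ℓ | W.IsGoodPrimeFor ℓ ∧ ℓ ≠ 3}

/-- **[E3-IN]** entry: a residually modular `W` of level `M` (mod `3`) gives a nonzero mod-`3`
eigen-character of `gh_H M` with the eigenvalues `a_ℓ(W)` at the good primes `ℓ ∤ M`, `ℓ ≠ 3`. -/
def m59e3_In_stmt : Prop :=
  ∀ (W : WeierstrassCurve ℤ) (M : ℕ) [NeZero M], W.IsResiduallyModularOfLevel 3 M →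
    m59e3_HasEig M (m59e3_Good W) (fun ℓ => W.apOfModel ℓ)

/-- **[E3-CORE]** the level `4N → 2N` for non-Eisenstein mod-`3` systems, `N` odd with a rigidifier
`r ∣ N`, `r ≡ 11 (12)` (no elliptic elements in `Γ₀(N)`). -/
def m59e3_Core_stmt : Prop :=
  ∀ (N r : ℕ) [NeZero (2 * (2 * N))] [NeZero (2 * N)] (G : Set ℕ) (a : ℕ → ℤ),
    ¬ 2 ∣ N → r.Prime → r ∣ N → r % 12 = 11 →
    (∃ ℓ₀ : ℕ, ℓ₀.Prime ∧ ℓ₀ ∈ G ∧ ¬ ℓ₀ ∣ 2 * (2 * N) ∧ ¬ (3 : ℤ) ∣ (ℓ₀ : ℤ) + 1 - a ℓ₀) →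
    m59e3_HasEig (2 * (2 * N)) G a → m59e3_HasEig (2 * N) G a

/-- exit: a mod-`3` eigen-character with the eigenvalues of `W` at ALL good primes `ℓ ∤ M`, `ℓ ≠ 3`
gives residual modularity of level `M`. -/
theorem m59e3_exit (W : WeierstrassCurve ℤ) (M : ℕ) [NeZero M]
    (h : m59e3_HasEig M (m59e3_Good W) (fun ℓ => W.apOfModel ℓ)) :
    W.IsResiduallyModularOfLevel 3 M := by
  obtain ⟨v, hv0, hv⟩ := h
  obtain ⟨g, 𝔪', hg, hmax, hpm, hcong⟩ := s44c_lift (p := 3) (M := M) Nat.prime_three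
    (m59e3_Good W) (fun ℓ => W.apOfModel ℓ) v hv0 hv
  exact ⟨g, 𝔪', hg, hmax, hpm, fun ℓ hℓ hgood hℓM hℓ3 => hcong ℓ hℓ hℓM ⟨hgood, hℓ3⟩⟩

/-- **Box B, `q = 2`, at `p = 3`, from the two cells of [E22-3].** -/
theorem m59e3_eq2two3_of (hIn : m59e3_In_stmt) (hC : m59e3_Core_stmt) : m59sb_Eq2TwoAt 3 := by
  intro W hΔ hW hirr M' r hsq h2 hr hr12 hr3 hrne hrM' hR
  obtain ⟨N, rfl⟩ := h2
  have hN0 : N ≠ 0 := by
    rintro rfl
    simp at hsq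
  have h2N : ¬ 2 ∣ N := by
    rintro ⟨c, rfl⟩
    exact (Nat.squarefree_iff_prime_squarefree.mp hsq) 2 Nat.prime_two ⟨c, by ring⟩
  have hr2 : r ≠ 2 := by
    rintro rfl
    norm_num at hr12
  have hrN : r ∣ N := by
    rcases (Nat.Prime.dvd_mul hr).mp hrM' with h | h
    · exact absurd ((Nat.prime_dvd_prime_iff_eq hr Nat.prime_two).mp h) hr2
    · exact h
  haveI : NeZero (2 * N) := ⟨by positivity⟩
  haveI : NeZero (2 * (2 * N)) := ⟨by positivity⟩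
  -- a non-Eisenstein prime away from the level
  obtain ⟨ℓ₀, hℓ₀, hgood₀, hℓ₀S, hℓ₀3, hnd₀⟩ :=
    lrv_exists_nonEis_prime W hΔ Nat.prime_three (by norm_num) hirr (2 * (2 * N)).primeFactors
  have hℓ₀L : ¬ ℓ₀ ∣ 2 * (2 * N) := fun h =>
    hℓ₀S (Nat.mem_primeFactors.mpr ⟨hℓ₀, h, NeZero.ne _⟩)
  -- entry, core, exit
  have h4 := hIn W (2 * (2 * N)) hR
  have h2' := hC N r (m59e3_Good W) (fun ℓ => W.apOfModel ℓ) h2N hr hrN hr12
    ⟨ℓ₀, hℓ₀, ⟨hgood₀, hℓ₀3⟩, hℓ₀L, by exact_mod_cast hnd₀⟩ h4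
  exact m59e3_exit W (2 * N) h2'

end Fermat.Agent.M59
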