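/-
Project M59 (S59), Sink B, cell [E22-3], sub-cell [E3-IN] (helper5).  Tag `m59e3_`.

**`m59e3_in : m59e3_In_stmt`** (CLOSED): a residually modular `W` of level `M` (mod `3`) gives a nonzero
mod-`3` eigen-character of `gh_H M` with the eigenvalues `a_ℓ(W)` at the good primes `ℓ ∤ M`, `ℓ ≠ 3`.

Proof: `lrtop_mp_main` (`LR/Top/ModP.lean`) without the level-raising prime: the period character of
the eigenform (`lres_entry`) and the reduction of an eigen-lattice (`lrrd2_main`, helper15).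
`m59e3_in_gen` is the statement for any prime `p` and any system `a`.
-/
import Mathlib
import Fermat.Agent.M59.SinkB.E223.Seams
import Fermat.Agent.LR.Top.ModP
import Fermat.Agent.LR.ES.Entry

set_option autoImplicit false
set_option linter.unusedSectionVars false
set_option linter.unusedVariables false

noncomputable section

namespace Fermat.Agent.M59

open CongruenceSubgroup Module WeierstrassCurve
open Fermat.Agent.JT3 Fermat.Agent.LR

/-- reduction of an eigen-character: a nonzero `ψ : gh_H N →+ ℂ` with `ψ ∘ T_l = c_l ψ`, the `c_l`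
congruent to integers `a_l` modulo `𝔪 ∋ p` at the primes of `Good`, gives a nonzero
`v : gh_H N →+ ZMod p` with `v ∘ T_l = a_l v`. -/
theorem m59e3_in_gen {N p : ℕ} [NeZero N] [Fact p.Prime]
    (a : ℕ → ℤ) (Good : ℕ → Prop) (hGood : ∀ l, Good l → l.Prime ∧ ¬ l ∣ N) (c : ℕ → ℂ)
    (𝔪 : Ideal (integralClosure ℤ ℂ)) (hmax : 𝔪.IsMaximal)
    (hpm : ((p : ℕ) : integralClosure ℤ ℂ) ∈ 𝔪)
    (hcong : ∀ l, Good l → ∃ b : integralClosure ℤ ℂ, (b : ℂ) = c l ∧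
      b - ((a l : ℤ) : integralClosure ℤ ℂ) ∈ 𝔪)
    (hentry : ∃ ψ : gh_H N →+ ℂ, ψ ≠ 0 ∧ ∀ l (_ : l.Prime) (_ : ¬ l ∣ N),
      ψ.comp (t2f_TH N l).toAddMonoidHom = c l • ψ) :
    ∃ v : gh_H N →+ ZMod p, v ≠ 0 ∧
      ∀ l, Good l → lrtop_ha_pre N (ZMod p) l v = ((a l : ℤ) : ZMod p) • v := by
  classical
  obtain ⟨ψ, hψ0, hψ⟩ := hentry
  let I := {l : ℕ // Good l}
  let idx : I → ℕ := fun i => i.1
  have hidx : ∀ i : I, (idx i).Prime ∧ ¬ idx i ∣ N := fun i => hGood i.1 i.2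
  let a' : I → ℤ := fun i => a i.1
  choose b hb1 hb2 using fun l : I => hcong l.1 l.2
  have : Module.Finite ℤ (gh_H N →+ ℤ) := lrtop_ha_finite_int
  have : FiniteDimensional (ZMod p) (gh_H N →+ ZMod p) := lrtop_ha_finiteDimensional (ZMod p)
  obtain ⟨v, hv0, hv⟩ := lrrd2_main (p := p) (I := I) a'
    (Λ := gh_H N →+ ℤ) (fun i => lrtop_ha_pre N ℤ (idx i))
    (W := gh_H N →+ ℂ) (fun i => lrtop_ha_preLin N ℂ ℂ (idx i))
    (fun i i' => lrtop_ha_preLin_commute (idx i) (idx i'))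
    (lrtop_ha_cplx N) lrtop_ha_cplx_injective (fun i y => lrtop_ha_cplx_pre (idx i) y)
    ψ hψ0 (by rw [lrtop_ha_span_cplx]; trivial)
    b (by
      intro i
      rw [hb1 i]
      exact hψ (idx i) (hidx i).1 (hidx i).2)
    𝔪 hmax.ne_top hpm hb2
    (V := gh_H N →+ ZMod p) (lrtop_ha_red N p) (lrtop_ha_red_surj p) (lrtop_ha_red_ker p)
    (fun i => lrtop_ha_preLin N (ZMod p) (ZMod p) (idx i))
    (fun i w => lrtop_ha_red_pre p (idx i) w)
  exact ⟨v, hv0, fun l hl => hv ⟨l, hl⟩⟩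

/-- **[E3-IN]**: the seam `m59e3_In_stmt` of `M59/SinkB/E223/Seams.lean`, PROVED. -/
theorem m59e3_in : m59e3_In_stmt := by
  intro W M _ hR
  haveI : Fact (Nat.Prime 3) := ⟨Nat.prime_three⟩
  obtain ⟨f, 𝔪, hf, hmax, hpm, hcong⟩ := hR
  obtain ⟨v, hv0, hv⟩ := m59e3_in_gen (N := M) (p := 3) (fun l => W.apOfModel l)
    (fun l => l.Prime ∧ W.IsGoodPrimeFor l ∧ ¬ l ∣ M ∧ l ≠ 3)
    (fun l hl => ⟨hl.1, hl.2.2.1⟩)
    (fun l => ModularFormClass.qCoeff f l) 𝔪 hmax hpm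
    (fun l hl => hcong l hl.1 hl.2.1 hl.2.2.1 hl.2.2.2)
    (lres_entry f hf)
  refine ⟨v, hv0, fun ℓ hℓ hℓM hG => ?_⟩
  have h := hv ℓ ⟨hℓ, hG.1, hℓM, hG.2⟩
  rw [lrtop_ha_pre_eq_comp] at h
  exact h

end Fermat.Agent.M59
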