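/-
Project M59 (S59), Sink B, cell [E22-3]: **THE CORE CELL IS A THEOREM** (helper5).  Tag `m59e3_cr_`.

`m59e3_core : m59e3_Core_stmt` : for `N` odd with a prime `r ∣ N`, `r ≡ 11 (12)`, and a system `a`
non-Eisenstein at one prime `ℓ₀ ∤ 4N`:  a nonzero mod-`3` eigen-character of `gh_H (4N)` gives one of
`gh_H (2N)` (same eigenvalues at the primes `ℓ ∤ 4N`, `ℓ ∈ G`).

Assembly: the concrete instance of `m59e3_Abs` (`AbsCore.lean`) with `V' = V(K)`, `K = Γ₀(N) ∩ Γ(2)`,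
`V1 = V(Γ₃)`, `V2 = V(Γ₀(2N))`, the uniform Hecke operators `m59e3_hk_T` (`Hk.lean`; `= twe_wl_T0` on
`Γ₀(2N)` by `Cmp2.lean`; `≅ twe_wl_T0` at level `4N` on `K` by `Dlt.lean`), the fields of `CoreA.lean`;
then `m59e3_abs_main`, the bridge `twe_br_equiv` and `m59e3_eig_exists`.

**`m59e3_eq2two3 : m59sb_Eq2TwoAt 3`** (leaf 5 of the master table) is the last line.
-/
import Mathlib
import Fermat.Agent.M59.SinkB.E223.Seams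
import Fermat.Agent.M59.SinkB.E223.In
import Fermat.Agent.M59.SinkB.E223.AbsCore
import Fermat.Agent.M59.SinkB.E223.CoreA
import Fermat.Agent.M59.SinkB.E223.Cmp2
import Fermat.Agent.M59.SinkB.E223.Dlt
import Fermat.Agent.M59.SinkB.E223.Eig
import Fermat.Agent.TW.Aut.Bridge
import Fermat.Agent.TW.Aut.WPair
import Fermat.Agent.LR.PD.Closed
import Fermat.Agent.JT3.T2.Comm

set_option autoImplicit false
set_option linter.unusedSectionVars false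
set_option linter.unusedVariables false
set_option linter.style.haveILetI false

noncomputable section

open CongruenceSubgroup Matrix.SpecialLinearGroup
open scoped MatrixGroups

namespace Fermat.Agent.M59

open Module Fermat.Agent.JT3 Fermat.Agent.LR Fermat.Agent.TW

variable {N : ℕ}

section transport

variable {R : Type*} [CommRing R] {A : Type*} [AddCommGroup A] [Module R A]
  {ℓ ℓ' : ℕ} [Fact ℓ.Prime] [Fact ℓ'.Prime]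

/-- the uniform operators commute on `V(K)` (transported from level `4N`). -/
theorem m59e3_cr_comm (hN : ¬ 2 ∣ N) (hℓN : ¬ ℓ ∣ N) (hℓ2 : ℓ ≠ 2) (hℓ4 : ¬ ℓ ∣ 2 * (2 * N))
    (hℓ'N : ¬ ℓ' ∣ N) (hℓ'2 : ℓ' ≠ 2) (hℓ'4 : ¬ ℓ' ∣ 2 * (2 * N)) :
    Commute (m59e3_hk_T (R := R) (A := A) hℓN hℓ2 (le_refl _) (m59e3_K_le N))
      (m59e3_hk_T (R := R) (A := A) hℓ'N hℓ'2 (le_refl _) (m59e3_K_le N)) := by
  refine LinearMap.ext fun z => ?_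
  obtain ⟨x, rfl⟩ := (m59e3_dl_Phi (R := R) (A := A) hN).surjective z
  show m59e3_hk_T hℓN hℓ2 (le_refl _) (m59e3_K_le N)
      (m59e3_hk_T hℓ'N hℓ'2 (le_refl _) (m59e3_K_le N) (m59e3_dl_Phi hN x)) =
    m59e3_hk_T hℓ'N hℓ'2 (le_refl _) (m59e3_K_le N)
      (m59e3_hk_T hℓN hℓ2 (le_refl _) (m59e3_K_le N) (m59e3_dl_Phi hN x))
  rw [← m59e3_dl_Phi_T hN hℓ'N hℓ'2 hℓ'4, ← m59e3_dl_Phi_T hN hℓN hℓ2 hℓ4,
    ← m59e3_dl_Phi_T hN hℓN hℓ2 hℓ4, ← m59e3_dl_Phi_T hN hℓ'N hℓ'2 hℓ'4]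
  congr 1
  apply Subtype.ext
  rw [twe_wl_T0_coe, twe_wl_T0_coe, twe_wl_T0_coe, twe_wl_T0_coe]
  exact t2k_Tadd_comm hℓ4 hℓ'4 x.1

end transport

/-- the uniform operator at `ℓ` is self-adjoint on `V(K)` (transported from level `4N`). -/
theorem m59e3_cr_sa {k : Type} [Field k] (S : lrpd_SFam k) [NeZero N] [NeZero (2 * (2 * N))]
    {ℓ : ℕ} [Fact ℓ.Prime] (hN : ¬ 2 ∣ N) (hℓN : ¬ ℓ ∣ N) (hℓ2 : ℓ ≠ 2)
    (hℓ4 : ¬ ℓ ∣ 2 * (2 * N)) (z z' : ↥(twe_wl_V k k (m59e3_K N))) :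
    twe_wp_Om S (m59e3_K N) (m59e3_neg_one_mem_K N)
        (m59e3_hk_T hℓN hℓ2 (le_refl _) (m59e3_K_le N) z) z' =
      twe_wp_Om S (m59e3_K N) (m59e3_neg_one_mem_K N) z
        (m59e3_hk_T hℓN hℓ2 (le_refl _) (m59e3_K_le N) z') := by
  obtain ⟨x, rfl⟩ := (m59e3_dl_Phi (R := k) (A := k) hN).surjective z
  obtain ⟨y, rfl⟩ := (m59e3_dl_Phi (R := k) (A := k) hN).surjective z'
  rw [← m59e3_dl_Phi_T hN hℓN hℓ2 hℓ4, ← m59e3_dl_Phi_T hN hℓN hℓ2 hℓ4, m59e3_dl_Phi_Om,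
    m59e3_dl_Phi_Om]
  exact twe_wp_sa0 S hℓ4 x y

/-! ### The index type -/

/-- the primes `ℓ ∈ G`, `ℓ ∤ 4N`. -/
def m59e3_cr_L (N : ℕ) (G : Set ℕ) : Type := {ℓ : ℕ // ℓ.Prime ∧ ℓ ∈ G ∧ ¬ ℓ ∣ 2 * (2 * N)}

instance m59e3_cr_L_fact (G : Set ℕ) (ℓ : m59e3_cr_L N G) : Fact (Nat.Prime ℓ.1) := ⟨ℓ.2.1⟩

theorem m59e3_cr_L_N {G : Set ℕ} (ℓ : m59e3_cr_L N G) : ¬ ℓ.1 ∣ N := fun h =>
  ℓ.2.2.2 (dvd_mul_of_dvd_right (dvd_mul_of_dvd_right h 2) 2)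

theorem m59e3_cr_L_2 {G : Set ℕ} (ℓ : m59e3_cr_L N G) : ℓ.1 ≠ 2 := fun h =>
  ℓ.2.2.2 (by rw [h]; exact dvd_mul_right 2 _)

theorem m59e3_cr_L_2N {G : Set ℕ} (ℓ : m59e3_cr_L N G) : ¬ ℓ.1 ∣ 2 * N := fun h =>
  ℓ.2.2.2 (dvd_mul_of_dvd_right h 2)

theorem m59e3_cr_L_4N {G : Set ℕ} (ℓ : m59e3_cr_L N G) : ¬ ℓ.1 ∣ 2 * (2 * N) := ℓ.2.2.2

/-! ### The concrete instance of the abstract `S₃`-argument -/

section inst

variable [Fact (Nat.Prime 3)] [NeZero N] [NeZero (2 * (2 * N))]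

theorem m59e3_cr_two_ne : (2 : ZMod 3) ≠ 0 := by
  have h : ((2 : ℕ) : ZMod 3) ≠ 0 := by
    rw [Ne, ZMod.natCast_eq_zero_iff]
    norm_num
  exact_mod_cast h

/-- the pairing family over `𝔽₃`. -/
def m59e3_cr_S : lrpd_SFam (ZMod 3) := lrpd_sfam_closed (ZMod 3) m59e3_cr_two_ne

instance m59e3_cr_Gam3_finiteIndex : (m59e3_Gam3 N).FiniteIndex :=
  m59e3_GamR_finiteIndex N m59e3_C3

/-- **the concrete `m59e3_Abs`.** -/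
def m59e3_cr_abs (hN : ¬ 2 ∣ N) (G : Set ℕ) {r : ℕ} (hr : r.Prime) (hrN : r ∣ N)
    (hr3 : r % 3 = 2) (ℓ₀ : m59e3_cr_L N G)
    (χ : ↥(twe_wl_V (ZMod 3) (ZMod 3) (m59e3_Gam3 N)))
    (hχK : ∀ κ ∈ m59e3_K N, m59e3_E χ.1 κ = 0)
    (hχker : ∀ x : ↥(twe_wl_V (ZMod 3) (ZMod 3) (m59e3_Gam3 N)),
      twe_wl_res (m59e3_co_K_le_three N) x = 0 → ∃ c : ZMod 3, x = c • χ) :
    m59e3_Abs (ZMod 3) (m59e3_cr_L N G) ↥(twe_wl_V (ZMod 3) (ZMod 3) (m59e3_K N))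
      ↥(twe_wl_V (ZMod 3) (ZMod 3) (m59e3_Gam3 N))
      ↥(twe_wl_V (ZMod 3) (ZMod 3) (Gamma0 (2 * N))) where
  T' ℓ := m59e3_hk_T (m59e3_cr_L_N ℓ) (m59e3_cr_L_2 ℓ) (le_refl _) (m59e3_K_le N)
  T2 ℓ := m59e3_hk_T (m59e3_cr_L_N ℓ) (m59e3_cr_L_2 ℓ) (m59e3_co_K_le_two hN)
    (m59e3_co_two_le hN)
  ℓ₀ := ℓ₀
  T1 := m59e3_hk_T (m59e3_cr_L_N ℓ₀) (m59e3_cr_L_2 ℓ₀) (m59e3_co_K_le_three N)
    (m59e3_co_three_le N)
  e ℓ := (ℓ.1 : ZMod 3) + 1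
  C := m59e3_wl_conj (m59e3_K_normal N) (m59e3_co_c0 N)
  Wf := m59e3_wl_conj (m59e3_K_normal N) (m59e3_co_w N)
  Wb := m59e3_wl_conj (m59e3_K_normal N) (m59e3_co_w N)⁻¹
  g := m59e3_wl_conj (m59e3_K_normal N) (m59e3_co_g N)
  res1 := twe_wl_res (m59e3_co_K_le_three N)
  cor1 := twe_wl_cor (m59e3_co_rho3 hN) (m59e3_bij3 hN)
  res2 := twe_wl_res (m59e3_co_K_le_two hN)
  cor2 := twe_wl_cor (m59e3_co_rho2 N) (m59e3_co_bij2 hN)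
  Ω' := twe_wp_Om m59e3_cr_S (m59e3_K N) (m59e3_neg_one_mem_K N)
  Ω1 := twe_wp_Om m59e3_cr_S (m59e3_Gam3 N) (m59e3_co_K_le_three N (m59e3_neg_one_mem_K N))
  χ := χ
  ob := m59e3_co_ob hN
  commT' ℓ ℓ' := m59e3_cr_comm hN (m59e3_cr_L_N ℓ) (m59e3_cr_L_2 ℓ) (m59e3_cr_L_4N ℓ)
    (m59e3_cr_L_N ℓ') (m59e3_cr_L_2 ℓ') (m59e3_cr_L_4N ℓ')
  C_T ℓ z := m59e3_hk_conj_T (m59e3_cr_L_N ℓ) (m59e3_cr_L_2 ℓ) (le_refl _) (m59e3_K_le N)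
    (m59e3_K_normal N) (m59e3_co_c0 N) z
  Wf_T ℓ z := m59e3_hk_conj_T (m59e3_cr_L_N ℓ) (m59e3_cr_L_2 ℓ) (le_refl _) (m59e3_K_le N)
    (m59e3_K_normal N) (m59e3_co_w N) z
  Wb_T ℓ z := m59e3_hk_conj_T (m59e3_cr_L_N ℓ) (m59e3_cr_L_2 ℓ) (le_refl _) (m59e3_K_le N)
    (m59e3_K_normal N) (m59e3_co_w N)⁻¹ z
  Wf_Wb z := by
    rw [← m59e3_wl_conj_mul, mul_inv_cancel, m59e3_wl_conj_one]
  g_eq z := by
    rw [m59e3_co_g_eq, m59e3_wl_conj_mul, m59e3_wl_conj_mul, m59e3_wl_conj_mul]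
  cor2_T ℓ z := m59e3_hk_cor_T (m59e3_cr_L_N ℓ) (m59e3_cr_L_2 ℓ) (m59e3_co_K_le_two hN)
    (m59e3_co_two_le hN) (le_refl _) (m59e3_co_K_le_two hN) (m59e3_co_rho2 N)
    (m59e3_co_bij2 hN) z
  res2_cor2 z := m59e3_co_res_cor2 hN z
  res1_T x := m59e3_hk_res_T (m59e3_cr_L_N ℓ₀) (m59e3_cr_L_2 ℓ₀) (m59e3_co_K_le_three N)
    (m59e3_co_three_le N) (le_refl _) (m59e3_co_K_le_three N) x
  cor1_T z := m59e3_hk_cor_T (m59e3_cr_L_N ℓ₀) (m59e3_cr_L_2 ℓ₀) (m59e3_co_K_le_three N)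
    (m59e3_co_three_le N) (le_refl _) (m59e3_co_K_le_three N) (m59e3_co_rho3 hN)
    (m59e3_bij3 hN) z
  res1_cor1 z := m59e3_co_res_cor3 hN z
  nd' z hz := twe_wp_nd m59e3_cr_S (m59e3_K N) (m59e3_neg_one_mem_K N) z hz
  nd1 x hx := twe_wp_nd m59e3_cr_S (m59e3_Gam3 N)
    (m59e3_co_K_le_three N (m59e3_neg_one_mem_K N)) x hx
  skew1 x y := twe_wp_skew m59e3_cr_S (m59e3_Gam3 N)
    (m59e3_co_K_le_three N (m59e3_neg_one_mem_K N)) x y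
  adj x z := twe_wp_adj m59e3_cr_S (m59e3_co_K_le_three N) (m59e3_neg_one_mem_K N)
    (m59e3_co_rho3 hN) (m59e3_bij3 hN) x z
  sa' z z' := m59e3_cr_sa m59e3_cr_S hN (m59e3_cr_L_N ℓ₀) (m59e3_cr_L_2 ℓ₀) (m59e3_cr_L_4N ℓ₀)
    z z'
  ker_res1 := hχker
  T1_χ := by
    rw [m59e3_hk_T_trivK (m59e3_cr_L_N ℓ₀) (m59e3_cr_L_2 ℓ₀) (m59e3_co_K_le_three N)
      (m59e3_co_three_le N) χ hχK, ← Nat.cast_smul_eq_nsmul (ZMod 3)]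
    push_cast
    rfl
  ob_res z hz hob := m59e3_co_ob_res hN hr hrN hr3 z hz hob
  ob_T z hz := m59e3_co_ob_T hN (m59e3_cr_L_N ℓ₀) (m59e3_cr_L_2 ℓ₀) z hz

end inst

/-! ### The core cell -/

theorem m59e3_cr_eigen_mem {k : Type*} [Field k] {V : Type*} [AddCommGroup V] [Module k V]
    (f : Module.End k V) (μ : k) {z : V} (h : f z = μ • z) : z ∈ f.maxGenEigenspace μ := by
  rw [Module.End.mem_maxGenEigenspace]
  refine ⟨1, ?_⟩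
  rw [pow_one, LinearMap.sub_apply, LinearMap.smul_apply, Module.End.one_apply, h, sub_self]

/-- **[E3-CORE] is a theorem.** -/
theorem m59e3_core : m59e3_Core_stmt := by
  intro N r _ _ G a hN hr hrN hr12 hne hEig4
  obtain ⟨ℓ₀n, hℓ₀, hℓ₀G, hℓ₀4, hne3⟩ := hne
  obtain ⟨v, hv0, hv⟩ := hEig4
  haveI : Fact (Nat.Prime 3) := ⟨Nat.prime_three⟩
  haveI : NeZero N := ⟨by
    rintro rfl
    exact hN (dvd_zero 2)⟩
  have hr3 : r % 3 = 2 := by omega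
  by_contra hnot
  -- the data
  let ℓ₀ : m59e3_cr_L N G := ⟨ℓ₀n, hℓ₀, hℓ₀G, hℓ₀4⟩
  obtain ⟨χ, hχK, hχker⟩ := m59e3_co_chi hN hr hrN hr3
  let D := m59e3_cr_abs hN G hr hrN hr3 ℓ₀ χ hχK hχker
  let a' : m59e3_cr_L N G → ZMod 3 := fun ℓ => ((a ℓ.1 : ℤ) : ZMod 3)
  haveI : Module.Finite (ZMod 3) ↥(twe_wl_V (ZMod 3) (ZMod 3) (m59e3_K N)) :=
    twe_wl_finite_V (R := ZMod 3) (A := ZMod 3) (m59e3_K N)
  haveI : Module.Finite (ZMod 3) ↥(twe_wl_V (ZMod 3) (ZMod 3) (m59e3_Gam3 N)) :=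
    twe_wl_finite_V (R := ZMod 3) (A := ZMod 3) (m59e3_Gam3 N)
  haveI : Module.Finite (ZMod 3) ↥(twe_wl_V (ZMod 3) (ZMod 3) (Gamma0 (2 * N))) :=
    twe_wl_finite_V (R := ZMod 3) (A := ZMod 3) (Gamma0 (2 * N))
  -- non-Eisenstein at `ℓ₀`
  have hne' : a' D.ℓ₀ ≠ D.e D.ℓ₀ := by
    show ((a ℓ₀n : ℤ) : ZMod 3) ≠ (ℓ₀n : ZMod 3) + 1
    intro h
    apply hne3
    have h0 : (((ℓ₀n : ℤ) + 1 - a ℓ₀n : ℤ) : ZMod 3) = 0 := by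
      push_cast
      rw [h]
      ring
    have := (ZMod.intCast_zmod_eq_zero_iff_dvd _ 3).1 h0
    exact_mod_cast this
  have h3 : (3 : ZMod 3) = 0 := by
    have : ((3 : ℕ) : ZMod 3) = 0 := ZMod.natCast_self 3
    exact_mod_cast this
  -- the operators on `V2` are main's `T_ℓ` at level `2N`
  have hT2 : ∀ ℓ : m59e3_cr_L N G, D.T2 ℓ = twe_wl_T0 (m59e3_cr_L_2N ℓ) := fun ℓ =>
    m59e3_cmp_wl_T_eq (m59e3_cr_L_N ℓ) (m59e3_cr_L_2 ℓ) (m59e3_cr_L_2N ℓ)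
      (m59e3_co_K_le_two hN) (m59e3_co_two_le hN)
  have hcomm2 : ∀ ℓ ℓ' : m59e3_cr_L N G, Commute (D.T2 ℓ) (D.T2 ℓ') := by
    intro ℓ ℓ'
    rw [hT2 ℓ, hT2 ℓ']
    refine LinearMap.ext fun y => Subtype.ext ?_
    show ((twe_wl_T0 (m59e3_cr_L_2N ℓ)) ((twe_wl_T0 (m59e3_cr_L_2N ℓ')) y) :
        Additive ↥(Gamma0 (2 * N)) →+ ZMod 3) =
      ((twe_wl_T0 (m59e3_cr_L_2N ℓ')) ((twe_wl_T0 (m59e3_cr_L_2N ℓ)) y) :
        Additive ↥(Gamma0 (2 * N)) →+ ZMod 3)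
    rw [twe_wl_T0_coe, twe_wl_T0_coe, twe_wl_T0_coe, twe_wl_T0_coe]
    exact t2k_Tadd_comm (m59e3_cr_L_2N ℓ) (m59e3_cr_L_2N ℓ') y.1
  -- the localisation of `V2` vanishes: otherwise a joint eigenvector gives `HasEig (2N)`
  have hV2 : ∀ y ∈ twe_fa_loc D.T2 a', y = 0 := by
    intro y hy
    by_contra hy0
    obtain ⟨y', hy'0, hy'⟩ := m59e3_eig_exists D.T2 hcomm2 a' hy hy0
    apply hnot
    refine ⟨twe_br_equiv (ZMod 3) (ZMod 3) (2 * N) y', ?_, ?_⟩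
    · intro h0
      apply hy'0
      have := (twe_br_equiv (ZMod 3) (ZMod 3) (2 * N)).injective
        (h0.trans (map_zero (twe_br_equiv (ZMod 3) (ZMod 3) (2 * N))).symm)
      exact this
    · intro ℓ hℓ hℓ2N hℓG
      have hℓ4 : ¬ ℓ ∣ 2 * (2 * N) := by
        intro h
        rcases (Nat.Prime.dvd_mul hℓ).1 h with h2 | h2
        · exact hℓ2N (dvd_mul_of_dvd_left h2 N)
        · exact hℓ2N h2
      obtain ⟨ℓ', hℓ'⟩ : ∃ ℓ' : m59e3_cr_L N G, ℓ'.1 = ℓ := ⟨⟨ℓ, hℓ, hℓG, hℓ4⟩, rfl⟩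
      subst hℓ'
      have h1 := hy' ℓ'
      rw [hT2 ℓ'] at h1
      have h2 := twe_br_T0 (R := ZMod 3) (A := ZMod 3) (m59e3_cr_L_2N ℓ') y'
      rw [← h2, h1]
      exact (twe_br_equiv (ZMod 3) (ZMod 3) (2 * N)).map_smul _ _
  -- hence the localisation of `V'` vanishes
  have hV' := m59e3_abs_main D a' hne' m59e3_cr_two_ne h3 hV2
  -- but the eigen-character of level `4N` gives a nonzero element of it
  set x4 := (twe_br_equiv (ZMod 3) (ZMod 3) (2 * (2 * N))).symm v with hx4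
  have hx4eig : ∀ ℓ : m59e3_cr_L N G,
      twe_wl_T0 (R := ZMod 3) (m59e3_cr_L_4N ℓ) x4 = a' ℓ • x4 := by
    intro ℓ
    apply (twe_br_equiv (ZMod 3) (ZMod 3) (2 * (2 * N))).injective
    rw [twe_br_T0, (twe_br_equiv (ZMod 3) (ZMod 3) (2 * (2 * N))).map_smul, hx4,
      LinearEquiv.apply_symm_apply]
    exact hv ℓ.1 ℓ.2.1 ℓ.2.2.2 ℓ.2.2.1
  have hz : m59e3_dl_Phi (R := ZMod 3) (A := ZMod 3) hN x4 ∈ twe_fa_loc D.T' a' := by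
    rw [twe_fa_mem_loc]
    intro ℓ
    refine ⟨1, ?_⟩
    rw [pow_one, LinearMap.sub_apply, LinearMap.smul_apply, Module.End.one_apply, sub_eq_zero]
    show m59e3_hk_T (m59e3_cr_L_N ℓ) (m59e3_cr_L_2 ℓ) (le_refl _) (m59e3_K_le N)
      (m59e3_dl_Phi hN x4) = a' ℓ • m59e3_dl_Phi hN x4
    rw [← m59e3_dl_Phi_T hN (m59e3_cr_L_N ℓ) (m59e3_cr_L_2 ℓ) (m59e3_cr_L_4N ℓ), hx4eig ℓ]
    exact (m59e3_dl_Phi (R := ZMod 3) (A := ZMod 3) hN).map_smul _ _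
  have hz0 := hV' _ hz
  have hx40 : x4 = 0 := by
    have := (m59e3_dl_Phi (R := ZMod 3) (A := ZMod 3) hN).injective
      (hz0.trans (map_zero (m59e3_dl_Phi (R := ZMod 3) (A := ZMod 3) hN)).symm)
    exact this
  apply hv0
  have h5 : v = twe_br_equiv (ZMod 3) (ZMod 3) (2 * (2 * N)) x4 := by
    rw [hx4, LinearEquiv.apply_symm_apply]
  rw [h5, hx40, map_zero]

/-- **[E22-3] IS CLOSED: Box B, `q = 2`, at `p = 3`** (leaf 5 of the master table). -/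
theorem m59e3_eq2two3 : m59sb_Eq2TwoAt 3 := m59e3_eq2two3_of m59e3_in m59e3_core

end Fermat.Agent.M59
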